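import Mathlib

/-!
# A freeness criterion for finitely generated abelian groups

A finitely generated abelian group `Q` with `dim_ℂ Hom(Q, ℂ) = r` and
`dim_{𝔽_p} Hom(Q, 𝔽_p) ≤ r` for every prime `p` is free of rank `r`.
(Mathlib only; uses the structure theorem `AddCommGroup.equiv_free_prod_directSum_zmod`.)
-/

set_option autoImplicit false

namespace Fermat.Agent.ESJ.ParHom.FreeCrit

open DirectSum

noncomputable section

section data

variable {Q : Type*} [AddCommGroup Q] {n : ℕ} {ι : Type} [DecidableEq ι] {p : ι → ℕ}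
  {e : ι → ℕ} (E : Q ≃+ (Fin n →₀ ℤ) × ⨁ i : ι, ZMod (p i ^ e i))

/-- the free generators -/
def qgen (l : Fin n) : Q := E.symm (Finsupp.single l 1, 0)

/-- the torsion generators -/
def tgen (i : ι) : Q := E.symm (0, DirectSum.of (fun i => ZMod (p i ^ e i)) i 1)

/-- A homomorphism vanishing on the generators is zero. -/
theorem hom_eq_zero {A : Type*} [AddCommGroup A] (ψ : Q →+ A) (h1 : ∀ l, ψ (qgen E l) = 0)
    (h2 : ∀ i, ψ (tgen E i) = 0) : ψ = 0 := by
  set ψ' : (Fin n →₀ ℤ) × (⨁ i : ι, ZMod (p i ^ e i)) →+ A :=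
    ψ.comp E.symm.toAddMonoidHom with hψ'
  have hA : ψ'.comp (AddMonoidHom.inl _ _) = 0 := by
    refine Finsupp.addHom_ext fun l m => ?_
    have e1 : (Finsupp.single l m : Fin n →₀ ℤ) = m • Finsupp.single l 1 := by
      rw [Finsupp.smul_single, smul_eq_mul, mul_one]
    rw [AddMonoidHom.zero_apply, e1, map_zsmul]
    have : ψ'.comp (AddMonoidHom.inl _ _) (Finsupp.single l 1) = 0 := h1 l
    rw [this, smul_zero]
  have hB : ψ'.comp (AddMonoidHom.inr _ _) = 0 := by
    refine DirectSum.addHom_ext fun i y => ?_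
    have e1 : y = (ZMod.cast y : ℤ) • (1 : ZMod (p i ^ e i)) := by
      rw [zsmul_one, ZMod.intCast_zmod_cast]
    rw [AddMonoidHom.zero_apply, e1, map_zsmul, map_zsmul]
    have : ψ'.comp (AddMonoidHom.inr _ _) (DirectSum.of (fun i => ZMod (p i ^ e i)) i 1) = 0 :=
      h2 i
    rw [this, smul_zero]
  refine AddMonoidHom.ext fun x => ?_
  have hx : ψ x = ψ' (E x) := by
    simp [hψ']
  have hsplit : E x = AddMonoidHom.inl _ _ (E x).1 + AddMonoidHom.inr _ _ (E x).2 := by
    simp
  rw [hx, hsplit, map_add]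
  have ha := DFunLike.congr_fun hA (E x).1
  have hb := DFunLike.congr_fun hB (E x).2
  simp only [AddMonoidHom.comp_apply, AddMonoidHom.zero_apply] at ha hb
  rw [ha, hb, add_zero, AddMonoidHom.zero_apply]

section field

variable (k : Type*) [Field k]

/-- evaluation at the generators -/
def EV : (Q →+ k) →ₗ[k] (Fin n → k) × (ι → k) where
  toFun ψ := (fun l => ψ (qgen E l), fun i => ψ (tgen E i))
  map_add' _ _ := rfl
  map_smul' _ _ := rfl

theorem EV_injective : Function.Injective (EV E k) := by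
  intro ψ ψ' h
  have h0 : ψ - ψ' = 0 := by
    refine hom_eq_zero E _ (fun l => ?_) (fun i => ?_)
    · have := congrFun (congrArg Prod.fst h) l
      simp only [EV, LinearMap.coe_mk, AddHom.coe_mk] at this
      rw [AddMonoidHom.sub_apply, this, sub_self]
    · have := congrFun (congrArg Prod.snd h) i
      simp only [EV, LinearMap.coe_mk, AddHom.coe_mk] at this
      rw [AddMonoidHom.sub_apply, this, sub_self]
  exact sub_eq_zero.mp h0

include E in
theorem finite_hom [Finite ι] : Module.Finite k (Q →+ k) := by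
  have := Fintype.ofFinite ι
  exact Module.Finite.of_injective (EV E k) (EV_injective E k)

/-- the homomorphism with prescribed values on the free generators, zero on the torsion -/
def coordHom (c : Fin n → k) : Q →+ k :=
  (Finsupp.liftAddHom (fun l => zmultiplesHom k (c l))).comp
    ((AddMonoidHom.fst _ _).comp E.toAddMonoidHom)

theorem coordHom_qgen (c : Fin n → k) (l : Fin n) : coordHom E k c (qgen E l) = c l := by
  simp [coordHom, qgen]

theorem coordHom_tgen (c : Fin n → k) (i : ι) : coordHom E k c (tgen E i) = 0 := by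
  simp [coordHom, tgen]

/-- evaluation at the free generators -/
def EV1 : (Q →+ k) →ₗ[k] (Fin n → k) where
  toFun ψ := fun l => ψ (qgen E l)
  map_add' _ _ := rfl
  map_smul' _ _ := rfl

theorem EV1_surjective : Function.Surjective (EV1 E k) := fun c =>
  ⟨coordHom E k c, funext fun l => coordHom_qgen E k c l⟩

include E in
theorem le_finrank_hom [Finite ι] : n ≤ Module.finrank k (Q →+ k) := by
  have := finite_hom E k
  have h := LinearMap.finrank_le_finrank_of_surjective (EV1_surjective E k)
  rwa [Module.finrank_fintype_fun_eq_card, Fintype.card_fin] at h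

/-- In characteristic zero, a homomorphism to `k` kills the torsion generators. -/
theorem apply_tgen_eq_zero [CharZero k] (hp : ∀ i, p i ≠ 0) (ψ : Q →+ k) (i : ι) :
    ψ (tgen E i) = 0 := by
  have h1 : (p i ^ e i) • tgen E i = 0 := by
    unfold tgen
    rw [← map_nsmul, Prod.smul_mk, smul_zero, ← map_nsmul, nsmul_one, ZMod.natCast_self,
      map_zero]
    exact map_zero E.symm
  have h2 : (p i ^ e i) • ψ (tgen E i) = 0 := by
    rw [← map_nsmul, h1, map_zero]
  rw [nsmul_eq_mul] at h2
  rcases mul_eq_zero.mp h2 with h | h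
  · exact absurd h (by exact_mod_cast pow_ne_zero _ (hp i))
  · exact h

theorem EV1_injective [CharZero k] (hp : ∀ i, p i ≠ 0) : Function.Injective (EV1 E k) := by
  intro ψ ψ' h
  apply EV_injective E k
  refine Prod.ext h (funext fun i => ?_)
  show ψ (tgen E i) = ψ' (tgen E i)
  rw [apply_tgen_eq_zero E k hp, apply_tgen_eq_zero E k hp]

include E in
theorem finrank_hom_le [CharZero k] (hp : ∀ i, p i ≠ 0) :
    Module.finrank k (Q →+ k) ≤ n := by
  have h := LinearMap.finrank_le_finrank_of_injective (EV1_injective E k hp)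
  rwa [Module.finrank_fintype_fun_eq_card, Fintype.card_fin] at h

end field

/-- the projection onto a torsion summand, reduced mod `p` -/
def torHom (i₀ : ι) [Fact (p i₀).Prime] (he : e i₀ ≠ 0) : Q →+ ZMod (p i₀) :=
  (ZMod.castHom (dvd_pow_self (p i₀) he) (ZMod (p i₀))).toAddMonoidHom.comp
    ((DFinsupp.evalAddMonoidHom i₀).comp ((AddMonoidHom.snd _ _).comp E.toAddMonoidHom))

theorem torHom_tgen (i₀ : ι) [Fact (p i₀).Prime] (he : e i₀ ≠ 0) :
    torHom E i₀ he (tgen E i₀) = 1 := by
  have h1 : torHom E i₀ he (tgen E i₀)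
      = ZMod.castHom (dvd_pow_self (p i₀) he) (ZMod (p i₀))
          ((DirectSum.of (fun i => ZMod (p i ^ e i)) i₀ 1) i₀) := by
    unfold torHom tgen
    simp only [AddMonoidHom.comp_apply, AddEquiv.coe_toAddMonoidHom, AddEquiv.apply_symm_apply,
      AddMonoidHom.coe_snd]
    rfl
  rw [h1, DirectSum.of_eq_same, map_one]

theorem torHom_qgen (i₀ : ι) [Fact (p i₀).Prime] (he : e i₀ ≠ 0) (l : Fin n) :
    torHom E i₀ he (qgen E l) = 0 := by
  simp [torHom, qgen]

include E in
/-- If some torsion summand is nontrivial, `Hom(Q, 𝔽_p)` has dimension at least `n + 1`. -/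
theorem succ_le_finrank_hom [Finite ι] (i₀ : ι) [Fact (p i₀).Prime] (he : e i₀ ≠ 0) :
    n + 1 ≤ Module.finrank (ZMod (p i₀)) (Q →+ ZMod (p i₀)) := by
  have := finite_hom E (ZMod (p i₀))
  let EV2 : (Q →+ ZMod (p i₀)) →ₗ[ZMod (p i₀)] (Fin n → ZMod (p i₀)) × ZMod (p i₀) :=
    { toFun := fun ψ => (fun l => ψ (qgen E l), ψ (tgen E i₀))
      map_add' := fun ψ ψ' => rfl
      map_smul' := fun c ψ => rfl }
  have hsurj : Function.Surjective EV2 := by
    rintro ⟨c, a⟩
    refine ⟨coordHom E (ZMod (p i₀)) c + a • torHom E i₀ he, ?_⟩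
    refine Prod.ext (funext fun l => ?_) ?_
    · show coordHom E (ZMod (p i₀)) c (qgen E l) + a • torHom E i₀ he (qgen E l) = c l
      rw [coordHom_qgen, torHom_qgen, smul_zero, add_zero]
    · show coordHom E (ZMod (p i₀)) c (tgen E i₀) + a • torHom E i₀ he (tgen E i₀) = a
      rw [coordHom_tgen, torHom_tgen, zero_add, smul_eq_mul, mul_one]
  have h := LinearMap.finrank_le_finrank_of_surjective hsurj
  rwa [Module.finrank_prod, Module.finrank_fintype_fun_eq_card, Fintype.card_fin,
    Module.finrank_self] at h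

end data

/-- **Freeness criterion.** A finitely generated abelian group `Q` with
`dim_ℂ Hom(Q, ℂ) = r` and `dim_{𝔽_p} Hom(Q, 𝔽_p) ≤ r` for all primes `p` is free of rank `r`. -/
theorem nonempty_addEquiv_of_finrank_hom (Q : Type*) [AddCommGroup Q] [AddGroup.FG Q] (r : ℕ)
    (h0 : Module.finrank ℂ (Q →+ ℂ) = r)
    (hp : ∀ (p : ℕ) [Fact p.Prime], Module.finrank (ZMod p) (Q →+ ZMod p) ≤ r) :
    Nonempty (Q ≃+ (Fin r → ℤ)) := by
  classical
  obtain ⟨n, ι, _, p, hprime, e, ⟨E⟩⟩ := AddCommGroup.equiv_free_prod_directSum_zmod Q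
  have hp0 : ∀ i, p i ≠ 0 := fun i => (hprime i).ne_zero
  have hn : n = r := by
    have h1 := le_finrank_hom E ℂ
    have h2 := finrank_hom_le E ℂ hp0
    omega
  have he : ∀ i, e i = 0 := by
    intro i
    by_contra hi
    have : Fact (p i).Prime := ⟨hprime i⟩
    have h1 := succ_le_finrank_hom E i hi
    have h2 := hp (p i)
    omega
  have hsub : ∀ x : ⨁ i : ι, ZMod (p i ^ e i), x = 0 := by
    intro x
    refine DFinsupp.ext fun i => ?_
    have h1 : p i ^ e i = 1 := by rw [he i, pow_zero]
    have : Subsingleton (ZMod (p i ^ e i)) := by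
      rw [h1]
      infer_instance
    exact Subsingleton.elim _ _
  have hfst_inj : Function.Injective (fun x : Q => (E x).1) := by
    intro x y hxy
    apply E.injective
    exact Prod.ext hxy ((hsub _).trans (hsub _).symm)
  have hfst_surj : Function.Surjective (fun x : Q => (E x).1) := by
    intro f
    exact ⟨E.symm (f, 0), by simp⟩
  let F : Q ≃+ (Fin n →₀ ℤ) :=
    AddEquiv.ofBijective ((AddMonoidHom.fst _ _).comp E.toAddMonoidHom) ⟨hfst_inj, hfst_surj⟩
  subst hn
  exact ⟨F.trans (Finsupp.linearEquivFunOnFinite ℤ ℤ (Fin n)).toAddEquiv⟩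

end

end Fermat.Agent.ESJ.ParHom.FreeCrit
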