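import Mathlib
import Fermat.Prelude.Def_ModularCurve_PeriodMap
import Fermat.Agent.S21.ParabolicBound

/-!
# ESJ / JAC-TORS : the Euler-characteristic bound for parabolic-elliptic homomorphisms,
over an arbitrary field

For a finite-index subgroup `Γ ∋ -1` of `SL(2, ℤ)` and a field `k` of ANY characteristic, let
`peHoms k Γ k` be the space of homomorphisms `φ : Γ → k` that kill every `γ ∈ Γ` with
`tr(γ)² ≤ 4` (i.e. `±1`, the parabolic and the elliptic elements).  Then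

  `finrank k (peHoms k Γ k) + o_S + o_{ST} + o_T ≤ [SL₂(ℤ) : Γ] + 2`,

where `o_g` is the dimension of the space of `g`-invariant functions on the coset space (= the
number of `⟨g⟩`-orbits).  This is `S21/ParabolicBound.lean` redone without dividing by `2`, `3` or
the cusp widths: the eigenspace arguments are replaced by the orbit-wise primitive
`exists_primitive_of_cycle_sums`.
-/

set_option autoImplicit false

open scoped MatrixGroups
open ModularCurve.Period ModularGroup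

namespace Fermat.Agent.ESJ.ParHom

open Fermat.Agent.S21.ParabolicBound

noncomputable section

/-! ### Primitives along a self-map -/

/-- If every point is periodic for `t` and all cycle sums of `b` along `t` vanish, then `b` is a
`t`-coboundary: `b x = w (t x) - w x`. -/
theorem exists_primitive_of_cycle_sums {X A : Type*} [AddCommGroup A] (t : X → X) (b : X → A)
    (hper : ∀ x, ∃ m, 0 < m ∧ t^[m] x = x)
    (h : ∀ x n, t^[n] x = x → ∑ j ∈ Finset.range n, b (t^[j] x) = 0) :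
    ∃ w : X → A, ∀ x, b x = w (t x) - w x := by
  classical
  -- forward orbits
  set O : X → Set X := fun x => {y | ∃ n, t^[n] x = y} with hO
  have hOt : ∀ x, O (t x) = O x := by
    intro x
    ext y
    constructor
    · rintro ⟨n, rfl⟩
      exact ⟨n + 1, by rw [Function.iterate_succ_apply]⟩
    · rintro ⟨n, rfl⟩
      rcases n with _ | n
      · obtain ⟨m, hm, hmx⟩ := hper x
        refine ⟨m - 1, ?_⟩
        rw [← Function.iterate_succ_apply, Nat.succ_eq_add_one, Nat.sub_add_cancel hm, hmx]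
        rfl
      · exact ⟨n, by rw [← Function.iterate_succ_apply]⟩
  have hne : ∀ x, (O x).Nonempty := fun x => ⟨x, 0, rfl⟩
  -- base points
  set β : X → X := fun x => (hne x).some with hβ
  have hβt : ∀ x, β (t x) = β x := by
    intro x
    simp only [hβ]
    congr 1
    exact hOt x
  have hβmem : ∀ x, ∃ n, t^[n] x = β x := fun x => (hne x).some_mem
  -- `x` is in the forward orbit of its base point
  have hback : ∀ x, ∃ d, t^[d] (β x) = x := by
    intro x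
    obtain ⟨n, hn⟩ := hβmem x
    obtain ⟨m, hm, hmx⟩ := hper x
    refine ⟨n * (m - 1), ?_⟩
    rw [← hn, ← Function.iterate_add_apply]
    have e : n * (m - 1) + n = m * n := by
      obtain ⟨m', rfl⟩ : ∃ m', m = m' + 1 := ⟨m - 1, by omega⟩
      simp only [Nat.add_sub_cancel]
      ring
    rw [e]
    have hp : Function.IsPeriodicPt t m x := hmx
    exact hp.mul_const n
  choose d hd using hback
  set w : X → A := fun x => ∑ j ∈ Finset.range (d x), b (t^[j] (β x)) with hw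
  -- independence of the exponent
  have hind : ∀ x d', t^[d'] (β x) = x → ∑ j ∈ Finset.range d', b (t^[j] (β x)) = w x := by
    have key : ∀ (z y : X) (d₁ d₂ : ℕ), d₁ ≤ d₂ → t^[d₁] z = y → t^[d₂] z = y →
        ∑ j ∈ Finset.range d₂, b (t^[j] z) = ∑ j ∈ Finset.range d₁, b (t^[j] z) := by
      intro z y d₁ d₂ hle h1 h2
      obtain ⟨e, rfl⟩ := Nat.exists_eq_add_of_le hle
      rw [Finset.sum_range_add]
      have h3 : t^[e] y = y := by
        rw [← h1, ← Function.iterate_add_apply, add_comm, h2, h1]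
      have h4 := h y e h3
      have h5 : ∑ x ∈ Finset.range e, b (t^[d₁ + x] z) = ∑ j ∈ Finset.range e, b (t^[j] y) := by
        refine Finset.sum_congr rfl fun j _ => ?_
        rw [add_comm, Function.iterate_add_apply, h1]
      rw [h5, h4, add_zero]
    intro x d' hd'
    rcases le_total d' (d x) with hle | hle
    · exact (key (β x) x d' (d x) hle hd' (hd x)).symm
    · exact key (β x) x (d x) d' hle (hd x) hd'
  refine ⟨w, fun x => ?_⟩
  have h1 : t^[d x + 1] (β (t x)) = t x := by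
    rw [hβt, Function.iterate_succ_apply', hd x]
  have h2 := hind (t x) (d x + 1) h1
  rw [← h2, hβt, Finset.sum_range_succ, hd x]
  simp only [hw]
  abel

/-! ### Parabolic-elliptic homomorphisms -/

variable (Γ : Subgroup SL(2, ℤ))

/-- `φ` kills every `γ ∈ Γ` with `tr(γ)² ≤ 4`: the elements `±1`, the parabolic and the elliptic
elements. -/
def IsPEHom {A : Type*} [AddCommGroup A] (φ : Additive Γ →+ A) : Prop :=
  ∀ γ : Γ, ((γ : SL(2, ℤ)) : Matrix (Fin 2) (Fin 2) ℤ).trace ^ 2 ≤ 4 → φ (Additive.ofMul γ) = 0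

/-- The module of parabolic-elliptic homomorphisms `Γ → A`. -/
def peHoms (R : Type*) [Semiring R] (A : Type*) [AddCommGroup A] [Module R A] :
    Submodule R (Additive Γ →+ A) where
  carrier := {φ | IsPEHom Γ φ}
  zero_mem' := fun _ _ => rfl
  add_mem' := by
    intro φ ψ hφ hψ γ hγ
    show φ (Additive.ofMul γ) + ψ (Additive.ofMul γ) = 0
    rw [hφ γ hγ, hψ γ hγ, add_zero]
  smul_mem' := by
    intro c φ hφ γ hγ
    show c • φ (Additive.ofMul γ) = 0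
    rw [hφ γ hγ, smul_zero]

variable {Γ} in
theorem mem_peHoms_iff {R : Type*} [Semiring R] {A : Type*} [AddCommGroup A] [Module R A]
    {φ : Additive Γ →+ A} : φ ∈ peHoms Γ R A ↔ IsPEHom Γ φ := Iff.rfl

/-- A parabolic-elliptic homomorphism is parabolic in the sense of the Prelude. -/
theorem IsPEHom.isParabolicHom {A : Type*} [AddCommGroup A] {φ : Additive Γ →+ A}
    (h : IsPEHom Γ φ) : IsParabolicHom Γ φ :=
  fun γ hγ => h γ hγ.le

/-! ### The crossed maps attached to a homomorphism, with values in an abelian group -/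

section crossed

variable {Γ}
variable {A : Type*} [AddCommGroup A]

/-- The crossed map attached to a homomorphism `φ : Γ → A`. -/
def cphA (φ : Additive Γ →+ A) (g : SL(2, ℤ)) (x : SL(2, ℤ) ⧸ Γ) : A :=
  φ (Additive.ofMul (kap Γ g x))

theorem cphA_mul (φ : Additive Γ →+ A) (g h : SL(2, ℤ)) (x : SL(2, ℤ) ⧸ Γ) :
    cphA φ (g * h) x = cphA φ g (h • x) + cphA φ h x := by
  unfold cphA
  rw [kap_mul, ofMul_mul, map_add]

theorem cphA_one (φ : Additive Γ →+ A) (x : SL(2, ℤ) ⧸ Γ) : cphA φ 1 x = 0 := by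
  unfold cphA
  rw [kap_one, ofMul_one, map_zero]

theorem cphA_eq_zero_of_fixed {φ : Additive Γ →+ A} (hφ : IsPEHom Γ φ)
    {g : SL(2, ℤ)} {x : SL(2, ℤ) ⧸ Γ} (hx : g • x = x)
    (htr : (g : Matrix (Fin 2) (Fin 2) ℤ).trace ^ 2 ≤ 4) : cphA φ g x = 0 := by
  unfold cphA
  apply hφ
  rw [kap_of_smul_eq Γ hx, trace_conj]
  exact htr

/-- The crossed map attached to a pair `(φ, v)`. -/
def fgenA (g : SL(2, ℤ)) (φ : Additive Γ →+ A) (v : (SL(2, ℤ) ⧸ Γ) → A)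
    (x : SL(2, ℤ) ⧸ Γ) : A :=
  cphA φ g x + (v (g • x) - v x)

theorem fgenA_mul (g h : SL(2, ℤ)) (φ : Additive Γ →+ A) (v : (SL(2, ℤ) ⧸ Γ) → A)
    (x : SL(2, ℤ) ⧸ Γ) :
    fgenA (g * h) φ v x = fgenA g φ v (h • x) + fgenA h φ v x := by
  simp only [fgenA, cphA_mul, mul_smul]
  abel

theorem fgenA_one (φ : Additive Γ →+ A) (v : (SL(2, ℤ) ⧸ Γ) → A) (x : SL(2, ℤ) ⧸ Γ) :
    fgenA 1 φ v x = 0 := by
  simp [fgenA, cphA_one]

theorem fgenA_inv (g : SL(2, ℤ)) (φ : Additive Γ →+ A) (v : (SL(2, ℤ) ⧸ Γ) → A)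
    (x : SL(2, ℤ) ⧸ Γ) : fgenA g⁻¹ φ v x = - fgenA g φ v (g⁻¹ • x) := by
  have h := fgenA_mul g g⁻¹ φ v x
  rw [mul_inv_cancel, fgenA_one] at h
  exact eq_neg_of_add_eq_zero_right h.symm

theorem fgenA_pow (g : SL(2, ℤ)) (n : ℕ) (φ : Additive Γ →+ A) (v : (SL(2, ℤ) ⧸ Γ) → A)
    (x : SL(2, ℤ) ⧸ Γ) :
    fgenA (g ^ n) φ v x = ∑ j ∈ Finset.range n, fgenA g φ v (g ^ j • x) := by
  induction n generalizing x with
  | zero => simp [fgenA_one]
  | succ n ih =>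
    rw [pow_succ, fgenA_mul, ih, Finset.sum_range_succ', pow_zero, one_smul]
    refine congrArg (· + fgenA g φ v x) (Finset.sum_congr rfl fun j _ => ?_)
    rw [pow_succ, mul_smul]

theorem fgenA_eq_zero_of_fixed {φ : Additive Γ →+ A} (hφ : IsPEHom Γ φ)
    (v : (SL(2, ℤ) ⧸ Γ) → A) {g : SL(2, ℤ)} {x : SL(2, ℤ) ⧸ Γ} (hx : g • x = x)
    (htr : (g : Matrix (Fin 2) (Fin 2) ℤ).trace ^ 2 ≤ 4) : fgenA g φ v x = 0 := by
  rw [fgenA, cphA_eq_zero_of_fixed hφ hx htr, hx, sub_self, add_zero]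

theorem exists_pow_smul_trivial [Finite (SL(2, ℤ) ⧸ Γ)] (g : SL(2, ℤ)) :
    ∃ m : ℕ, 0 < m ∧ ∀ x : SL(2, ℤ) ⧸ Γ, (g ^ m) • x = x := by
  refine ⟨orderOf (MulAction.toPermHom SL(2, ℤ) (SL(2, ℤ) ⧸ Γ) g), orderOf_pos _, fun x => ?_⟩
  have h := pow_orderOf_eq_one (MulAction.toPermHom SL(2, ℤ) (SL(2, ℤ) ⧸ Γ) g)
  rw [← map_pow] at h
  have := congrArg (fun e => e x) h
  simpa using this

/-- **Primitive of the crossed map** along an element `g` all of whose powers have `tr² ≤ 4`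
(`g = S`, `S * T`, `T`): `fgenA g φ v = w ∘ g - w`. -/
theorem exists_primitive_fgenA [Finite (SL(2, ℤ) ⧸ Γ)] {φ : Additive Γ →+ A} (hφ : IsPEHom Γ φ)
    (v : (SL(2, ℤ) ⧸ Γ) → A) (g : SL(2, ℤ))
    (hg : ∀ n : ℕ, ((g ^ n : SL(2, ℤ)) : Matrix (Fin 2) (Fin 2) ℤ).trace ^ 2 ≤ 4) :
    ∃ w : (SL(2, ℤ) ⧸ Γ) → A, ∀ x, fgenA g φ v x = w (g • x) - w x := by
  refine exists_primitive_of_cycle_sums (fun x : SL(2, ℤ) ⧸ Γ => g • x) (fgenA g φ v) ?_ ?_
  · intro x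
    obtain ⟨m, hm, hmx⟩ := exists_pow_smul_trivial (Γ := Γ) g
    refine ⟨m, hm, ?_⟩
    rw [smul_iterate]
    exact hmx x
  · intro x n hn
    rw [smul_iterate] at hn
    have h1 := fgenA_pow g n φ v x
    rw [fgenA_eq_zero_of_fixed hφ v hn (hg n)] at h1
    rw [h1]
    refine Finset.sum_congr rfl fun j _ => ?_
    rw [smul_iterate]

theorem trace_S_pow_sq_le (n : ℕ) :
    ((S ^ n : SL(2, ℤ)) : Matrix (Fin 2) (Fin 2) ℤ).trace ^ 2 ≤ 4 := by
  have h4 : (S : SL(2, ℤ)) ^ 4 = 1 := by decide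
  have hn : (S : SL(2, ℤ)) ^ n = S ^ (n % 4) := by
    conv_lhs => rw [← Nat.div_add_mod n 4, pow_add, pow_mul, h4, one_pow, one_mul]
  rw [hn]
  have hlt : n % 4 < 4 := Nat.mod_lt _ (by norm_num)
  interval_cases (n % 4) <;> decide

theorem trace_ST_pow_sq_le (n : ℕ) :
    (((S * T) ^ n : SL(2, ℤ)) : Matrix (Fin 2) (Fin 2) ℤ).trace ^ 2 ≤ 4 := by
  have h6 : (S * T : SL(2, ℤ)) ^ 6 = 1 := by decide
  have hn : (S * T : SL(2, ℤ)) ^ n = (S * T) ^ (n % 6) := by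
    conv_lhs => rw [← Nat.div_add_mod n 6, pow_add, pow_mul, h6, one_pow, one_mul]
  rw [hn]
  have hlt : n % 6 < 6 := Nat.mod_lt _ (by norm_num)
  interval_cases (n % 6) <;> decide

theorem trace_T_pow_sq_le (n : ℕ) :
    ((T ^ n : SL(2, ℤ)) : Matrix (Fin 2) (Fin 2) ℤ).trace ^ 2 ≤ 4 :=
  (trace_T_pow_sq n).le

/-- invariance under `S` and `T` implies invariance under everything -/
theorem invariant_of_S_T' {Y : Type*} {ψ : (SL(2, ℤ) ⧸ Γ) → Y} (hS : ∀ x, ψ (S • x) = ψ x)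
    (hT : ∀ x, ψ (T • x) = ψ x) (g : SL(2, ℤ)) (x : SL(2, ℤ) ⧸ Γ) : ψ (g • x) = ψ x := by
  have hg : g ∈ Subgroup.closure ({S, T} : Set SL(2, ℤ)) := by
    rw [SpecialLinearGroup.SL2Z_generators]; trivial
  induction hg using Subgroup.closure_induction generalizing x with
  | mem g hg =>
    rcases hg with rfl | rfl
    · exact hS x
    · exact hT x
  | one => rw [one_smul]
  | mul g h _ _ ihg ihh => rw [mul_smul, ihg, ihh]
  | inv g _ ih =>
    have := ih (g⁻¹ • x)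
    rw [smul_inv_smul] at this
    exact this.symm

theorem fgenA_eq_zero_of_S_ST {φ : Additive Γ →+ A} {v : (SL(2, ℤ) ⧸ Γ) → A}
    (hS : ∀ x, fgenA S φ v x = 0) (hST : ∀ x, fgenA (S * T) φ v x = 0) (g : SL(2, ℤ))
    (x : SL(2, ℤ) ⧸ Γ) : fgenA g φ v x = 0 := by
  have hT : ∀ x, fgenA T φ v x = 0 := by
    intro x
    have h1 := fgenA_mul S T φ v x
    rw [hST, hS, zero_add] at h1
    exact h1.symm
  have hg : g ∈ Subgroup.closure ({S, T} : Set SL(2, ℤ)) := by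
    rw [SpecialLinearGroup.SL2Z_generators]; trivial
  induction hg using Subgroup.closure_induction generalizing x with
  | mem g hg =>
    rcases hg with rfl | rfl
    · exact hS x
    · exact hT x
  | one => exact fgenA_one φ v x
  | mul g h _ _ ihg ihh => rw [fgenA_mul, ihg, ihh, add_zero]
  | inv g _ ih => rw [fgenA_inv, ih, neg_zero]

theorem cphA_base (φ : Additive Γ →+ A) (γ : Γ) :
    cphA φ (γ : SL(2, ℤ)) (((1 : SL(2, ℤ)) : SL(2, ℤ) ⧸ Γ)) = φ (Additive.ofMul γ) := by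
  have hfix : (γ : SL(2, ℤ)) • (((1 : SL(2, ℤ)) : SL(2, ℤ) ⧸ Γ))
      = (((1 : SL(2, ℤ)) : SL(2, ℤ) ⧸ Γ)) := by
    show (((γ : SL(2, ℤ)) * 1 : SL(2, ℤ)) : SL(2, ℤ) ⧸ Γ) = ((1 : SL(2, ℤ)) : SL(2, ℤ) ⧸ Γ)
    rw [mul_one, QuotientGroup.eq, mul_one]
    exact Γ.inv_mem γ.2
  have hk : kap Γ (γ : SL(2, ℤ)) (((1 : SL(2, ℤ)) : SL(2, ℤ) ⧸ Γ))
      = (⟨_, out_base_mem Γ⟩ : Γ)⁻¹ * γ * ⟨_, out_base_mem Γ⟩ := by
    apply Subtype.ext
    rw [kap_of_smul_eq Γ hfix]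
    rfl
  unfold cphA
  rw [hk, ofMul_mul, ofMul_mul, ofMul_inv, map_add, map_add, map_neg]
  abel

/-- If the crossed maps of `S` and `S * T` attached to `(φ, v)` vanish, then `φ = 0` and `v` is
constant. -/
theorem eq_zero_of_fgenA_eq_zero {φ : Additive Γ →+ A} {v : (SL(2, ℤ) ⧸ Γ) → A}
    (hS : ∀ x, fgenA S φ v x = 0) (hST : ∀ x, fgenA (S * T) φ v x = 0) :
    φ = 0 ∧ ∀ x, v x = v (((1 : SL(2, ℤ)) : SL(2, ℤ) ⧸ Γ)) := by
  have hall := fgenA_eq_zero_of_S_ST hS hST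
  have hφ : φ = 0 := by
    refine AddMonoidHom.ext fun γ => ?_
    have h1 := hall (Additive.toMul γ : Γ) (((1 : SL(2, ℤ)) : SL(2, ℤ) ⧸ Γ))
    rw [fgenA, cphA_base] at h1
    have hfix : ((Additive.toMul γ : Γ) : SL(2, ℤ)) • (((1 : SL(2, ℤ)) : SL(2, ℤ) ⧸ Γ))
        = (((1 : SL(2, ℤ)) : SL(2, ℤ) ⧸ Γ)) := by
      show ((((Additive.toMul γ : Γ) : SL(2, ℤ)) * 1 : SL(2, ℤ)) : SL(2, ℤ) ⧸ Γ)
        = ((1 : SL(2, ℤ)) : SL(2, ℤ) ⧸ Γ)
      rw [mul_one, QuotientGroup.eq, mul_one]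
      exact Γ.inv_mem (Additive.toMul γ : Γ).2
    rw [hfix, sub_self, add_zero] at h1
    simpa using h1
  refine ⟨hφ, fun x => ?_⟩
  obtain ⟨g, rfl⟩ := exists_smul_base Γ x
  have h1 := hall g (((1 : SL(2, ℤ)) : SL(2, ℤ) ⧸ Γ))
  rw [fgenA, hφ] at h1
  simp only [cphA, AddMonoidHom.zero_apply, zero_add] at h1
  exact sub_eq_zero.mp h1

end crossed

/-! ### Linear algebra on functions on the coset space, over a field -/

section field

variable (k : Type*) [Field k]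

/-- pull-back of functions on cosets -/
def Pk (g : SL(2, ℤ)) : ((SL(2, ℤ) ⧸ Γ) → k) →ₗ[k] ((SL(2, ℤ) ⧸ Γ) → k) :=
  LinearMap.funLeft k k (fun x => g • x)

@[simp] theorem Pk_apply (g : SL(2, ℤ)) (v : (SL(2, ℤ) ⧸ Γ) → k) (x : SL(2, ℤ) ⧸ Γ) :
    Pk Γ k g v x = v (g • x) := rfl

/-- invariant functions -/
def Invk (g : SL(2, ℤ)) : Submodule k ((SL(2, ℤ) ⧸ Γ) → k) :=
  LinearMap.ker (Pk Γ k g - LinearMap.id)

theorem mem_Invk {g : SL(2, ℤ)} {v : (SL(2, ℤ) ⧸ Γ) → k} :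
    v ∈ Invk Γ k g ↔ ∀ x, v (g • x) = v x := by
  simp [Invk, LinearMap.mem_ker, funext_iff, sub_eq_zero]

/-- coboundaries along `g` -/
def Rk (g : SL(2, ℤ)) : Submodule k ((SL(2, ℤ) ⧸ Γ) → k) :=
  LinearMap.range (Pk Γ k g - LinearMap.id)

theorem mem_Rk {g : SL(2, ℤ)} {c : (SL(2, ℤ) ⧸ Γ) → k} :
    c ∈ Rk Γ k g ↔ ∃ w : (SL(2, ℤ) ⧸ Γ) → k, ∀ x, c x = w (g • x) - w x := by
  simp only [Rk, LinearMap.mem_range]
  constructor
  · rintro ⟨w, rfl⟩
    exact ⟨w, fun x => rfl⟩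
  · rintro ⟨w, hw⟩
    exact ⟨w, funext fun x => (hw x).symm⟩

variable [Finite (SL(2, ℤ) ⧸ Γ)]

theorem finrank_Rk_add (g : SL(2, ℤ)) :
    Module.finrank k (Rk Γ k g) + Module.finrank k (Invk Γ k g) = Nat.card (SL(2, ℤ) ⧸ Γ) := by
  have := Fintype.ofFinite (SL(2, ℤ) ⧸ Γ)
  have h := LinearMap.finrank_range_add_finrank_ker (Pk Γ k g - LinearMap.id)
  rw [Module.finrank_fintype_fun_eq_card, ← Nat.card_eq_fintype_card] at h
  exact h

/-- a `Fintype` structure on the coset space (only used internally, for finite sums) -/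
local instance instFintypeCosetK : Fintype (SL(2, ℤ) ⧸ Γ) := Fintype.ofFinite _

omit [Finite (SL(2, ℤ) ⧸ Γ)] in
theorem sum_smul_invariant' [Fintype (SL(2, ℤ) ⧸ Γ)] (g : SL(2, ℤ)) {ψ : (SL(2, ℤ) ⧸ Γ) → k}
    (hψ : ∀ x, ψ (g • x) = ψ x) (f : (SL(2, ℤ) ⧸ Γ) → k) :
    ∑ x, ψ x * f (g • x) = ∑ x, ψ x * f x := by
  have h := Equiv.sum_comp (MulAction.toPerm g) (fun x => ψ x * f x)
  simp only [MulAction.toPerm_apply] at h
  rw [← h]
  exact Finset.sum_congr rfl fun x _ => by rw [hψ]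

/-- the pairing `(a, b), ψ ↦ ∑ ψ (b - a)` on `T`-invariant `ψ` -/
def LamE : (((SL(2, ℤ) ⧸ Γ) → k) × ((SL(2, ℤ) ⧸ Γ) → k)) →ₗ[k] (Invk Γ k T) →ₗ[k] k :=
  LinearMap.mk₂ k (fun p ψ => ∑ x, (ψ : (SL(2, ℤ) ⧸ Γ) → k) x * (p.2 x - p.1 x))
    (fun p q ψ => by
      simp only [Prod.snd_add, Prod.fst_add, Pi.add_apply]
      rw [← Finset.sum_add_distrib]
      exact Finset.sum_congr rfl fun x _ => by ring)
    (fun c p ψ => by
      simp only [Prod.smul_snd, Prod.smul_fst, Pi.smul_apply, smul_eq_mul]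
      rw [Finset.mul_sum]
      exact Finset.sum_congr rfl fun x _ => by ring)
    (fun p ψ ψ' => by
      simp only [Submodule.coe_add, Pi.add_apply]
      rw [← Finset.sum_add_distrib]
      exact Finset.sum_congr rfl fun x _ => by ring)
    (fun c p ψ => by
      simp only [Submodule.coe_smul, Pi.smul_apply, smul_eq_mul]
      rw [Finset.mul_sum]
      exact Finset.sum_congr rfl fun x _ => by ring)

/-- the pairing restricted to `Rk S × Rk (S * T)` -/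
def Lam : ((Rk Γ k S) × (Rk Γ k (S * T))) →ₗ[k] (Invk Γ k T) →ₗ[k] k :=
  LamE Γ k ∘ₗ ((Rk Γ k S).subtype.prodMap (Rk Γ k (S * T)).subtype)

theorem Lam_apply (p : (Rk Γ k S) × (Rk Γ k (S * T))) (ψ : Invk Γ k T) :
    Lam Γ k p ψ = ∑ x, (ψ : (SL(2, ℤ) ⧸ Γ) → k) x
      * ((p.2 : (SL(2, ℤ) ⧸ Γ) → k) x - (p.1 : (SL(2, ℤ) ⧸ Γ) → k) x) := rfl

theorem S_invariant_of_mem_ker_flip {ψ : Invk Γ k T}
    (hψ : ψ ∈ LinearMap.ker (Lam Γ k).flip) (y : SL(2, ℤ) ⧸ Γ) :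
    (ψ : (SL(2, ℤ) ⧸ Γ) → k) (S • y) = (ψ : (SL(2, ℤ) ⧸ Γ) → k) y := by
  classical
  set v : (SL(2, ℤ) ⧸ Γ) → k := fun x => if x = S • y then 1 else 0 with hv
  have ha : (fun x => v (S • x) - v x) ∈ Rk Γ k S := (mem_Rk Γ k).mpr ⟨v, fun x => rfl⟩
  have h0 : Lam Γ k (⟨fun x => v (S • x) - v x, ha⟩, 0) ψ = 0 := by
    have := LinearMap.mem_ker.mp hψ
    exact LinearMap.congr_fun this _
  rw [Lam_apply] at h0
  simp only [ZeroMemClass.coe_zero, Pi.zero_apply, zero_sub, hv] at h0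
  have h1 : ∑ x, (ψ : (SL(2, ℤ) ⧸ Γ) → k) x
      * -((if S • x = S • y then (1 : k) else 0) - (if x = S • y then (1 : k) else 0))
      = (ψ : (SL(2, ℤ) ⧸ Γ) → k) (S • y) - (ψ : (SL(2, ℤ) ⧸ Γ) → k) y := by
    have e1 : ∀ x : SL(2, ℤ) ⧸ Γ, (S • x = S • y) ↔ x = y := fun x => smul_left_cancel_iff S
    simp only [e1, neg_sub, mul_sub, Finset.sum_sub_distrib, mul_ite, mul_one, mul_zero,
      Finset.sum_ite_eq', Finset.mem_univ, if_true]
  rw [h1] at h0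
  exact sub_eq_zero.mp h0

theorem finrank_ker_flip_le_one :
    Module.finrank k (LinearMap.ker (Lam Γ k).flip) ≤ 1 := by
  obtain ⟨ev, hev⟩ : ∃ ev : (LinearMap.ker (Lam Γ k).flip) →ₗ[k] k, ∀ ψ, ev ψ
      = (ψ.1 : (SL(2, ℤ) ⧸ Γ) → k) (((1 : SL(2, ℤ)) : SL(2, ℤ) ⧸ Γ)) :=
    ⟨(LinearMap.proj (((1 : SL(2, ℤ)) : SL(2, ℤ) ⧸ Γ))) ∘ₗ (Invk Γ k T).subtype
      ∘ₗ (LinearMap.ker (Lam Γ k).flip).subtype, fun _ => rfl⟩
  have key : ∀ ψ : LinearMap.ker (Lam Γ k).flip, ev ψ = 0 → ψ = 0 := by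
    intro ψ hψ
    rw [hev] at hψ
    apply Subtype.ext
    apply Subtype.ext
    funext x
    obtain ⟨g, rfl⟩ := exists_smul_base Γ x
    rw [invariant_of_S_T' (S_invariant_of_mem_ker_flip Γ k ψ.2) (mem_Invk Γ k |>.mp ψ.1.2) g]
    exact hψ
  have hinj : Function.Injective ev := by
    intro ψ₁ ψ₂ h
    have h0 : ev (ψ₁ - ψ₂) = 0 := by
      have h1 := ev.map_sub ψ₁ ψ₂
      rw [h1, h, sub_self]
    exact sub_eq_zero.mp (key _ h0)
  calc Module.finrank k (LinearMap.ker (Lam Γ k).flip) ≤ Module.finrank k k :=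
        LinearMap.finrank_le_finrank_of_injective hinj
    _ = 1 := Module.finrank_self k

theorem finrank_range_Lam :
    Module.finrank k (Invk Γ k T) ≤ Module.finrank k (LinearMap.range (Lam Γ k)) + 1 := by
  have h := Subspace.finrank_add_finrank_dualCoannihilator_eq (LinearMap.range (Lam Γ k))
  rw [LinearMap.dualCoannihilator_range_eq_ker_flip] at h
  have h1 := finrank_ker_flip_le_one Γ k
  rw [← h]
  exact Nat.add_le_add_left h1 _

/-! ### The crossed maps attached to pairs `(φ, v)`, linearly -/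

omit [Finite (SL(2, ℤ) ⧸ Γ)] in
/-- the crossed map attached to a pair `(φ, v)`, as a linear map -/
def fgenL (g : SL(2, ℤ)) :
    ((peHoms Γ k k) × ((SL(2, ℤ) ⧸ Γ) → k)) →ₗ[k] ((SL(2, ℤ) ⧸ Γ) → k) where
  toFun p := fgenA g (p.1 : Additive Γ →+ k) p.2
  map_add' p q := by
    funext x
    simp only [fgenA, cphA, Prod.fst_add, Prod.snd_add, Submodule.coe_add, AddMonoidHom.add_apply,
      Pi.add_apply]
    ring
  map_smul' c p := by
    funext x
    simp only [fgenA, cphA, Prod.smul_fst, Prod.smul_snd, Submodule.coe_smul, AddMonoidHom.smul_apply,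
      Pi.smul_apply, smul_eq_mul, RingHom.id_apply]
    ring

omit [Finite (SL(2, ℤ) ⧸ Γ)] in
theorem fgenL_apply (g : SL(2, ℤ)) (p : (peHoms Γ k k) × ((SL(2, ℤ) ⧸ Γ) → k))
    (x : SL(2, ℤ) ⧸ Γ) :
    fgenL Γ k g p x = fgenA g (p.1 : Additive Γ →+ k) p.2 x := rfl

theorem fgenL_mem_Rk (g : SL(2, ℤ))
    (hg : ∀ n : ℕ, ((g ^ n : SL(2, ℤ)) : Matrix (Fin 2) (Fin 2) ℤ).trace ^ 2 ≤ 4)
    (p : (peHoms Γ k k) × ((SL(2, ℤ) ⧸ Γ) → k)) : fgenL Γ k g p ∈ Rk Γ k g := by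
  rw [mem_Rk]
  exact exists_primitive_fgenA (mem_peHoms_iff.mp p.1.2) p.2 g hg

theorem Lam_cond (p : (peHoms Γ k k) × ((SL(2, ℤ) ⧸ Γ) → k))
    {ψ : (SL(2, ℤ) ⧸ Γ) → k} (hψ : ∀ x, ψ (T • x) = ψ x) :
    ∑ x, ψ x * (fgenL Γ k (S * T) p x - fgenL Γ k S p x) = 0 := by
  obtain ⟨w, hw⟩ := (mem_Rk Γ k).mp (fgenL_mem_Rk Γ k T trace_T_pow_sq_le p)
  have hT : ∀ x, fgenL Γ k (S * T) p x - fgenL Γ k S p x
      = (w (T • x) - w x) + (fgenL Γ k S p (T • x) - fgenL Γ k S p x) := by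
    intro x
    rw [← hw x]
    simp only [fgenL_apply]
    rw [fgenA_mul]
    ring
  simp only [hT, mul_add, mul_sub, Finset.sum_add_distrib, Finset.sum_sub_distrib]
  rw [sum_smul_invariant' Γ k T hψ, sum_smul_invariant' Γ k T hψ]
  ring

/-- the map `(φ, v) ↦ (a, b)` -/
def Psi :
    ((peHoms Γ k k) × ((SL(2, ℤ) ⧸ Γ) → k)) →ₗ[k] ((Rk Γ k S) × (Rk Γ k (S * T))) :=
  ((fgenL Γ k S).codRestrict (Rk Γ k S) (fgenL_mem_Rk Γ k S trace_S_pow_sq_le)).prod
    ((fgenL Γ k (S * T)).codRestrict (Rk Γ k (S * T))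
      (fgenL_mem_Rk Γ k (S * T) trace_ST_pow_sq_le))

theorem Lam_Psi (p : (peHoms Γ k k) × ((SL(2, ℤ) ⧸ Γ) → k)) : Lam Γ k (Psi Γ k p) = 0 := by
  refine LinearMap.ext fun ψ => ?_
  rw [Lam_apply]
  exact Lam_cond Γ k p ((mem_Invk Γ k).mp ψ.2)

/-- the kernel of `Psi` consists of pairs `(0, constant)` -/
theorem eq_of_Psi_eq_zero
    {p : (peHoms Γ k k) × ((SL(2, ℤ) ⧸ Γ) → k)} (hp : Psi Γ k p = 0) :
    p.1 = 0 ∧ ∀ x, p.2 x = p.2 (((1 : SL(2, ℤ)) : SL(2, ℤ) ⧸ Γ)) := by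
  have hS : ∀ x, fgenA S (p.1 : Additive Γ →+ k) p.2 x = 0 := by
    intro x
    have := congrArg (fun q : (Rk Γ k S) × (Rk Γ k (S * T)) => (q.1 : (SL(2, ℤ) ⧸ Γ) → k) x) hp
    exact this
  have hST : ∀ x, fgenA (S * T) (p.1 : Additive Γ →+ k) p.2 x = 0 := by
    intro x
    have := congrArg (fun q : (Rk Γ k S) × (Rk Γ k (S * T)) => (q.2 : (SL(2, ℤ) ⧸ Γ) → k) x) hp
    exact this
  obtain ⟨h1, h2⟩ := eq_zero_of_fgenA_eq_zero hS hST
  exact ⟨Subtype.ext h1, h2⟩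

/-- `peHoms` is finite-dimensional. -/
theorem finite_peHoms : Module.Finite k (peHoms Γ k k) := by
  have hinj : Function.Injective (Psi Γ k ∘ₗ LinearMap.inl k _ _) := by
    intro φ φ' h
    have h0 : Psi Γ k (φ - φ', 0) = 0 := by
      have e : ((φ - φ', 0) : (peHoms Γ k k) × ((SL(2, ℤ) ⧸ Γ) → k))
          = (φ, 0) - (φ', 0) := by simp
      rw [e, map_sub]
      exact sub_eq_zero.mpr h
    exact sub_eq_zero.mp (eq_of_Psi_eq_zero Γ k h0).1
  exact Module.Finite.of_injective _ hinj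

theorem finrank_ker_Psi_le :
    Module.finrank k (LinearMap.ker (Psi Γ k)) ≤ 1 := by
  obtain ⟨c, hc⟩ : ∃ c : k →ₗ[k] ((peHoms Γ k k) × ((SL(2, ℤ) ⧸ Γ) → k)),
      ∀ t, c t = (0, fun _ => t) :=
    ⟨LinearMap.inr k _ _ ∘ₗ (LinearMap.pi fun _ => LinearMap.id), fun _ => rfl⟩
  have hle : LinearMap.ker (Psi Γ k) ≤ LinearMap.range c := by
    intro p hp
    obtain ⟨h1, h2⟩ := eq_of_Psi_eq_zero Γ k (LinearMap.mem_ker.mp hp)
    refine ⟨p.2 (((1 : SL(2, ℤ)) : SL(2, ℤ) ⧸ Γ)), ?_⟩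
    rw [hc]
    exact Prod.ext h1.symm (funext fun x => (h2 x).symm)
  calc Module.finrank k (LinearMap.ker (Psi Γ k))
      ≤ Module.finrank k (LinearMap.range c) := Submodule.finrank_mono hle
    _ ≤ Module.finrank k k := LinearMap.finrank_range_le c
    _ = 1 := Module.finrank_self k

/-- **The Euler-characteristic bound over an arbitrary field** for parabolic-elliptic
homomorphisms of a finite-index subgroup `Γ` of `SL(2, ℤ)`:
`dim Hom_pe(Γ, k) + o_S + o_{ST} + o_T ≤ [SL₂(ℤ) : Γ] + 2`, where `o_g` is the dimension of the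
space of `g`-invariant functions on the coset space (i.e. the number of `⟨g⟩`-orbits). -/
theorem finrank_peHoms_add_le :
    Module.finrank k (peHoms Γ k k) + Module.finrank k (Invk Γ k S)
      + Module.finrank k (Invk Γ k (S * T)) + Module.finrank k (Invk Γ k T)
      ≤ Nat.card (SL(2, ℤ) ⧸ Γ) + 2 := by
  have := finite_peHoms Γ k
  have h1 := LinearMap.finrank_range_add_finrank_ker (Psi Γ k)
  rw [Module.finrank_prod, Module.finrank_fintype_fun_eq_card, ← Nat.card_eq_fintype_card] at h1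
  have h2 : Module.finrank k (LinearMap.range (Psi Γ k))
      ≤ Module.finrank k (LinearMap.ker (Lam Γ k)) :=
    Submodule.finrank_mono (by
      rintro _ ⟨p, rfl⟩
      exact LinearMap.mem_ker.mpr (Lam_Psi Γ k p))
  have h3 := LinearMap.finrank_range_add_finrank_ker (Lam Γ k)
  rw [Module.finrank_prod] at h3
  have h4 := finrank_range_Lam Γ k
  have h5 := finrank_Rk_add Γ k S
  have h6 := finrank_Rk_add Γ k (S * T)
  have h7 := finrank_ker_Psi_le Γ k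
  omega

end field

end

end Fermat.Agent.ESJ.ParHom
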