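import Mathlib
import Fermat.Agent.ESJ.ParHom.Bound
import Fermat.Agent.S21.OrbitGenus

/-!
# ESJ / JAC-TORS : `dim_k Hom_pe(Γ₀(N), k) ≤ 2 g` over any field `k`

Combination of `ParHom.finrank_peHoms_add_le` with the orbit counts on `SL(2, ℤ) ⧸ Γ₀(N)`.
-/

set_option autoImplicit false

open scoped MatrixGroups
open ModularCurve.Period ModularGroup CongruenceSubgroup

namespace Fermat.Agent.ESJ.ParHom

/-- The dimension of the space of `g`-invariant functions with values in a field `k` on a finite
`G`-set is the number of orbits of the cyclic subgroup generated by `g`. -/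
theorem finrank_invariants_eq_card_orbits' (k : Type*) [Field k] {G X : Type*} [Group G]
    [MulAction G X] [Finite X] (g : G) :
    Module.finrank k
        (LinearMap.ker (LinearMap.funLeft k k (fun x : X => g • x) - LinearMap.id)) =
      Nat.card (MulAction.orbitRel.Quotient (Subgroup.zpowers g) X) := by
  classical
  have : Fintype (MulAction.orbitRel.Quotient (Subgroup.zpowers g) X) := Fintype.ofFinite _
  let Φ : (MulAction.orbitRel.Quotient (Subgroup.zpowers g) X → k) →ₗ[k] (X → k) :=
    LinearMap.funLeft k k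
      (Quotient.mk'' : X → MulAction.orbitRel.Quotient (Subgroup.zpowers g) X)
  have hΦinj : Function.Injective Φ :=
    LinearMap.funLeft_injective_of_surjective k k _ Quotient.mk''_surjective
  have hrange : LinearMap.range Φ =
      LinearMap.ker (LinearMap.funLeft k k (fun x : X => g • x) - LinearMap.id) := by
    ext v
    simp only [LinearMap.mem_range, LinearMap.mem_ker, LinearMap.sub_apply, LinearMap.id_apply,
      sub_eq_zero]
    constructor
    · rintro ⟨w, rfl⟩
      funext x
      show w (Quotient.mk'' (g • x)) = w (Quotient.mk'' x)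
      congr 1
      refine Quotient.sound' ?_
      exact ⟨⟨g, Subgroup.mem_zpowers g⟩, rfl⟩
    · intro hv
      have hv' : ∀ x, v (g • x) = v x := fun x => congrFun hv x
      refine ⟨Quotient.lift v ?_, ?_⟩
      · rintro a b ⟨⟨h, hh⟩, rfl⟩
        obtain ⟨n, rfl⟩ := Subgroup.mem_zpowers_iff.mp hh
        exact Fermat.Agent.S21.orbitInv_apply_zpow_smul g v hv' n b
      · funext x
        rfl
  rw [← hrange, LinearMap.finrank_range_of_inj hΦinj, Module.finrank_fintype_fun_eq_card,
    Nat.card_eq_fintype_card]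

/-- `peHoms` of `Γ₀(N)` with values in a field is finite-dimensional. -/
theorem finite_peHoms_Gamma0 (k : Type*) [Field k] (N : ℕ) [NeZero N] :
    Module.Finite k (peHoms (Gamma0 N) k k) :=
  finite_peHoms (Gamma0 N) k

/-- **Upper bound, any characteristic**: the space of homomorphisms `Γ₀(N) → k` killing `±1`, the
parabolic and the elliptic elements has dimension at most `2 g`. -/
theorem finrank_peHoms_Gamma0_le (k : Type*) [Field k] (N : ℕ) [NeZero N] :
    (Module.finrank k (peHoms (Gamma0 N) k k) : ℚ) ≤ 2 * ModularCurve.genusFormula N := by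
  have h := finrank_peHoms_add_le (Gamma0 N) k
  have hS : Module.finrank k (Invk (Gamma0 N) k S) =
      Nat.card (MulAction.orbitRel.Quotient (Subgroup.zpowers S) (SL(2, ℤ) ⧸ Gamma0 N)) :=
    finrank_invariants_eq_card_orbits' k S
  have hST : Module.finrank k (Invk (Gamma0 N) k (S * T)) =
      Nat.card (MulAction.orbitRel.Quotient (Subgroup.zpowers (S * T)) (SL(2, ℤ) ⧸ Gamma0 N)) :=
    finrank_invariants_eq_card_orbits' k (S * T)
  have hT : Module.finrank k (Invk (Gamma0 N) k T) =
      Nat.card (MulAction.orbitRel.Quotient (Subgroup.zpowers T) (SL(2, ℤ) ⧸ Gamma0 N)) :=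
    finrank_invariants_eq_card_orbits' k T
  rw [hS, hST, hT] at h
  have h2 := Fermat.Agent.S21.two_mul_genusFormula_sub_two N
  have h' : ((Module.finrank k (peHoms (Gamma0 N) k k) : ℕ) : ℚ)
      + (Nat.card (MulAction.orbitRel.Quotient (Subgroup.zpowers S) (SL(2, ℤ) ⧸ Gamma0 N)) : ℚ)
      + (Nat.card (MulAction.orbitRel.Quotient (Subgroup.zpowers (S * T))
          (SL(2, ℤ) ⧸ Gamma0 N)) : ℚ)
      + (Nat.card (MulAction.orbitRel.Quotient (Subgroup.zpowers T)
          (SL(2, ℤ) ⧸ Gamma0 N)) : ℚ) ≤ (Nat.card (SL(2, ℤ) ⧸ Gamma0 N) : ℚ) + 2 := by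
    exact_mod_cast h
  linarith

end Fermat.Agent.ESJ.ParHom
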