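import Mathlib
import Fermat.Agent.ESJ.ParHom.Bound

/-!
# ESJ / JAC-TORS : the group `Γ^ab / ⟨parabolic, elliptic⟩`

`PEQuot Γ` is the abelianization of `Γ ≤ SL(2, ℤ)` modulo the images of all `γ` with
`tr(γ)² ≤ 4` (written additively).  It represents parabolic-elliptic homomorphisms:
`peHoms Γ R A ≃ₗ[R] (PEQuot Γ →+ A)`.  For `Γ` of finite index it is finitely generated.
-/

set_option autoImplicit false

open scoped MatrixGroups
open ModularGroup

namespace Fermat.Agent.ESJ.ParHom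

noncomputable section

variable (Γ : Subgroup SL(2, ℤ))

/-- The subgroup of `Γ^ab` generated by the classes of the elements with `tr² ≤ 4`. -/
def peSub : AddSubgroup (Additive (Abelianization Γ)) :=
  AddSubgroup.closure ((fun γ : Γ => Additive.ofMul (Abelianization.of γ)) ''
    {γ : Γ | ((γ : SL(2, ℤ)) : Matrix (Fin 2) (Fin 2) ℤ).trace ^ 2 ≤ 4})

/-- `Γ^ab` modulo the parabolic and elliptic elements (and `±1`), written additively. -/
abbrev PEQuot : Type := Additive (Abelianization Γ) ⧸ peSub Γ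

/-- The canonical projection `Γ → PEQuot Γ`. -/
def peProj : Additive Γ →+ PEQuot Γ :=
  (QuotientAddGroup.mk' (peSub Γ)).comp (MonoidHom.toAdditive (Abelianization.of (G := Γ)))

theorem peProj_apply (γ : Γ) :
    peProj Γ (Additive.ofMul γ)
      = QuotientAddGroup.mk' (peSub Γ) (Additive.ofMul (Abelianization.of γ)) := rfl

theorem peProj_surjective : Function.Surjective (peProj Γ) := by
  intro y
  obtain ⟨a, rfl⟩ := QuotientAddGroup.mk'_surjective (peSub Γ) y
  obtain ⟨γ, hγ⟩ := QuotientGroup.mk_surjective (s := commutator Γ) (Additive.toMul a)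
  refine ⟨Additive.ofMul γ, ?_⟩
  rw [peProj_apply]
  exact congrArg (QuotientAddGroup.mk' (peSub Γ)) (congrArg Additive.ofMul hγ)

theorem peProj_eq_zero (γ : Γ)
    (h : ((γ : SL(2, ℤ)) : Matrix (Fin 2) (Fin 2) ℤ).trace ^ 2 ≤ 4) :
    peProj Γ (Additive.ofMul γ) = 0 := by
  rw [peProj_apply, QuotientAddGroup.mk'_apply, QuotientAddGroup.eq_zero_iff]
  exact AddSubgroup.subset_closure ⟨γ, h, rfl⟩

variable {Γ}
variable {A : Type*} [AddCommGroup A]

/-- The homomorphism `Γ^ab → A` induced by `φ : Γ → A`. -/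
def abLift (φ : Additive Γ →+ A) : Additive (Abelianization Γ) →+ A :=
  MonoidHom.toAdditiveLeft (Abelianization.lift (AddMonoidHom.toMultiplicativeRight φ))

theorem abLift_of (φ : Additive Γ →+ A) (γ : Γ) :
    abLift φ (Additive.ofMul (Abelianization.of γ)) = φ (Additive.ofMul γ) := by
  simp [abLift]

theorem peSub_le_ker_abLift {φ : Additive Γ →+ A} (hφ : IsPEHom Γ φ) :
    peSub Γ ≤ (abLift φ).ker := by
  rw [peSub, AddSubgroup.closure_le]
  rintro _ ⟨γ, hγ, rfl⟩
  rw [SetLike.mem_coe, AddMonoidHom.mem_ker, abLift_of]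
  exact hφ γ hγ

/-- The homomorphism `PEQuot Γ → A` induced by a parabolic-elliptic homomorphism. -/
def peLift (φ : Additive Γ →+ A) (hφ : IsPEHom Γ φ) : PEQuot Γ →+ A :=
  QuotientAddGroup.lift (peSub Γ) (abLift φ) (peSub_le_ker_abLift hφ)

@[simp] theorem peLift_peProj (φ : Additive Γ →+ A) (hφ : IsPEHom Γ φ) (x : Additive Γ) :
    peLift φ hφ (peProj Γ x) = φ x := by
  obtain ⟨γ, rfl⟩ : ∃ γ : Γ, Additive.ofMul γ = x := ⟨Additive.toMul x, rfl⟩
  rw [peProj_apply, peLift, QuotientAddGroup.mk'_apply, QuotientAddGroup.lift_mk, abLift_of]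

theorem isPEHom_comp_peProj (ψ : PEQuot Γ →+ A) : IsPEHom Γ (ψ.comp (peProj Γ)) := by
  intro γ hγ
  rw [AddMonoidHom.comp_apply, peProj_eq_zero Γ γ hγ, map_zero]

theorem peLift_comp_peProj (ψ : PEQuot Γ →+ A) :
    peLift (ψ.comp (peProj Γ)) (isPEHom_comp_peProj ψ) = ψ := by
  refine AddMonoidHom.ext fun y => ?_
  obtain ⟨x, rfl⟩ := peProj_surjective Γ y
  rw [peLift_peProj, AddMonoidHom.comp_apply]

variable (Γ) in
/-- **Universal property**: parabolic-elliptic homomorphisms `Γ → A` are the homomorphisms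
`PEQuot Γ → A`. -/
def peHomsEquiv (R : Type*) [Semiring R] (A : Type*) [AddCommGroup A] [Module R A] :
    peHoms Γ R A ≃ₗ[R] (PEQuot Γ →+ A) where
  toFun φ := peLift (φ : Additive Γ →+ A) (mem_peHoms_iff.mp φ.2)
  invFun ψ := ⟨ψ.comp (peProj Γ), mem_peHoms_iff.mpr (isPEHom_comp_peProj ψ)⟩
  map_add' φ ψ := by
    refine AddMonoidHom.ext fun y => ?_
    obtain ⟨x, rfl⟩ := peProj_surjective Γ y
    rw [AddMonoidHom.add_apply, peLift_peProj, peLift_peProj, peLift_peProj]
    rfl
  map_smul' c φ := by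
    refine AddMonoidHom.ext fun y => ?_
    obtain ⟨x, rfl⟩ := peProj_surjective Γ y
    rw [RingHom.id_apply, AddMonoidHom.smul_apply, peLift_peProj, peLift_peProj]
    rfl
  left_inv φ := by
    apply Subtype.ext
    refine AddMonoidHom.ext fun x => ?_
    show peLift (φ : Additive Γ →+ A) (mem_peHoms_iff.mp φ.2) (peProj Γ x)
      = (φ : Additive Γ →+ A) x
    rw [peLift_peProj]
  right_inv ψ := peLift_comp_peProj ψ

@[simp] theorem peHomsEquiv_apply_peProj (R : Type*) [Semiring R] (A : Type*) [AddCommGroup A]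
    [Module R A] (φ : peHoms Γ R A) (x : Additive Γ) :
    peHomsEquiv Γ R A φ (peProj Γ x) = (φ : Additive Γ →+ A) x :=
  peLift_peProj (φ : Additive Γ →+ A) (mem_peHoms_iff.mp φ.2) x

@[simp] theorem peHomsEquiv_symm_apply (R : Type*) [Semiring R] (A : Type*) [AddCommGroup A]
    [Module R A] (ψ : PEQuot Γ →+ A) (x : Additive Γ) :
    (((peHomsEquiv Γ R A).symm ψ : peHoms Γ R A) : Additive Γ →+ A) x = ψ (peProj Γ x) := rfl

/-! ### Finite generation -/

theorem fg_SL2Z : Group.FG SL(2, ℤ) := by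
  rw [Group.fg_iff]
  exact ⟨{S, T}, SpecialLinearGroup.SL2Z_generators, Set.toFinite _⟩

variable (Γ) in
/-- For `Γ` of finite index, `PEQuot Γ` is a finitely generated abelian group. -/
theorem addGroupFG_PEQuot [Γ.FiniteIndex] : AddGroup.FG (PEQuot Γ) := by
  have h1 : Group.FG SL(2, ℤ) := fg_SL2Z
  have h2 : Group.FG Γ := Subgroup.fg_of_index_ne_zero Γ
  have h3 : AddGroup.FG (Additive Γ) := GroupFG.iff_add_fg.mp h2
  exact AddGroup.fg_of_surjective (peProj_surjective Γ)

end

end Fermat.Agent.ESJ.ParHom
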