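import Mathlib
import Fermat.Agent.ESJ.ParHom.Quot
import Fermat.Agent.ESJ.ParHom.Gamma0Bound
import Fermat.Agent.ESJ.ParHom.FreeCrit
import Fermat.Agent.S21

/-!
# ESJ / JAC-TORS : `Γ₀(N)^ab / ⟨parabolic, elliptic⟩` is free of rank `2 g`

* `nonempty_PEQuot_equiv` : `PEQuot (Γ₀(N)) ≃+ (Fin (2 g) → ℤ)`;
* `nonempty_peHoms_equiv` : `peHoms (Γ₀(N)) R A ≃ₗ[R] (Fin (2 g) → A)` for every `R`-module `A`;
* `card_peHoms_zmod` : there are exactly `n ^ (2 g)` homomorphisms `Γ₀(N) → ℤ/n` killing `±1`,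
  the parabolic and the elliptic elements.

Inputs: the bound `finrank_peHoms_Gamma0_le` over `𝔽_p` (all `p`), Eichler–Shimura over `ℂ`
(`S21.result`) and the dimension formula (`S20.result`), and the structure theorem of finitely
generated abelian groups (`FreeCrit`).
-/

set_option autoImplicit false

open scoped MatrixGroups
open ModularCurve.Period ModularGroup CongruenceSubgroup

namespace Fermat.Agent.ESJ.ParHom

noncomputable section

/-- Cayley–Hamilton in `SL(2, ℤ)`: `γ² = tr(γ) γ - 1`. -/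
theorem sl2_mul_self (γ : SL(2, ℤ)) :
    (γ : Matrix (Fin 2) (Fin 2) ℤ) * (γ : Matrix (Fin 2) (Fin 2) ℤ)
      = (γ : Matrix (Fin 2) (Fin 2) ℤ).trace • (γ : Matrix (Fin 2) (Fin 2) ℤ) - 1 := by
  have hdet : (γ : Matrix (Fin 2) (Fin 2) ℤ) 0 0 * (γ : Matrix (Fin 2) (Fin 2) ℤ) 1 1
      - (γ : Matrix (Fin 2) (Fin 2) ℤ) 0 1 * (γ : Matrix (Fin 2) (Fin 2) ℤ) 1 0 = 1 := by
    have := γ.det_coe
    rw [Matrix.det_fin_two] at this
    exact this
  ext i j
  fin_cases i <;> fin_cases j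
  · simp only [Fin.zero_eta, Fin.isValue, Matrix.mul_apply, Fin.sum_univ_two, Matrix.trace_fin_two,
      Matrix.sub_apply, Matrix.smul_apply, Matrix.one_apply_eq, smul_eq_mul]
    linear_combination (-1 : ℤ) * hdet
  · simp only [Fin.zero_eta, Fin.mk_one, Fin.isValue, Matrix.mul_apply, Fin.sum_univ_two,
      Matrix.trace_fin_two, Matrix.sub_apply, Matrix.smul_apply, smul_eq_mul]
    rw [Matrix.one_apply_ne (by decide)]
    ring
  · simp only [Fin.zero_eta, Fin.mk_one, Fin.isValue, Matrix.mul_apply, Fin.sum_univ_two,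
      Matrix.trace_fin_two, Matrix.sub_apply, Matrix.smul_apply, smul_eq_mul]
    rw [Matrix.one_apply_ne (by decide)]
    ring
  · simp only [Fin.mk_one, Fin.isValue, Matrix.mul_apply, Fin.sum_univ_two, Matrix.trace_fin_two,
      Matrix.sub_apply, Matrix.smul_apply, Matrix.one_apply_eq, smul_eq_mul]
    linear_combination (-1 : ℤ) * hdet

/-- An element of `SL(2, ℤ)` with `|tr| ≤ 1` has order dividing `12`. -/
theorem pow_twelve_eq_one (γ : SL(2, ℤ))
    (h : (γ : Matrix (Fin 2) (Fin 2) ℤ).trace ^ 2 ≤ 4)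
    (h' : (γ : Matrix (Fin 2) (Fin 2) ℤ).trace ^ 2 ≠ 4) : γ ^ 12 = 1 := by
  set M : Matrix (Fin 2) (Fin 2) ℤ := (γ : Matrix (Fin 2) (Fin 2) ℤ) with hM
  set t : ℤ := M.trace with ht
  have h2 : M * M = t • M - 1 := sl2_mul_self γ
  have hcases : t = 0 ∨ t = 1 ∨ t = -1 := by
    have h1 : -2 ≤ t := by nlinarith
    have h3 : t ≤ 2 := by nlinarith
    have h4 : t ≠ 2 := fun h4 => h' (by rw [h4]; norm_num)
    have h5 : t ≠ -2 := fun h5 => h' (by rw [h5]; norm_num)
    omega
  apply Subtype.ext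
  rw [Matrix.SpecialLinearGroup.coe_pow, Matrix.SpecialLinearGroup.coe_one]
  show M ^ 12 = 1
  rcases hcases with h0 | h1 | h1
  · rw [h0, zero_smul, zero_sub] at h2
    calc M ^ 12 = (M * M) ^ 6 := by rw [← pow_two, ← pow_mul]
      _ = 1 := by rw [h2]; exact Even.neg_one_pow (by decide)
  · rw [h1, one_smul] at h2
    have h3 : M ^ 3 = -1 := by
      calc M ^ 3 = M * (M * M) := by rw [pow_succ, pow_two, mul_assoc]
        _ = M * M - M := by rw [h2, mul_sub, mul_one, h2]
        _ = -1 := by rw [h2]; abel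
    calc M ^ 12 = (M ^ 3) ^ 4 := by rw [← pow_mul]
      _ = 1 := by rw [h3]; exact Even.neg_one_pow (by decide)
  · rw [h1, neg_one_smul] at h2
    have h3 : M ^ 3 = 1 := by
      calc M ^ 3 = M * (M * M) := by rw [pow_succ, pow_two, mul_assoc]
        _ = -(M * M) - M := by rw [h2, mul_sub, mul_neg, mul_one, h2]
        _ = 1 := by rw [h2]; abel
    calc M ^ 12 = (M ^ 3) ^ 4 := by rw [← pow_mul]
      _ = 1 := by rw [h3]; exact one_pow 4

/-- With values in a torsion-free group, parabolic homomorphisms automatically kill the elliptic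
elements. -/
theorem isPEHom_of_isParabolicHom (Γ : Subgroup SL(2, ℤ)) {A : Type*} [AddCommGroup A]
    [IsAddTorsionFree A] {φ : Additive Γ →+ A} (h : IsParabolicHom Γ φ) : IsPEHom Γ φ := by
  intro γ hγ
  by_cases h4 : ((γ : SL(2, ℤ)) : Matrix (Fin 2) (Fin 2) ℤ).trace ^ 2 = 4
  · exact h γ h4
  · have h12 : γ ^ 12 = 1 := by
      apply Subtype.ext
      rw [Subgroup.coe_pow, Subgroup.coe_one]
      exact pow_twelve_eq_one (γ : SL(2, ℤ)) hγ h4
    have h1 : (12 : ℕ) • φ (Additive.ofMul γ) = 0 := by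
      rw [← map_nsmul, ← ofMul_pow, h12, ofMul_one, map_zero]
    exact (nsmul_eq_zero_iff_right (by norm_num)).mp h1

theorem peHoms_complex_eq (Γ : Subgroup SL(2, ℤ)) : peHoms Γ ℂ ℂ = parabolicHoms ℂ Γ ℂ := by
  ext φ
  exact ⟨fun h => IsPEHom.isParabolicHom Γ h, fun h => isPEHom_of_isParabolicHom Γ h⟩

/-- Eichler–Shimura: `dim_ℂ Hom_pe(Γ₀(N), ℂ) = 2 dim S₂(Γ₀(N))`. -/
theorem finrank_peHoms_complex (N : ℕ) [NeZero N] :
    Module.finrank ℂ (peHoms (Gamma0 N) ℂ ℂ)
      = 2 * Module.finrank ℂ (CuspForm (Gamma0 N) 2) := by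
  obtain ⟨hinj, hrange⟩ := Fermat.Agent.S21.result N
  have := Fermat.Agent.S21.finite_cuspForm N
  rw [peHoms_complex_eq, ← hrange, LinearMap.finrank_range_of_inj hinj, Module.finrank_prod]
  ring

/-- `genusFormula N` is a natural number (the dimension of `S₂(Γ₀(N))`). -/
theorem exists_nat_genus (N : ℕ) [NeZero N] : ∃ g : ℕ, (g : ℚ) = ModularCurve.genusFormula N :=
  ⟨_, Fermat.Agent.S20.result N⟩

/-- **`Γ₀(N)^ab` modulo parabolic and elliptic elements is free of rank `2 g`.** -/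
theorem nonempty_PEQuot_equiv (N : ℕ) [NeZero N] (g : ℕ)
    (hg : (g : ℚ) = ModularCurve.genusFormula N) :
    Nonempty (PEQuot (Gamma0 N) ≃+ (Fin (2 * g) → ℤ)) := by
  have hfg : AddGroup.FG (PEQuot (Gamma0 N)) := addGroupFG_PEQuot (Gamma0 N)
  have hS2 : Module.finrank ℂ (CuspForm (Gamma0 N) 2) = g := by
    have h := Fermat.Agent.S20.result N
    rw [← hg] at h
    exact_mod_cast h
  refine FreeCrit.nonempty_addEquiv_of_finrank_hom (PEQuot (Gamma0 N)) (2 * g) ?_ ?_
  · rw [← LinearEquiv.finrank_eq (peHomsEquiv (Gamma0 N) ℂ ℂ), finrank_peHoms_complex, hS2]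
  · intro p _
    rw [← LinearEquiv.finrank_eq (peHomsEquiv (Gamma0 N) (ZMod p) (ZMod p))]
    have h := finrank_peHoms_Gamma0_le (ZMod p) N
    rw [← hg] at h
    exact_mod_cast h

/-- Homomorphisms out of a free abelian group of finite rank. -/
def homEquivOfFree {Q : Type*} [AddCommGroup Q] {m : ℕ} (e : Q ≃+ (Fin m → ℤ))
    (R : Type*) [Semiring R] (A : Type*) [AddCommGroup A] [Module R A] :
    (Q →+ A) ≃ₗ[R] (Fin m → A) where
  toFun ψ := fun l => ψ (e.symm (Pi.single l 1))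
  invFun c :=
    { toFun := fun x => ∑ l, (e x l) • c l
      map_zero' := by simp
      map_add' := fun x y => by
        simp only [map_add, Pi.add_apply, add_smul, Finset.sum_add_distrib] }
  map_add' ψ ψ' := rfl
  map_smul' c ψ := rfl
  left_inv ψ := by
    refine AddMonoidHom.ext fun x => ?_
    show ∑ l, (e x l) • ψ (e.symm (Pi.single l 1)) = ψ x
    have hx : e x = ∑ l, (e x l) • (Pi.single l 1 : Fin m → ℤ) := by
      funext j
      simp [Finset.sum_apply, Pi.single_apply]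
    have hx' : x = ∑ l, (e x l) • e.symm (Pi.single l 1) := by
      apply e.injective
      rw [map_sum]
      simp only [map_zsmul, AddEquiv.apply_symm_apply]
      exact hx
    conv_rhs => rw [hx', map_sum]
    exact Finset.sum_congr rfl fun l _ => (map_zsmul ψ _ _).symm
  right_inv c := by
    funext l
    show ∑ l', (e (e.symm (Pi.single l 1)) l') • c l' = c l
    rw [AddEquiv.apply_symm_apply]
    simp [Pi.single_apply]

/-- **Parabolic-elliptic homomorphisms of `Γ₀(N)` with values in any module `A`** form a copy of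
`A ^ (2 g)`. -/
theorem nonempty_peHoms_equiv (N : ℕ) [NeZero N] (g : ℕ)
    (hg : (g : ℚ) = ModularCurve.genusFormula N)
    (R : Type*) [Semiring R] (A : Type*) [AddCommGroup A] [Module R A] :
    Nonempty (peHoms (Gamma0 N) R A ≃ₗ[R] (Fin (2 * g) → A)) := by
  obtain ⟨e⟩ := nonempty_PEQuot_equiv N g hg
  exact ⟨(peHomsEquiv (Gamma0 N) R A).trans (homEquivOfFree e R A)⟩

/-- **Counting**: there are exactly `n ^ (2 g)` homomorphisms `Γ₀(N) → ℤ/n` killing `±1`, the
parabolic and the elliptic elements. -/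
theorem card_peHoms_zmod (N : ℕ) [NeZero N] (g : ℕ)
    (hg : (g : ℚ) = ModularCurve.genusFormula N) (n : ℕ) [NeZero n] :
    Nat.card (peHoms (Gamma0 N) ℤ (ZMod n)) = n ^ (2 * g) := by
  obtain ⟨e⟩ := nonempty_peHoms_equiv N g hg ℤ (ZMod n)
  rw [Nat.card_congr e.toEquiv, Nat.card_eq_fintype_card, Fintype.card_fun, ZMod.card,
    Fintype.card_fin]

end

end Fermat.Agent.ESJ.ParHom
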