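import Mathlib
import Fermat.Agent.ESJ.ParHom.Bound

/-!
# ESJ / JAC-TORS : abstract Hecke (transfer) operators on `Hom(Γ, A)`

Setting: a group `Γ`, an injective homomorphism `j : Γ →* G` and a finite family `a : ι → G` of
representatives of pairwise distinct cosets `j(Γ) a_i` whose union is stable under right
multiplication by `j(Γ)` (`IsHeckeSystem j a`).  For `γ : Γ` and `i : ι` there are unique
`h.perm γ i : ι` and `h.coc γ i : Γ` with

  `a i * j γ = j (h.coc γ i) * a (h.perm γ i)`,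

and the Hecke operator on `φ : Additive Γ →+ A` is `(h.hecke φ) γ = ∑ i, φ (h.coc γ i)`.

* `IsHeckeSystem.hecke_apply_of` : the formula for ANY witnesses `(π, γ')`;
* `IsHeckeSystem.hecke_eq_of_reps` : independence of the representatives;
* `IsHeckeSystem.hecke_comp_mulEquiv` : compatibility with automorphisms;
* `IsHeckeSystem.hecke_comp` : compatibility with a change of coefficients;
* `IsHeckeSystem.hecke_apply_eq_zero` : if `φ` kills a class `P` of elements which is stable
  under powers and `G`-conjugation (e.g. the parabolic and elliptic elements), so does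
  `h.hecke φ` (cycle argument).
-/

set_option autoImplicit false

namespace Fermat.Agent.ESJ.ParHom

noncomputable section

/-- A finite system of coset representatives for a Hecke operator. -/
structure IsHeckeSystem {Γ G : Type*} [Group Γ] [Group G] (j : Γ →* G) {ι : Type*}
    (a : ι → G) : Prop where
  inj : Function.Injective j
  sep : ∀ (i i' : ι) (γ : Γ), a i = j γ * a i' → i = i'
  stab : ∀ (γ : Γ) (i : ι), ∃ (i' : ι) (γ' : Γ), a i * j γ = j γ' * a i'

namespace IsHeckeSystem

variable {Γ G : Type*} [Group Γ] [Group G] {j : Γ →* G} {ι : Type*} {a : ι → G}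
  (h : IsHeckeSystem j a)

/-- The permutation of the cosets induced by right multiplication by `γ` (as a function). -/
def perm (γ : Γ) (i : ι) : ι := (h.stab γ i).choose

/-- The cocycle: `a i * j γ = j (coc γ i) * a (perm γ i)`. -/
def coc (γ : Γ) (i : ι) : Γ := (h.stab γ i).choose_spec.choose

theorem spec (γ : Γ) (i : ι) : a i * j γ = j (h.coc γ i) * a (h.perm γ i) :=
  (h.stab γ i).choose_spec.choose_spec

theorem perm_coc_unique {γ : Γ} {i i' : ι} {γ' : Γ} (e : a i * j γ = j γ' * a i') :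
    h.perm γ i = i' ∧ h.coc γ i = γ' := by
  have e1 := h.spec γ i
  have e2 : a (h.perm γ i) = j ((h.coc γ i)⁻¹ * γ') * a i' := by
    rw [map_mul, map_inv, mul_assoc, ← e, e1, inv_mul_cancel_left]
  have e3 := h.sep _ _ _ e2
  refine ⟨e3, ?_⟩
  rw [e3] at e1
  have e4 : j (h.coc γ i) * a i' = j γ' * a i' := by rw [← e1, e]
  exact h.inj (mul_right_cancel e4)

theorem perm_eq {γ : Γ} {i i' : ι} {γ' : Γ} (e : a i * j γ = j γ' * a i') : h.perm γ i = i' :=
  (h.perm_coc_unique e).1

theorem coc_eq {γ : Γ} {i i' : ι} {γ' : Γ} (e : a i * j γ = j γ' * a i') : h.coc γ i = γ' :=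
  (h.perm_coc_unique e).2

@[simp] theorem perm_one (i : ι) : h.perm 1 i = i :=
  h.perm_eq (γ' := 1) (by rw [map_one, mul_one, one_mul])

@[simp] theorem coc_one (i : ι) : h.coc 1 i = 1 :=
  h.coc_eq (i' := i) (by rw [map_one, mul_one, one_mul])

theorem spec_mul (γ δ : Γ) (i : ι) :
    a i * j (γ * δ) = j (h.coc γ i * h.coc δ (h.perm γ i)) * a (h.perm δ (h.perm γ i)) := by
  rw [map_mul, ← mul_assoc, h.spec γ i, mul_assoc, h.spec δ, ← mul_assoc, map_mul]

theorem perm_mul (γ δ : Γ) (i : ι) : h.perm (γ * δ) i = h.perm δ (h.perm γ i) :=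
  h.perm_eq (h.spec_mul γ δ i)

theorem coc_mul (γ δ : Γ) (i : ι) :
    h.coc (γ * δ) i = h.coc γ i * h.coc δ (h.perm γ i) :=
  h.coc_eq (h.spec_mul γ δ i)

/-- The permutation of the cosets induced by `γ`. -/
def permEquiv (γ : Γ) : Equiv.Perm ι where
  toFun := h.perm γ
  invFun := h.perm γ⁻¹
  left_inv i := by rw [← h.perm_mul, mul_inv_cancel, h.perm_one]
  right_inv i := by rw [← h.perm_mul, inv_mul_cancel, h.perm_one]

@[simp] theorem permEquiv_apply (γ : Γ) (i : ι) : h.permEquiv γ i = h.perm γ i := rfl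

theorem perm_pow (γ : Γ) (n : ℕ) (i : ι) : h.perm (γ ^ n) i = (h.perm γ)^[n] i := by
  induction n generalizing i with
  | zero => simp
  | succ n ih => rw [pow_succ', h.perm_mul, ih, Function.iterate_succ_apply]

/-- Transport of a Hecke system along compatible automorphisms of `Γ` and `G`. -/
theorem map_mulEquiv (h : IsHeckeSystem j a) (θ : Γ ≃* Γ) (Θ : G ≃* G)
    (hθ : ∀ γ, Θ (j γ) = j (θ γ)) :
    IsHeckeSystem j (fun i => Θ (a i)) where
  inj := h.inj
  sep i i' γ e := by
    refine h.sep i i' (θ.symm γ) ?_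
    apply Θ.injective
    rw [map_mul, hθ, θ.apply_symm_apply]
    exact e
  stab γ i := by
    obtain ⟨i', γ', e⟩ := h.stab (θ.symm γ) i
    refine ⟨i', θ γ', ?_⟩
    show Θ (a i) * j γ = j (θ γ') * Θ (a i')
    rw [← hθ γ', ← map_mul, ← e, map_mul, hθ, θ.apply_symm_apply]

section Hom

variable {A : Type*} [AddCommGroup A]

theorem map_coc_pow (φ : Additive Γ →+ A) (γ : Γ) (n : ℕ) (i : ι) :
    φ (Additive.ofMul (h.coc (γ ^ n) i))
      = ∑ k ∈ Finset.range n, φ (Additive.ofMul (h.coc γ ((h.perm γ)^[k] i))) := by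
  induction n with
  | zero => simp
  | succ n ih =>
    rw [pow_succ, h.coc_mul, ofMul_mul, map_add, ih, Finset.sum_range_succ, h.perm_pow]

variable [Fintype ι]

/-- The Hecke operator attached to the system `a` on homomorphisms `Γ → A`. -/
def hecke (φ : Additive Γ →+ A) : Additive Γ →+ A :=
  AddMonoidHom.mk' (fun γ => ∑ i, φ (Additive.ofMul (h.coc (Additive.toMul γ) i))) (by
    intro γ δ
    simp only [toMul_add, h.coc_mul, ofMul_mul, map_add, Finset.sum_add_distrib]
    congr 1
    exact Equiv.sum_comp (h.permEquiv (Additive.toMul γ))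
      (fun i => φ (Additive.ofMul (h.coc (Additive.toMul δ) i))))

theorem hecke_apply (φ : Additive Γ →+ A) (γ : Γ) :
    h.hecke φ (Additive.ofMul γ) = ∑ i, φ (Additive.ofMul (h.coc γ i)) := rfl

/-- The formula for the Hecke operator, for arbitrary witnesses. -/
theorem hecke_apply_of (φ : Additive Γ →+ A) (γ : Γ) (π : ι → ι) (γ' : ι → Γ)
    (e : ∀ i, a i * j γ = j (γ' i) * a (π i)) :
    h.hecke φ (Additive.ofMul γ) = ∑ i, φ (Additive.ofMul (γ' i)) := by
  rw [h.hecke_apply]
  exact Finset.sum_congr rfl fun i _ => by rw [h.coc_eq (e i)]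

theorem hecke_add (φ ψ : Additive Γ →+ A) : h.hecke (φ + ψ) = h.hecke φ + h.hecke ψ := by
  refine AddMonoidHom.ext fun γ => ?_
  obtain ⟨γ, rfl⟩ := Additive.ofMul.surjective γ
  simp only [AddMonoidHom.add_apply, hecke_apply, Finset.sum_add_distrib]

theorem hecke_zero : h.hecke (0 : Additive Γ →+ A) = 0 := by
  refine AddMonoidHom.ext fun γ => ?_
  obtain ⟨γ, rfl⟩ := Additive.ofMul.surjective γ
  simp only [AddMonoidHom.zero_apply, hecke_apply, Finset.sum_const_zero]

/-- Change of coefficients. -/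
theorem hecke_comp {B : Type*} [AddCommGroup B] (u : A →+ B) (φ : Additive Γ →+ A) :
    h.hecke (u.comp φ) = u.comp (h.hecke φ) := by
  refine AddMonoidHom.ext fun γ => ?_
  obtain ⟨γ, rfl⟩ := Additive.ofMul.surjective γ
  simp only [AddMonoidHom.comp_apply, hecke_apply, map_sum]

theorem hecke_smul {R : Type*} [Semiring R] [Module R A] (c : R) (φ : Additive Γ →+ A) :
    h.hecke (c • φ) = c • h.hecke φ := by
  refine AddMonoidHom.ext fun γ => ?_
  obtain ⟨γ, rfl⟩ := Additive.ofMul.surjective γ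
  simp only [AddMonoidHom.smul_apply, hecke_apply, Finset.smul_sum]

/-- The Hecke operator as a linear map. -/
def heckeLin (R : Type*) [Semiring R] [Module R A] :
    (Additive Γ →+ A) →ₗ[R] (Additive Γ →+ A) where
  toFun := h.hecke
  map_add' := h.hecke_add
  map_smul' c φ := h.hecke_smul c φ

@[simp] theorem heckeLin_apply (R : Type*) [Semiring R] [Module R A] (φ : Additive Γ →+ A) :
    h.heckeLin R φ = h.hecke φ := rfl

/-- Independence of the representatives. -/
theorem hecke_eq_of_reps {κ : Type*} [Fintype κ] {b : κ → G} (hb : IsHeckeSystem j b)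
    (σ : κ ≃ ι) (g : κ → Γ) (e : ∀ k, b k = j (g k) * a (σ k)) (φ : Additive Γ →+ A) :
    hb.hecke φ = h.hecke φ := by
  refine AddMonoidHom.ext fun γ => ?_
  obtain ⟨γ, rfl⟩ := Additive.ofMul.surjective γ
  have key : ∀ k, b k * j γ
      = j (g k * h.coc γ (σ k) * (g (σ.symm (h.perm γ (σ k))))⁻¹)
        * b (σ.symm (h.perm γ (σ k))) := by
    intro k
    rw [e k, e (σ.symm (h.perm γ (σ k))), Equiv.apply_symm_apply, mul_assoc, h.spec γ (σ k)]
    simp only [map_mul, map_inv, mul_assoc, inv_mul_cancel_left]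
  rw [hb.hecke_apply_of φ γ _ _ key, h.hecke_apply]
  simp only [ofMul_mul, ofMul_inv, map_add, map_neg, Finset.sum_add_distrib,
    Finset.sum_neg_distrib]
  have e1 : ∑ k, φ (Additive.ofMul (g (σ.symm (h.perm γ (σ k))))) = ∑ k, φ (Additive.ofMul (g k)) :=
    Equiv.sum_comp ((σ.trans (h.permEquiv γ)).trans σ.symm) (fun k => φ (Additive.ofMul (g k)))
  have e2 : ∑ k, φ (Additive.ofMul (h.coc γ (σ k))) = ∑ i, φ (Additive.ofMul (h.coc γ i)) :=
    Equiv.sum_comp σ (fun i => φ (Additive.ofMul (h.coc γ i)))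
  rw [e1, e2]
  abel

/-- Compatibility with automorphisms: if `Θ ∘ j = j ∘ θ` then
`T_{Θ ∘ a}(φ) ∘ θ = T_a (φ ∘ θ)`. -/
theorem hecke_comp_mulEquiv (θ : Γ ≃* Γ) (Θ : G ≃* G) (hθ : ∀ γ, Θ (j γ) = j (θ γ))
    (hb : IsHeckeSystem j (fun i => Θ (a i))) (φ : Additive Γ →+ A) :
    (hb.hecke φ).comp (MonoidHom.toAdditive θ.toMonoidHom)
      = h.hecke (φ.comp (MonoidHom.toAdditive θ.toMonoidHom)) := by
  refine AddMonoidHom.ext fun γ => ?_
  obtain ⟨γ, rfl⟩ := Additive.ofMul.surjective γ
  have key : ∀ i, (fun i => Θ (a i)) i * j (θ γ) = j (θ (h.coc γ i)) * (fun i => Θ (a i)) (h.perm γ i) := by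
    intro i
    show Θ (a i) * j (θ γ) = j (θ (h.coc γ i)) * Θ (a (h.perm γ i))
    rw [← hθ, ← hθ, ← map_mul, ← map_mul, h.spec]
  show hb.hecke φ (Additive.ofMul (θ γ)) = _
  rw [hb.hecke_apply_of φ (θ γ) _ _ key, h.hecke_apply]
  rfl

/-- **Cycle argument.** If `φ` kills a class `P` of elements which is stable under powers and
`G`-conjugation, then so does `h.hecke φ`. -/
theorem hecke_apply_eq_zero (P : Γ → Prop)
    (hP : ∀ γ, P γ → ∀ (n : ℕ) (g : G) (γ' : Γ), g * j γ ^ n = j γ' * g → P γ')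
    (φ : Additive Γ →+ A) (hφ : ∀ γ, P γ → φ (Additive.ofMul γ) = 0) (γ : Γ) (hγ : P γ) :
    h.hecke φ (Additive.ofMul γ) = 0 := by
  classical
  rw [h.hecke_apply]
  obtain ⟨w, hw⟩ := exists_primitive_of_cycle_sums (h.perm γ)
    (fun i => φ (Additive.ofMul (h.coc γ i))) (by
      intro x
      refine ⟨orderOf (h.permEquiv γ), orderOf_pos _, ?_⟩
      have e : (h.perm γ)^[orderOf (h.permEquiv γ)] = ⇑((h.permEquiv γ) ^ orderOf (h.permEquiv γ)) := by
        rw [Equiv.Perm.coe_pow]
        rfl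
      rw [e, pow_orderOf_eq_one]
      rfl) (by
      intro x n hx
      rw [← h.map_coc_pow φ γ n x]
      refine hφ _ (hP γ hγ n (a x) _ ?_)
      have e := h.spec (γ ^ n) x
      rw [h.perm_pow, hx, map_pow] at e
      exact e)
  simp only [hw, Finset.sum_sub_distrib]
  rw [sub_eq_zero]
  exact Equiv.sum_comp (h.permEquiv γ) w

end Hom

end IsHeckeSystem

end

end Fermat.Agent.ESJ.ParHom
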