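import Mathlib
import Fermat.Prelude.Def_ModularForm_HeckeOperatorForms
import Fermat.Agent.ESJ.ParHom.Hecke
import Fermat.Agent.ESJ.ParHom.Free

/-!
# ESJ / JAC-TORS : the Hecke operators `T_p` (`p ∤ N`) and `U_p` (`p ∣ N`) on `Hom(Γ₀(N), A)`

The coset representatives are EXACTLY the matrices of the Prelude's `ModularForm.heckeT` /
`ModularForm.heckeU`: `heckeMatrix p j = [[1, j], [0, p]]` (`j : ZMod p`) and, for `T_p`,
`heckeDiagMatrix p = [[p, 0], [0, 1]]`.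

* `isHeckeSystem_T`, `isHeckeSystem_U` : these are Hecke systems for `jGamma0 N : Γ₀(N) → GL(2, ℝ)`;
* `heckeCoh N ℓ` (`ℓ : Nat.Primes`) : the operator on `Additive (Gamma0 N) →+ A`
  (`T_ℓ` if `ℓ ∤ N`, `U_ℓ` if `ℓ ∣ N`), `heckeCohLin` its linear version;
* `heckeCoh_apply_T`, `heckeCoh_apply_U` : the explicit formula `∑ φ(γ'_i)` for ANY witnesses
  `a_i γ = γ'_i a_{π i}`;
* `isPEHom_heckeCoh`, `isParabolicHom_heckeCoh` : `heckeCoh` preserves the parabolic-elliptic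
  (resp. parabolic) homomorphisms;  `heckePE N ℓ R A : Module.End R (peHoms (Gamma0 N) R A)`.
-/

set_option autoImplicit false

open scoped MatrixGroups
open CongruenceSubgroup ModularCurve.Period ModularForm

namespace Fermat.Agent.ESJ.ParHom

noncomputable section

/-! ### Traces of powers -/

theorem trace_pow_rec (γ : SL(2, ℤ)) (n : ℕ) :
    ((γ : Matrix (Fin 2) (Fin 2) ℤ) ^ (n + 2)).trace
      = (γ : Matrix (Fin 2) (Fin 2) ℤ).trace * ((γ : Matrix (Fin 2) (Fin 2) ℤ) ^ (n + 1)).trace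
        - ((γ : Matrix (Fin 2) (Fin 2) ℤ) ^ n).trace := by
  rw [pow_add, pow_two, sl2_mul_self, mul_sub, mul_one, Matrix.mul_smul, ← pow_succ,
    Matrix.trace_sub, Matrix.trace_smul, smul_eq_mul]

theorem trace_pow_invariant (γ : SL(2, ℤ)) (n : ℕ) :
    ((γ : Matrix (Fin 2) (Fin 2) ℤ) ^ n).trace ^ 2
      + ((γ : Matrix (Fin 2) (Fin 2) ℤ) ^ (n + 1)).trace ^ 2
      - (γ : Matrix (Fin 2) (Fin 2) ℤ).trace * ((γ : Matrix (Fin 2) (Fin 2) ℤ) ^ n).trace
        * ((γ : Matrix (Fin 2) (Fin 2) ℤ) ^ (n + 1)).trace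
      = 4 - (γ : Matrix (Fin 2) (Fin 2) ℤ).trace ^ 2 := by
  induction n with
  | zero =>
    have h1 : ((1 : Matrix (Fin 2) (Fin 2) ℤ)).trace = 2 := by
      simp
    rw [pow_zero, zero_add, pow_one, h1]
    ring
  | succ n ih =>
    rw [trace_pow_rec γ n]
    linear_combination ih

/-- Powers of parabolic/elliptic elements are parabolic/elliptic. -/
theorem trace_pow_sq_le (γ : SL(2, ℤ)) (h : (γ : Matrix (Fin 2) (Fin 2) ℤ).trace ^ 2 ≤ 4)
    (n : ℕ) : ((γ : Matrix (Fin 2) (Fin 2) ℤ) ^ n).trace ^ 2 ≤ 4 := by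
  have hinv := trace_pow_invariant γ n
  set t := (γ : Matrix (Fin 2) (Fin 2) ℤ).trace with ht
  set x := ((γ : Matrix (Fin 2) (Fin 2) ℤ) ^ n).trace with hx
  set y := ((γ : Matrix (Fin 2) (Fin 2) ℤ) ^ (n + 1)).trace with hy
  rcases h.lt_or_eq with h1 | h1
  · by_contra hcon
    rw [not_le] at hcon
    nlinarith [sq_nonneg (2 * y - t * x)]
  · -- `t² = 4`: all traces have square `4`
    have hall : ∀ m : ℕ, ((γ : Matrix (Fin 2) (Fin 2) ℤ) ^ m).trace ^ 2 = 4 := by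
      intro m
      induction m with
      | zero =>
        have h1 : ((1 : Matrix (Fin 2) (Fin 2) ℤ)).trace = 2 := by
          simp
        rw [pow_zero, h1]
        norm_num
      | succ m ih =>
        have hm := trace_pow_invariant γ m
        rw [← ht] at hm
        set x' := ((γ : Matrix (Fin 2) (Fin 2) ℤ) ^ m).trace
        set y' := ((γ : Matrix (Fin 2) (Fin 2) ℤ) ^ (m + 1)).trace
        have h0 : (2 * y' - t * x') ^ 2 = 0 := by nlinarith
        have h2 : 2 * y' = t * x' := by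
          have := pow_eq_zero_iff (two_ne_zero) |>.mp h0
          linarith
        have h3 : 4 * y' ^ 2 = 4 * 4 := by
          have : (2 * y') ^ 2 = t ^ 2 * x' ^ 2 := by rw [h2]; ring
          rw [h1, ih] at this
          linarith
        linarith
    exact (hall n).le

theorem trace_pow_sq_eq (γ : SL(2, ℤ)) (h : (γ : Matrix (Fin 2) (Fin 2) ℤ).trace ^ 2 = 4)
    (n : ℕ) : ((γ : Matrix (Fin 2) (Fin 2) ℤ) ^ n).trace ^ 2 = 4 := by
  set t := (γ : Matrix (Fin 2) (Fin 2) ℤ).trace with ht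
  induction n with
  | zero =>
    have h1 : ((1 : Matrix (Fin 2) (Fin 2) ℤ)).trace = 2 := by
      simp
    rw [pow_zero, h1]
    norm_num
  | succ m ih =>
    have hm := trace_pow_invariant γ m
    rw [← ht] at hm
    set x' := ((γ : Matrix (Fin 2) (Fin 2) ℤ) ^ m).trace
    set y' := ((γ : Matrix (Fin 2) (Fin 2) ℤ) ^ (m + 1)).trace
    have h0 : (2 * y' - t * x') ^ 2 = 0 := by nlinarith
    have h2 : 2 * y' = t * x' := by
      have := pow_eq_zero_iff (two_ne_zero) |>.mp h0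
      linarith
    have h3 : 4 * y' ^ 2 = 4 * 4 := by
      have : (2 * y') ^ 2 = t ^ 2 * x' ^ 2 := by rw [h2]; ring
      rw [h, ih] at this
      linarith
    linarith

/-! ### The embedding into `GL(2, ℝ)` -/

/-- The embedding of a subgroup of `SL(2, ℤ)` into `GL(2, ℝ)`. -/
def jSub (Γ : Subgroup SL(2, ℤ)) : Γ →* GL (Fin 2) ℝ :=
  (Matrix.SpecialLinearGroup.mapGL ℝ).comp Γ.subtype

@[simp] theorem jSub_apply (Γ : Subgroup SL(2, ℤ)) (γ : Γ) :
    jSub Γ γ = Matrix.SpecialLinearGroup.mapGL ℝ (γ : SL(2, ℤ)) := rfl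

theorem jSub_injective (Γ : Subgroup SL(2, ℤ)) : Function.Injective (jSub Γ) :=
  Matrix.SpecialLinearGroup.mapGL_injective.comp Γ.subtype_injective

theorem coe_mapGL_apply (g : SL(2, ℤ)) (i k : Fin 2) :
    ((Matrix.SpecialLinearGroup.mapGL ℝ g : GL (Fin 2) ℝ) : Matrix (Fin 2) (Fin 2) ℝ) i k
      = ((g i k : ℤ) : ℝ) := by
  simp

theorem trace_coe_mapGL (g : SL(2, ℤ)) :
    ((Matrix.SpecialLinearGroup.mapGL ℝ g : GL (Fin 2) ℝ) : Matrix (Fin 2) (Fin 2) ℝ).trace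
      = (((g : Matrix (Fin 2) (Fin 2) ℤ).trace : ℤ) : ℝ) := by
  rw [Matrix.trace_fin_two, Matrix.trace_fin_two, coe_mapGL_apply, coe_mapGL_apply]
  push_cast
  rfl

/-- Conjugate elements (inside `GL(2, ℝ)`) have the same trace. -/
theorem trace_eq_of_conj {γ γ' : SL(2, ℤ)} (g : GL (Fin 2) ℝ)
    (e : g * Matrix.SpecialLinearGroup.mapGL ℝ γ = Matrix.SpecialLinearGroup.mapGL ℝ γ' * g) :
    (γ' : Matrix (Fin 2) (Fin 2) ℤ).trace = (γ : Matrix (Fin 2) (Fin 2) ℤ).trace := by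
  have e1 : Matrix.SpecialLinearGroup.mapGL ℝ γ'
      = g * Matrix.SpecialLinearGroup.mapGL ℝ γ * g⁻¹ := by
    rw [e, mul_inv_cancel_right]
  have e2 := congrArg (fun M : GL (Fin 2) ℝ => (M : Matrix (Fin 2) (Fin 2) ℝ).trace) e1
  simp only [Units.val_mul] at e2
  rw [Matrix.trace_units_conj, trace_coe_mapGL, trace_coe_mapGL] at e2
  exact_mod_cast e2

/-- The class of elements of trace-square `≤ 4` is stable under powers and conjugation. -/
theorem pe_stable (Γ : Subgroup SL(2, ℤ)) (γ : Γ)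
    (hγ : ((γ : SL(2, ℤ)) : Matrix (Fin 2) (Fin 2) ℤ).trace ^ 2 ≤ 4) (n : ℕ) (g : GL (Fin 2) ℝ)
    (γ' : Γ) (e : g * jSub Γ γ ^ n = jSub Γ γ' * g) :
    ((γ' : SL(2, ℤ)) : Matrix (Fin 2) (Fin 2) ℤ).trace ^ 2 ≤ 4 := by
  rw [← map_pow] at e
  have e1 := trace_eq_of_conj (γ := ((γ ^ n : Γ) : SL(2, ℤ))) (γ' := (γ' : SL(2, ℤ))) g e
  rw [e1, Subgroup.coe_pow, Matrix.SpecialLinearGroup.coe_pow]
  exact trace_pow_sq_le _ hγ n

theorem par_stable (Γ : Subgroup SL(2, ℤ)) (γ : Γ)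
    (hγ : ((γ : SL(2, ℤ)) : Matrix (Fin 2) (Fin 2) ℤ).trace ^ 2 = 4) (n : ℕ) (g : GL (Fin 2) ℝ)
    (γ' : Γ) (e : g * jSub Γ γ ^ n = jSub Γ γ' * g) :
    ((γ' : SL(2, ℤ)) : Matrix (Fin 2) (Fin 2) ℤ).trace ^ 2 = 4 := by
  rw [← map_pow] at e
  have e1 := trace_eq_of_conj (γ := ((γ ^ n : Γ) : SL(2, ℤ))) (γ' := (γ' : SL(2, ℤ))) g e
  rw [e1, Subgroup.coe_pow, Matrix.SpecialLinearGroup.coe_pow]
  exact trace_pow_sq_eq _ hγ n

/-- A Hecke system for `Γ` preserves the parabolic-elliptic homomorphisms. -/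
theorem IsHeckeSystem.isPEHom_hecke {Γ : Subgroup SL(2, ℤ)} {ι : Type*} [Fintype ι]
    {a : ι → GL (Fin 2) ℝ} (h : IsHeckeSystem (jSub Γ) a) {A : Type*} [AddCommGroup A]
    {φ : Additive Γ →+ A} (hφ : IsPEHom Γ φ) : IsPEHom Γ (h.hecke φ) := fun γ hγ =>
  h.hecke_apply_eq_zero (fun γ : Γ => ((γ : SL(2, ℤ)) : Matrix (Fin 2) (Fin 2) ℤ).trace ^ 2 ≤ 4)
    (fun γ hγ n g γ' e => pe_stable Γ γ hγ n g γ' e) φ hφ γ hγ

/-- A Hecke system for `Γ` preserves the parabolic homomorphisms. -/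
theorem IsHeckeSystem.isParabolicHom_hecke {Γ : Subgroup SL(2, ℤ)} {ι : Type*} [Fintype ι]
    {a : ι → GL (Fin 2) ℝ} (h : IsHeckeSystem (jSub Γ) a) {A : Type*} [AddCommGroup A]
    {φ : Additive Γ →+ A} (hφ : IsParabolicHom Γ φ) : IsParabolicHom Γ (h.hecke φ) := fun γ hγ =>
  h.hecke_apply_eq_zero (fun γ : Γ => ((γ : SL(2, ℤ)) : Matrix (Fin 2) (Fin 2) ℤ).trace ^ 2 = 4)
    (fun γ hγ n g γ' e => par_stable Γ γ hγ n g γ' e) φ hφ γ hγ

/-! ### The systems of representatives of `T_p` and `U_p` -/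

/-- The representatives of `T_p`: `∞ ↦ [[p, 0], [0, 1]]`, `j ↦ [[1, j], [0, p]]`. -/
def tRep (p : ℕ) (x : OnePoint (ZMod p)) : GL (Fin 2) ℝ :=
  x.elim (heckeDiagMatrix p) (fun j => heckeMatrix p j.val)

@[simp] theorem tRep_infty (p : ℕ) : tRep p OnePoint.infty = heckeDiagMatrix p := rfl

@[simp] theorem tRep_coe (p : ℕ) (j : ZMod p) : tRep p (j : OnePoint (ZMod p)) = heckeMatrix p j.val :=
  rfl

/-- The representatives of `U_p`: `j ↦ [[1, j], [0, p]]`. -/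
def uRep (p : ℕ) (x : ZMod p) : GL (Fin 2) ℝ := heckeMatrix p x.val

theorem dvd_of_mem_Gamma0 {N : ℕ} {g : SL(2, ℤ)} (hg : g ∈ Gamma0 N) : (N : ℤ) ∣ g 1 0 :=
  (ZMod.intCast_zmod_eq_zero_iff_dvd _ _).mp (Gamma0_mem.mp hg)

theorem mem_Gamma0_of_dvd {N : ℕ} {g : SL(2, ℤ)} (hg : (N : ℤ) ∣ g 1 0) : g ∈ Gamma0 N :=
  Gamma0_mem.mpr ((ZMod.intCast_zmod_eq_zero_iff_dvd _ _).mpr hg)

theorem heckeMatrix_sep {p : ℕ} [NeZero p] (x x' : ZMod p) (g : SL(2, ℤ))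
    (e : heckeMatrix p x.val = Matrix.SpecialLinearGroup.mapGL ℝ g * heckeMatrix p x'.val) :
    x = x' := by
  have hp : p ≠ 0 := NeZero.ne p
  have e00 := congrArg (fun M : GL (Fin 2) ℝ => (M : Matrix (Fin 2) (Fin 2) ℝ) 0 0) e
  have e01 := congrArg (fun M : GL (Fin 2) ℝ => (M : Matrix (Fin 2) (Fin 2) ℝ) 0 1) e
  simp only [Units.val_mul, val_heckeMatrix hp, Matrix.mul_apply, Fin.sum_univ_two,
    coe_mapGL_apply, Matrix.of_apply, Matrix.cons_val', Matrix.cons_val_zero, Matrix.cons_val_one,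
    Matrix.empty_val', Matrix.cons_val_fin_one, Matrix.head_cons, mul_one, mul_zero, add_zero]
    at e00 e01
  have h00 : (g 0 0 : ℤ) = 1 := by exact_mod_cast e00.symm
  have h01 : ((x.val : ℤ)) = (g 0 0 : ℤ) * x'.val + (g 0 1 : ℤ) * p := by exact_mod_cast e01
  rw [h00, one_mul] at h01
  have h2 := congrArg (Int.cast : ℤ → ZMod p) h01
  push_cast at h2
  rw [ZMod.natCast_zmod_val, ZMod.natCast_zmod_val, ZMod.natCast_self, mul_zero, add_zero] at h2
  exact h2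

theorem isHeckeSystem_U (N : ℕ) {p : ℕ} [NeZero p] (hpN : p ∣ N) :
    IsHeckeSystem (jSub (Gamma0 N)) (uRep p) where
  inj := jSub_injective _
  sep x x' γ e := heckeMatrix_sep x x' (γ : SL(2, ℤ)) e
  stab γ x := by
    have hN : (N : ℤ) ∣ (γ : SL(2, ℤ)) 1 0 := dvd_of_mem_Gamma0 γ.2
    have hc : (p : ℤ) ∣ (γ : SL(2, ℤ)) 1 0 := (Int.natCast_dvd_natCast.mpr hpN).trans hN
    obtain ⟨g', hg', hmul⟩ :=
      P2MW.S_ModularForm_heckeT_slash_eq_self_of_mem_Gamma0.ModularForm.HeckeSlashInvariance.heckeMatrix_mul_of_dvd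
        (γ : SL(2, ℤ)) hc x
    exact ⟨_, ⟨g', mem_Gamma0_of_dvd (hg' ▸ dvd_mul_of_dvd_right hN _)⟩, hmul⟩

theorem isHeckeSystem_T (N : ℕ) {p : ℕ} [Fact p.Prime] (hpN : ¬ p ∣ N) :
    IsHeckeSystem (jSub (Gamma0 N)) (tRep p) where
  inj := jSub_injective _
  sep x x' γ e := by
    have hp : p ≠ 0 := (Fact.out : p.Prime).ne_zero
    have hp1 : p ≠ 1 := (Fact.out : p.Prime).ne_one
    induction x using OnePoint.rec with
    | infty =>
      induction x' using OnePoint.rec with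
      | infty => rfl
      | coe j' =>
        exfalso
        rw [tRep_infty, tRep_coe, jSub_apply] at e
        have e10 := congrArg (fun M : GL (Fin 2) ℝ => (M : Matrix (Fin 2) (Fin 2) ℝ) 1 0) e
        have e11 := congrArg (fun M : GL (Fin 2) ℝ => (M : Matrix (Fin 2) (Fin 2) ℝ) 1 1) e
        simp only [Units.val_mul, val_heckeMatrix hp, val_heckeDiagMatrix hp, Matrix.mul_apply,
          Fin.sum_univ_two, coe_mapGL_apply, Matrix.of_apply, Matrix.cons_val',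
          Matrix.cons_val_zero, Matrix.cons_val_one, Matrix.empty_val', Matrix.cons_val_fin_one,
          Matrix.head_cons, mul_one, mul_zero, add_zero] at e10 e11
        have h10 : ((γ : SL(2, ℤ)) 1 0 : ℤ) = 0 := by exact_mod_cast e10.symm
        have h11 : (1 : ℤ) = ((γ : SL(2, ℤ)) 1 0 : ℤ) * j'.val + ((γ : SL(2, ℤ)) 1 1 : ℤ) * p := by
          exact_mod_cast e11
        rw [h10, zero_mul, zero_add] at h11
        have hdvd : (p : ℤ) ∣ 1 := ⟨_, by rw [h11]; ring⟩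
        have := Int.natCast_dvd_natCast.mp (by exact_mod_cast hdvd : ((p : ℕ) : ℤ) ∣ ((1 : ℕ) : ℤ))
        exact hp1 (Nat.dvd_one.mp this)
    | coe j =>
      induction x' using OnePoint.rec with
      | infty =>
        exfalso
        rw [tRep_infty, tRep_coe, jSub_apply] at e
        have e00 := congrArg (fun M : GL (Fin 2) ℝ => (M : Matrix (Fin 2) (Fin 2) ℝ) 0 0) e
        simp only [Units.val_mul, val_heckeMatrix hp, val_heckeDiagMatrix hp, Matrix.mul_apply,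
          Fin.sum_univ_two, coe_mapGL_apply, Matrix.of_apply, Matrix.cons_val',
          Matrix.cons_val_zero, Matrix.cons_val_one, Matrix.empty_val', Matrix.cons_val_fin_one,
          Matrix.head_cons, mul_one, mul_zero, add_zero] at e00
        have h00 : (1 : ℤ) = ((γ : SL(2, ℤ)) 0 0 : ℤ) * p := by exact_mod_cast e00
        have hdvd : (p : ℤ) ∣ 1 := ⟨_, by rw [h00]; ring⟩
        have := Int.natCast_dvd_natCast.mp (by exact_mod_cast hdvd : ((p : ℕ) : ℤ) ∣ ((1 : ℕ) : ℤ))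
        exact hp1 (Nat.dvd_one.mp this)
      | coe j' =>
        rw [tRep_coe, tRep_coe, jSub_apply] at e
        rw [heckeMatrix_sep j j' (γ : SL(2, ℤ)) e]
  stab γ x := by
    have hN : (N : ℤ) ∣ (γ : SL(2, ℤ)) 1 0 := dvd_of_mem_Gamma0 γ.2
    obtain ⟨g', hg', hmul⟩ :=
      P2MW.S_ModularForm_heckeT_slash_eq_self_of_mem_Gamma0.ModularForm.HeckeSlashInvariance.heckeRep_mul
        hpN (γ : SL(2, ℤ)) hN x
    exact ⟨_, ⟨g', mem_Gamma0_of_dvd hg'⟩, hmul⟩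

/-! ### The operators -/

section Operators

variable (N : ℕ) {A : Type*} [AddCommGroup A]

/-- The Hecke operator `T_ℓ` (`ℓ ∤ N`) resp. `U_ℓ` (`ℓ ∣ N`) on `Hom(Γ₀(N), A)`. -/
def heckeCoh (ℓ : Nat.Primes) (φ : Additive (Gamma0 N) →+ A) : Additive (Gamma0 N) →+ A :=
  haveI : Fact (ℓ : ℕ).Prime := ⟨ℓ.2⟩
  if h : (ℓ : ℕ) ∣ N then (isHeckeSystem_U N h).hecke φ else (isHeckeSystem_T N h).hecke φ

theorem heckeCoh_of_dvd {p : ℕ} [Fact p.Prime] (h : p ∣ N) (φ : Additive (Gamma0 N) →+ A) :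
    heckeCoh N ⟨p, Fact.out⟩ φ = (isHeckeSystem_U N h).hecke φ := by
  unfold heckeCoh
  exact dif_pos h

theorem heckeCoh_of_not_dvd {p : ℕ} [Fact p.Prime] (h : ¬ p ∣ N)
    (φ : Additive (Gamma0 N) →+ A) :
    heckeCoh N ⟨p, Fact.out⟩ φ = (isHeckeSystem_T N h).hecke φ := by
  unfold heckeCoh
  exact dif_neg h

/-- Explicit formula for `U_p` on `Hom(Γ₀(N), A)`, for arbitrary witnesses. -/
theorem heckeCoh_apply_U {p : ℕ} [Fact p.Prime] (h : p ∣ N) (φ : Additive (Gamma0 N) →+ A)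
    (γ : Gamma0 N) (π : ZMod p → ZMod p) (γ' : ZMod p → Gamma0 N)
    (e : ∀ x, uRep p x * Matrix.SpecialLinearGroup.mapGL ℝ (γ : SL(2, ℤ))
      = Matrix.SpecialLinearGroup.mapGL ℝ (γ' x : SL(2, ℤ)) * uRep p (π x)) :
    heckeCoh N ⟨p, Fact.out⟩ φ (Additive.ofMul γ) = ∑ x, φ (Additive.ofMul (γ' x)) := by
  rw [heckeCoh_of_dvd N h]
  exact (isHeckeSystem_U N h).hecke_apply_of φ γ π γ' e

/-- Explicit formula for `T_p` on `Hom(Γ₀(N), A)`, for arbitrary witnesses. -/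
theorem heckeCoh_apply_T {p : ℕ} [Fact p.Prime] (h : ¬ p ∣ N) (φ : Additive (Gamma0 N) →+ A)
    (γ : Gamma0 N) (π : OnePoint (ZMod p) → OnePoint (ZMod p))
    (γ' : OnePoint (ZMod p) → Gamma0 N)
    (e : ∀ x, tRep p x * Matrix.SpecialLinearGroup.mapGL ℝ (γ : SL(2, ℤ))
      = Matrix.SpecialLinearGroup.mapGL ℝ (γ' x : SL(2, ℤ)) * tRep p (π x)) :
    heckeCoh N ⟨p, Fact.out⟩ φ (Additive.ofMul γ) = ∑ x, φ (Additive.ofMul (γ' x)) := by
  rw [heckeCoh_of_not_dvd N h]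
  exact (isHeckeSystem_T N h).hecke_apply_of φ γ π γ' e

theorem heckeCoh_add (ℓ : Nat.Primes) (φ ψ : Additive (Gamma0 N) →+ A) :
    heckeCoh N ℓ (φ + ψ) = heckeCoh N ℓ φ + heckeCoh N ℓ ψ := by
  have : Fact (ℓ : ℕ).Prime := ⟨ℓ.2⟩
  unfold heckeCoh
  split_ifs
  · exact IsHeckeSystem.hecke_add _ φ ψ
  · exact IsHeckeSystem.hecke_add _ φ ψ

theorem heckeCoh_smul {R : Type*} [Semiring R] [Module R A] (ℓ : Nat.Primes) (c : R)
    (φ : Additive (Gamma0 N) →+ A) : heckeCoh N ℓ (c • φ) = c • heckeCoh N ℓ φ := by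
  have : Fact (ℓ : ℕ).Prime := ⟨ℓ.2⟩
  unfold heckeCoh
  split_ifs
  · exact IsHeckeSystem.hecke_smul _ c φ
  · exact IsHeckeSystem.hecke_smul _ c φ

/-- Change of coefficients. -/
theorem heckeCoh_comp {B : Type*} [AddCommGroup B] (ℓ : Nat.Primes) (u : A →+ B)
    (φ : Additive (Gamma0 N) →+ A) : heckeCoh N ℓ (u.comp φ) = u.comp (heckeCoh N ℓ φ) := by
  have : Fact (ℓ : ℕ).Prime := ⟨ℓ.2⟩
  unfold heckeCoh
  split_ifs
  · exact IsHeckeSystem.hecke_comp _ u φ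
  · exact IsHeckeSystem.hecke_comp _ u φ

/-- `T_ℓ` / `U_ℓ` preserve the parabolic-elliptic homomorphisms (cycle argument). -/
theorem isPEHom_heckeCoh (ℓ : Nat.Primes) {φ : Additive (Gamma0 N) →+ A}
    (hφ : IsPEHom (Gamma0 N) φ) : IsPEHom (Gamma0 N) (heckeCoh N ℓ φ) := by
  have : Fact (ℓ : ℕ).Prime := ⟨ℓ.2⟩
  unfold heckeCoh
  split_ifs
  · exact IsHeckeSystem.isPEHom_hecke _ hφ
  · exact IsHeckeSystem.isPEHom_hecke _ hφ

/-- `T_ℓ` / `U_ℓ` preserve the parabolic homomorphisms. -/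
theorem isParabolicHom_heckeCoh (ℓ : Nat.Primes) {φ : Additive (Gamma0 N) →+ A}
    (hφ : IsParabolicHom (Gamma0 N) φ) : IsParabolicHom (Gamma0 N) (heckeCoh N ℓ φ) := by
  have : Fact (ℓ : ℕ).Prime := ⟨ℓ.2⟩
  unfold heckeCoh
  split_ifs
  · exact IsHeckeSystem.isParabolicHom_hecke _ hφ
  · exact IsHeckeSystem.isParabolicHom_hecke _ hφ

/-- `heckeCoh` as a linear map. -/
def heckeCohLin (ℓ : Nat.Primes) (R : Type*) [Semiring R] (A : Type*) [AddCommGroup A]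
    [Module R A] : (Additive (Gamma0 N) →+ A) →ₗ[R] (Additive (Gamma0 N) →+ A) where
  toFun := heckeCoh N ℓ
  map_add' := heckeCoh_add N ℓ
  map_smul' c φ := heckeCoh_smul N ℓ c φ

@[simp] theorem heckeCohLin_apply (ℓ : Nat.Primes) (R : Type*) [Semiring R] (A : Type*)
    [AddCommGroup A] [Module R A] (φ : Additive (Gamma0 N) →+ A) :
    heckeCohLin N ℓ R A φ = heckeCoh N ℓ φ := rfl

/-- The Hecke operator on the module of parabolic-elliptic homomorphisms. -/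
def heckePE (ℓ : Nat.Primes) (R : Type*) [Semiring R] (A : Type*) [AddCommGroup A]
    [Module R A] : Module.End R (peHoms (Gamma0 N) R A) :=
  (heckeCohLin N ℓ R A).restrict (fun _ hφ => isPEHom_heckeCoh N ℓ hφ)

@[simp] theorem coe_heckePE_apply (ℓ : Nat.Primes) (R : Type*) [Semiring R] (A : Type*)
    [AddCommGroup A] [Module R A] (φ : peHoms (Gamma0 N) R A) :
    ((heckePE N ℓ R A φ : peHoms (Gamma0 N) R A) : Additive (Gamma0 N) →+ A)
      = heckeCoh N ℓ (φ : Additive (Gamma0 N) →+ A) := rfl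

end Operators

end

end Fermat.Agent.ESJ.ParHom
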