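import Mathlib
import Fermat.Prelude.Def_CuspForm_HeckeEvalForms
import Fermat.Agent.ESJ.ParHom.HeckeGamma0
import Fermat.Agent.S21.Primitive

/-!
# ESJ / JAC-TORS : the period map intertwines the Hecke operators

For `f ∈ S₂(Γ₀(N))` with primitive `F`, the function `∑_i F ∘ α_i` is a primitive of
`T f = ∑_i f ∣[2] α_i`; the telescoping sum gives
`periodMap (T f) = heckeCoh (periodMap f)`, where `heckeCoh` is the transfer-type operator of
`HeckeGamma0.lean` on `Hom(Γ₀(N), ℂ)`.  Together with the compatibility of `heckeCoh` with the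
involution `charInvolution` this shows that `ModularCurve.periodHomPair` intertwines
`(T_ℓ, T_ℓ)` on `S₂ × S₂` with `heckeCoh N ℓ`:

* `periodMap_heckeTLin`, `periodMap_heckeULin`, `periodMap_heckeFormsGen`;
* `heckeCoh_charInvolution`;
* `periodHomPair_hecke`.
-/

set_option autoImplicit false

open scoped MatrixGroups
open CongruenceSubgroup ModularCurve ModularCurve.Period ModularForm UpperHalfPlane

namespace Fermat.Agent.ESJ.ParHom

noncomputable section

/-- Chain rule for a primitive composed with an affine Möbius transformation. -/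
theorem hasDerivAt_comp_smul_of_affine {F f : ℍ → ℂ}
    (hF : ∀ τ : ℍ, HasDerivAt (F ∘ ofComplex) (f τ) ↑τ)
    (α : GL (Fin 2) ℝ) (c d : ℂ) (hα : ∀ w : ℍ, ((α • w : ℍ) : ℂ) = c * w + d) (τ : ℍ) :
    HasDerivAt ((fun z : ℍ => F (α • z)) ∘ ofComplex) (c * f (α • τ)) ↑τ := by
  have h1 : HasDerivAt (fun w : ℂ => c * w + d) c (τ : ℂ) := by
    simpa using ((hasDerivAt_id (τ : ℂ)).const_mul c).add_const d
  have h2 : HasDerivAt (F ∘ ofComplex) (f (α • τ)) (c * (τ : ℂ) + d) := by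
    rw [← hα τ]
    exact hF (α • τ)
  have h3 : HasDerivAt ((F ∘ ofComplex) ∘ fun w : ℂ => c * w + d) (f (α • τ) * c) (τ : ℂ) :=
    h2.comp (τ : ℂ) h1
  rw [mul_comm]
  refine h3.congr_of_eventuallyEq ?_
  filter_upwards [isOpen_upperHalfPlaneSet.mem_nhds τ.im_pos] with w hw
  simp only [Function.comp_apply]
  rw [ofComplex_apply_of_im_pos hw, ← hα ⟨w, hw⟩, ofComplex_apply]

/-- **The period map intertwines a Hecke system with the corresponding sum of slashes.** -/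
theorem periodMap_eq_hecke {N : ℕ} [NeZero N] {ι : Type*} [Fintype ι] {a : ι → GL (Fin 2) ℝ}
    (h : IsHeckeSystem (jSub (Gamma0 N)) a) (c d : ι → ℂ)
    (ha : ∀ (i : ι) (w : ℍ), ((a i • w : ℍ) : ℂ) = c i * w + d i)
    (f f' : CuspForm (Gamma0 N) 2) (hf' : ∀ τ : ℍ, f' τ = ∑ i, c i * f (a i • τ)) :
    periodMap N f' = h.hecke (periodMap N f) := by
  obtain ⟨F, hF, -⟩ := Fermat.Agent.S21.exists_hasEquivariantPrimitive N f
  obtain ⟨G, hG, -⟩ := Fermat.Agent.S21.exists_hasEquivariantPrimitive N f'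
  set F' : ℍ → ℂ := fun z => ∑ i, F (a i • z) with hF'def
  have hF' : ∀ τ : ℍ, HasDerivAt (F' ∘ ofComplex) (f' τ) ↑τ := by
    intro τ
    rw [hf' τ]
    have h0 := HasDerivAt.fun_sum (u := Finset.univ)
      (fun i _ => hasDerivAt_comp_smul_of_affine hF.1 (a i) (c i) (d i) (ha i) τ)
    exact h0
  obtain ⟨c0, hc0⟩ := Fermat.Agent.S21.exists_const_of_hasDerivAt hG.1 hF'
  refine AddMonoidHom.ext fun γ => ?_
  obtain ⟨γ, rfl⟩ := Additive.ofMul.surjective γ
  rw [Fermat.Agent.S21.periodMap_apply hG γ UpperHalfPlane.I, h.hecke_apply]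
  have e1 : G ((γ : SL(2, ℤ)) • UpperHalfPlane.I) - G UpperHalfPlane.I
      = F' ((γ : SL(2, ℤ)) • UpperHalfPlane.I) - F' UpperHalfPlane.I := by
    have a1 := hc0 ((γ : SL(2, ℤ)) • UpperHalfPlane.I)
    have a2 := hc0 UpperHalfPlane.I
    linear_combination a1 - a2
  rw [e1]
  have e2 : ∀ i, periodMap N f (Additive.ofMul (h.coc γ i))
      = F (a i • ((γ : SL(2, ℤ)) • UpperHalfPlane.I)) - F (a (h.perm γ i) • UpperHalfPlane.I) := by
    intro i
    rw [Fermat.Agent.S21.periodMap_apply hF (h.coc γ i) (a (h.perm γ i) • UpperHalfPlane.I)]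
    congr 2
    have hs := h.spec γ i
    calc ((h.coc γ i : Gamma0 N) : SL(2, ℤ)) • (a (h.perm γ i) • UpperHalfPlane.I)
        = (jSub (Gamma0 N) (h.coc γ i) * a (h.perm γ i)) • UpperHalfPlane.I := by
          rw [mul_smul]; rfl
      _ = (a i * jSub (Gamma0 N) γ) • UpperHalfPlane.I := by rw [← hs]
      _ = a i • ((γ : SL(2, ℤ)) • UpperHalfPlane.I) := by rw [mul_smul]; rfl
  simp only [e2, hF'def, Finset.sum_sub_distrib]
  congr 1
  exact (Equiv.sum_comp (h.permEquiv γ) (fun i => F (a i • UpperHalfPlane.I))).symm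

/-! ### `T_p` and `U_p` -/

theorem sum_range_eq_sum_zmod' {p : ℕ} [NeZero p] {M : Type*} [AddCommMonoid M] (F : ℕ → M) :
    ∑ j ∈ Finset.range p, F j = ∑ x : ZMod p, F x.val :=
  P2MW.S_ModularForm_heckeT_slash_eq_self_of_mem_Gamma0.ModularForm.HeckeSlashInvariance.sum_range_eq_sum_zmod
    F

theorem coe_heckeMatrix_smul' {p : ℕ} (hp : p ≠ 0) (j : ℕ) (w : ℍ) :
    ((heckeMatrix p j • w : ℍ) : ℂ) = (p : ℂ)⁻¹ * w + (j : ℂ) / p := by
  rw [coe_heckeMatrix_smul hp]
  ring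

/-- The period map intertwines `U_p` (`p ∣ N`). -/
theorem periodMap_heckeULin (N : ℕ) [NeZero N] {p : ℕ} [NeZero p] (hpN : p ∣ N)
    (f : CuspForm (Gamma0 N) 2) :
    periodMap N (CuspForm.heckeULin 2 hpN f) = (isHeckeSystem_U N hpN).hecke (periodMap N f) := by
  have hp : p ≠ 0 := NeZero.ne p
  refine periodMap_eq_hecke (isHeckeSystem_U N hpN) (fun _ => (p : ℂ)⁻¹)
    (fun x => (x.val : ℂ) / p) (fun x w => coe_heckeMatrix_smul' hp x.val w) f _ ?_
  intro τ
  rw [CuspForm.heckeULin_apply_apply, heckeU_apply 2 hp, sum_range_eq_sum_zmod', Finset.mul_sum]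
  rfl

/-- The period map intertwines `T_p` (`p ∤ N`). -/
theorem periodMap_heckeTLin (N : ℕ) [NeZero N] {p : ℕ} [Fact p.Prime] (hpN : ¬ p ∣ N)
    (f : CuspForm (Gamma0 N) 2) :
    periodMap N (CuspForm.heckeTLin 2 Fact.out hpN f)
      = (isHeckeSystem_T N hpN).hecke (periodMap N f) := by
  have hp : p ≠ 0 := (Fact.out : p.Prime).ne_zero
  refine periodMap_eq_hecke (isHeckeSystem_T N hpN)
    (fun x => x.elim (p : ℂ) (fun _ => (p : ℂ)⁻¹))
    (fun x => x.elim 0 (fun j => (j.val : ℂ) / p)) ?_ f _ ?_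
  · intro x w
    induction x using OnePoint.rec with
    | infty =>
      show ((heckeDiagMatrix p • w : ℍ) : ℂ) = (p : ℂ) * w + 0
      rw [coe_heckeDiagMatrix_smul hp, add_zero]
    | coe j => exact coe_heckeMatrix_smul' hp j.val w
  · intro τ
    rw [CuspForm.heckeTLin_apply_apply, heckeT_apply 2 hp, sum_range_eq_sum_zmod', Finset.mul_sum]
    have e := Fintype.sum_option (fun x : OnePoint (ZMod p) =>
      (x.elim (p : ℂ) (fun _ => (p : ℂ)⁻¹)) * f (tRep p x • τ))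
    rw [add_comm]
    refine Eq.trans ?_ e.symm
    congr 1
    show (p : ℂ) ^ ((2 : ℤ) - 1) * f (heckeDiagMatrix p • τ) = (p : ℂ) * f (heckeDiagMatrix p • τ)
    norm_num

/-- The period map intertwines the Hecke operator `T_ℓ` / `U_ℓ` of the Prelude's Hecke algebra
with `heckeCoh N ℓ`. -/
theorem periodMap_heckeFormsGen (N : ℕ) [NeZero N] (ℓ : Nat.Primes) (f : CuspForm (Gamma0 N) 2) :
    periodMap N ((CuspForm.heckeFormsGen N 2 ℓ :
        Module.End ℂ (CuspForm (Gamma0 N) 2)) f) = heckeCoh N ℓ (periodMap N f) := by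
  have : Fact (ℓ : ℕ).Prime := ⟨ℓ.2⟩
  by_cases h : (ℓ : ℕ) ∣ N
  · rw [CuspForm.heckeFormsGen_of_dvd h, CuspForm.heckeAlgebra.coe_U]
    exact (periodMap_heckeULin N h f).trans (heckeCoh_of_dvd N h _).symm
  · rw [CuspForm.heckeFormsGen_of_not_dvd h, CuspForm.heckeAlgebra.coe_T]
    exact (periodMap_heckeTLin N h f).trans (heckeCoh_of_not_dvd N h _).symm

/-! ### Compatibility with the involution `charInvolution` -/

/-- `ε = diag(1, -1)`. -/
def epsGL : GL (Fin 2) ℝ := upperTriangularGL 1 0 (-1) (by norm_num)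

theorem val_epsGL : (epsGL : Matrix (Fin 2) (Fin 2) ℝ) = !![1, 0; 0, -1] := rfl

/-- `jConjGamma0` as a `MulEquiv`. -/
def jConjEquiv (N : ℕ) : Gamma0 N ≃* Gamma0 N where
  toFun := jConjGamma0 N
  invFun := jConjGamma0 N
  left_inv := jConjGamma0_jConjGamma0 N
  right_inv := jConjGamma0_jConjGamma0 N
  map_mul' := map_mul _

theorem eps_mul_jSub (N : ℕ) (γ : Gamma0 N) :
    epsGL * jSub (Gamma0 N) γ = jSub (Gamma0 N) (jConjGamma0 N γ) * epsGL := by
  ext i k
  fin_cases i <;> fin_cases k <;>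
    simp [val_epsGL, Matrix.mul_apply, Fin.sum_univ_two, jConjMat]

theorem conj_eps_jSub (N : ℕ) (γ : Gamma0 N) :
    MulAut.conj epsGL (jSub (Gamma0 N) γ) = jSub (Gamma0 N) (jConjEquiv N γ) := by
  rw [MulAut.conj_apply, eps_mul_jSub, mul_inv_cancel_right]
  rfl

theorem T_zpow_mem_Gamma0 (N : ℕ) (m : ℤ) : ModularGroup.T ^ m ∈ Gamma0 N := by
  rw [Gamma0_mem, ModularGroup.coe_T_zpow]
  simp

theorem exists_conj_heckeMatrix (N : ℕ) {p : ℕ} [NeZero p] (x : ZMod p) :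
    ∃ g : Gamma0 N, MulAut.conj epsGL (heckeMatrix p x.val)
      = jSub (Gamma0 N) g * heckeMatrix p (-x).val := by
  have hp : p ≠ 0 := NeZero.ne p
  obtain ⟨m, hm⟩ : (p : ℤ) ∣ (x.val : ℤ) + ((-x).val : ℤ) := by
    rw [← ZMod.intCast_zmod_eq_zero_iff_dvd]
    push_cast
    rw [ZMod.natCast_zmod_val, ZMod.natCast_zmod_val, add_neg_cancel]
  have hmem : ModularGroup.T ^ (-m) ∈ Gamma0 N := T_zpow_mem_Gamma0 N _
  have hT : ((ModularGroup.T ^ (-m) : SL(2, ℤ)) : Matrix (Fin 2) (Fin 2) ℤ) = !![1, -m; 0, 1] :=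
    ModularGroup.coe_T_zpow (-m)
  generalize ModularGroup.T ^ (-m) = g0 at hmem hT
  have h00 : (g0 : Matrix (Fin 2) (Fin 2) ℤ) 0 0 = 1 := by rw [hT]; rfl
  have h01 : (g0 : Matrix (Fin 2) (Fin 2) ℤ) 0 1 = -m := by rw [hT]; rfl
  have h10 : (g0 : Matrix (Fin 2) (Fin 2) ℤ) 1 0 = 0 := by rw [hT]; rfl
  have h11 : (g0 : Matrix (Fin 2) (Fin 2) ℤ) 1 1 = 1 := by rw [hT]; rfl
  refine ⟨⟨g0, hmem⟩, ?_⟩
  rw [MulAut.conj_apply, mul_inv_eq_iff_eq_mul]
  have hm' : ((x.val : ℕ) : ℝ) + (((-x).val : ℕ) : ℝ) = (p : ℝ) * (m : ℝ) := by exact_mod_cast hm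
  rw [ZMod.natCast_val, ZMod.natCast_val] at hm'
  ext i k
  fin_cases i <;> fin_cases k <;>
    simp [val_epsGL, val_heckeMatrix hp, Matrix.mul_apply, Fin.sum_univ_two, h00, h01, h10, h11]
  linear_combination hm'

theorem conj_eps_heckeDiagMatrix (p : ℕ) :
    MulAut.conj epsGL (heckeDiagMatrix p) = heckeDiagMatrix p := by
  rw [MulAut.conj_apply, mul_inv_eq_iff_eq_mul]
  rcases eq_or_ne p 0 with rfl | hp
  · simp
  · ext i k
    fin_cases i <;> fin_cases k <;>
      simp [val_epsGL, val_heckeDiagMatrix hp, Matrix.mul_apply, Fin.sum_univ_two]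

section Invol

variable {A : Type*} [AddCommGroup A]

theorem hecke_U_comp_jConj (N : ℕ) {p : ℕ} [NeZero p] (hpN : p ∣ N)
    (φ : Additive (Gamma0 N) →+ A) :
    (isHeckeSystem_U N hpN).hecke (φ.comp (MonoidHom.toAdditive (jConjGamma0 N)))
      = ((isHeckeSystem_U N hpN).hecke φ).comp (MonoidHom.toAdditive (jConjGamma0 N)) := by
  have hb := (isHeckeSystem_U N hpN).map_mulEquiv (jConjEquiv N) (MulAut.conj epsGL)
    (conj_eps_jSub N)
  choose g hg using exists_conj_heckeMatrix N (p := p)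
  have e1 := (isHeckeSystem_U N hpN).hecke_eq_of_reps hb (Equiv.neg (ZMod p)) g hg φ
  have e2 := (isHeckeSystem_U N hpN).hecke_comp_mulEquiv (jConjEquiv N) (MulAut.conj epsGL)
    (conj_eps_jSub N) hb φ
  rw [e1] at e2
  exact e2.symm

theorem hecke_T_comp_jConj (N : ℕ) {p : ℕ} [Fact p.Prime] (hpN : ¬ p ∣ N)
    (φ : Additive (Gamma0 N) →+ A) :
    (isHeckeSystem_T N hpN).hecke (φ.comp (MonoidHom.toAdditive (jConjGamma0 N)))
      = ((isHeckeSystem_T N hpN).hecke φ).comp (MonoidHom.toAdditive (jConjGamma0 N)) := by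
  have hb := (isHeckeSystem_T N hpN).map_mulEquiv (jConjEquiv N) (MulAut.conj epsGL)
    (conj_eps_jSub N)
  choose g hg using exists_conj_heckeMatrix N (p := p)
  have e1 := (isHeckeSystem_T N hpN).hecke_eq_of_reps hb
    (Equiv.optionCongr (Equiv.neg (ZMod p)) : OnePoint (ZMod p) ≃ OnePoint (ZMod p))
    (fun x => x.elim 1 g) (by
      intro x
      induction x using OnePoint.rec with
      | infty =>
        show MulAut.conj epsGL (heckeDiagMatrix p) = jSub (Gamma0 N) 1 * heckeDiagMatrix p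
        rw [conj_eps_heckeDiagMatrix, map_one, one_mul]
      | coe j => exact hg j) φ
  have e2 := (isHeckeSystem_T N hpN).hecke_comp_mulEquiv (jConjEquiv N) (MulAut.conj epsGL)
    (conj_eps_jSub N) hb φ
  rw [e1] at e2
  exact e2.symm

/-- The Hecke operators commute with the involution. -/
theorem heckeCoh_charInvolution (N : ℕ) (ℓ : Nat.Primes) (R : Type*) [Semiring R] [Module R A]
    (φ : Additive (Gamma0 N) →+ A) :
    heckeCoh N ℓ (charInvolution N R A φ) = charInvolution N R A (heckeCoh N ℓ φ) := by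
  have : Fact (ℓ : ℕ).Prime := ⟨ℓ.2⟩
  by_cases h : (ℓ : ℕ) ∣ N
  · have e := hecke_U_comp_jConj N h φ
    rw [← heckeCoh_of_dvd N h, ← heckeCoh_of_dvd N h] at e
    exact e
  · have e := hecke_T_comp_jConj N h φ
    rw [← heckeCoh_of_not_dvd N h, ← heckeCoh_of_not_dvd N h] at e
    exact e

end Invol

/-- **Hecke-equivariance of the Eichler–Shimura period map**: `periodHomPair` intertwines
`(T_ℓ, T_ℓ)` on `S₂(Γ₀(N)) × S₂(Γ₀(N))` with `heckeCoh N ℓ` on `Hom(Γ₀(N), ℂ)`. -/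
theorem periodHomPair_hecke (N : ℕ) [NeZero N] (ℓ : Nat.Primes) (f g : CuspForm (Gamma0 N) 2) :
    periodHomPair N
        ((CuspForm.heckeFormsGen N 2 ℓ : Module.End ℂ (CuspForm (Gamma0 N) 2)) f,
          (CuspForm.heckeFormsGen N 2 ℓ : Module.End ℂ (CuspForm (Gamma0 N) 2)) g)
      = heckeCoh N ℓ (periodHomPair N (f, g)) := by
  rw [Fermat.Agent.S21.periodHomPair_apply, Fermat.Agent.S21.periodHomPair_apply, ← map_add,
    ← map_sub, periodMap_heckeFormsGen, periodMap_heckeFormsGen, heckeCoh_add,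
    heckeCoh_charInvolution]

end

end Fermat.Agent.ESJ.ParHom
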