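import Mathlib
import Fermat.Agent.ESJ.ParHom.HeckePeriod
import Fermat.Agent.ESJ.ParHom.Free

/-!
# ESJ / JAC-TORS / REP : the lattice `H = Hom_PE(Γ₀(N), ℤ)` and its comparison isomorphisms

* `genusNat N`, `evalPt N l`, `evalEquiv N R A : peHoms (Gamma0 N) R A ≃ₗ[R] (Fin (2 g) → A)`
  (evaluation at `2 g` fixed elements of `Γ₀(N)`), for every coefficient module `A`;
* `HPE N := peHoms (Gamma0 N) ℤ ℤ` is a free `ℤ`-module of finite rank; more generally
  `peHoms (Gamma0 N) R R` is finite free over `R`;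
* `baseChangePE N R : R ⊗[ℤ] HPE N ≃ₗ[R] peHoms (Gamma0 N) R R`, `r ⊗ φ ↦ r • (φ mod R)`,
  Hecke-equivariant (`baseChangePE_hecke`);
* `periodEquiv N : S₂ × S₂ ≃ₗ[ℂ] peHoms (Gamma0 N) ℂ ℂ` (Eichler–Shimura, S21), Hecke-equivariant
  (`periodEquiv_hecke`);
* `cmpS2 N : ℂ ⊗[ℤ] HPE N ≃ₗ[ℂ] S₂ × S₂` with `cmpS2_hecke`;
* `heckePE_comm` : the operators `heckePE N ℓ R R` commute with each other.
-/

set_option autoImplicit false

open scoped MatrixGroups TensorProduct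
open CongruenceSubgroup ModularCurve ModularCurve.Period

namespace Fermat.Agent.ESJ.ParHom

noncomputable section

/-! ### Evaluation coordinates -/

/-- The genus of `X₀(N)` as a natural number (`= dim S₂(Γ₀(N))`). -/
def genusNat (N : ℕ) : ℕ := Module.finrank ℂ (CuspForm (Gamma0 N) 2)

theorem genusNat_eq (N : ℕ) [NeZero N] : (genusNat N : ℚ) = genusFormula N :=
  Fermat.Agent.S20.result N

/-- A `ℤ`-basis of `Γ₀(N)^ab / ⟨parabolic, elliptic⟩`. -/
def peBasisEquiv (N : ℕ) [NeZero N] : PEQuot (Gamma0 N) ≃+ (Fin (2 * genusNat N) → ℤ) :=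
  (nonempty_PEQuot_equiv N (genusNat N) (genusNat_eq N)).some

/-- Elements of `Γ₀(N)` whose classes form a basis of `Γ₀(N)^ab / ⟨parabolic, elliptic⟩`. -/
def evalPt (N : ℕ) [NeZero N] (l : Fin (2 * genusNat N)) : Additive (Gamma0 N) :=
  (peProj_surjective (Gamma0 N) ((peBasisEquiv N).symm (Pi.single l 1))).choose

theorem peProj_evalPt (N : ℕ) [NeZero N] (l : Fin (2 * genusNat N)) :
    peProj (Gamma0 N) (evalPt N l) = (peBasisEquiv N).symm (Pi.single l 1) :=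
  (peProj_surjective (Gamma0 N) ((peBasisEquiv N).symm (Pi.single l 1))).choose_spec

/-- **Evaluation at the points `evalPt N l`** identifies the parabolic-elliptic homomorphisms
`Γ₀(N) → A` with `A ^ (2 g)`, for every coefficient module `A`. -/
def evalEquiv (N : ℕ) [NeZero N] (R : Type*) [Semiring R] (A : Type*) [AddCommGroup A]
    [Module R A] : peHoms (Gamma0 N) R A ≃ₗ[R] (Fin (2 * genusNat N) → A) :=
  (peHomsEquiv (Gamma0 N) R A).trans (homEquivOfFree (peBasisEquiv N) R A)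

theorem evalEquiv_apply (N : ℕ) [NeZero N] (R : Type*) [Semiring R] (A : Type*) [AddCommGroup A]
    [Module R A] (φ : peHoms (Gamma0 N) R A) (l : Fin (2 * genusNat N)) :
    evalEquiv N R A φ l = (φ : Additive (Gamma0 N) →+ A) (evalPt N l) := by
  show peHomsEquiv (Gamma0 N) R A φ ((peBasisEquiv N).symm (Pi.single l 1)) = _
  rw [← peProj_evalPt, peHomsEquiv_apply_peProj]

instance free_peHoms (N : ℕ) [NeZero N] (R : Type*) [Ring R] :
    Module.Free R (peHoms (Gamma0 N) R R) :=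
  Module.Free.of_equiv (evalEquiv N R R).symm

instance finite_peHoms_self (N : ℕ) [NeZero N] (R : Type*) [Ring R] :
    Module.Finite R (peHoms (Gamma0 N) R R) :=
  Module.Finite.equiv (evalEquiv N R R).symm

theorem finrank_peHoms_self (N : ℕ) [NeZero N] (R : Type*) [CommRing R] [Nontrivial R] :
    Module.finrank R (peHoms (Gamma0 N) R R) = 2 * genusNat N := by
  rw [LinearEquiv.finrank_eq (evalEquiv N R R), Module.finrank_pi, Fintype.card_fin]

/-! ### The lattice `H` -/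

/-- The lattice `H = Hom_PE(Γ₀(N), ℤ) = H¹_par(Γ₀(N), ℤ)`. -/
abbrev HPE (N : ℕ) : Type := peHoms (Gamma0 N) ℤ ℤ

/-- Reduction of coefficients `ℤ → R`. -/
def castPE (N : ℕ) (R : Type*) [Ring R] : HPE N →ₗ[ℤ] peHoms (Gamma0 N) R R :=
  AddMonoidHom.toIntLinearMap
    { toFun := fun φ => ⟨(Int.castAddHom R).comp (φ : Additive (Gamma0 N) →+ ℤ), fun γ hγ => by
        show (((φ : Additive (Gamma0 N) →+ ℤ) (Additive.ofMul γ) : ℤ) : R) = 0
        rw [φ.2 γ hγ, Int.cast_zero]⟩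
      map_zero' := by
        apply Subtype.ext
        refine AddMonoidHom.ext fun x => ?_
        simp
      map_add' := fun φ ψ => by
        apply Subtype.ext
        refine AddMonoidHom.ext fun x => ?_
        simp }

theorem coe_castPE_apply (N : ℕ) (R : Type*) [Ring R] (φ : HPE N) (x : Additive (Gamma0 N)) :
    ((castPE N R φ : peHoms (Gamma0 N) R R) : Additive (Gamma0 N) →+ R) x
      = (((φ : Additive (Gamma0 N) →+ ℤ) x : ℤ) : R) := rfl

theorem castPE_heckePE (N : ℕ) (R : Type*) [Ring R] (ℓ : Nat.Primes) (φ : HPE N) :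
    castPE N R (heckePE N ℓ ℤ ℤ φ) = heckePE N ℓ R R (castPE N R φ) :=
  Subtype.ext (heckeCoh_comp N ℓ (Int.castAddHom R) (φ : Additive (Gamma0 N) →+ ℤ)).symm

theorem castPE_injective (N : ℕ) (R : Type*) [Ring R] [CharZero R] :
    Function.Injective (castPE N R) := by
  intro φ ψ h
  apply Subtype.ext
  refine AddMonoidHom.ext fun x => ?_
  have := congrArg (fun χ : peHoms (Gamma0 N) R R => (χ : Additive (Gamma0 N) →+ R) x) h
  simp only [coe_castPE_apply] at this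
  exact_mod_cast this

/-! ### Base change -/

/-- **Base change**: `R ⊗ Hom_PE(Γ₀(N), ℤ) ≃ Hom_PE(Γ₀(N), R)`. -/
def baseChangePE (N : ℕ) [NeZero N] (R : Type*) [CommRing R] :
    R ⊗[ℤ] HPE N ≃ₗ[R] peHoms (Gamma0 N) R R :=
  ((LinearEquiv.baseChange ℤ R (HPE N) (Fin (2 * genusNat N) → ℤ) (evalEquiv N ℤ ℤ)).trans
    (TensorProduct.piScalarRight ℤ R R (Fin (2 * genusNat N)))).trans (evalEquiv N R R).symm

theorem baseChangePE_tmul (N : ℕ) [NeZero N] (R : Type*) [CommRing R] (r : R) (φ : HPE N) :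
    baseChangePE N R (r ⊗ₜ[ℤ] φ) = r • castPE N R φ := by
  apply (evalEquiv N R R).injective
  rw [baseChangePE, LinearEquiv.trans_apply, LinearEquiv.apply_symm_apply,
    LinearEquiv.trans_apply, LinearEquiv.baseChange_tmul, TensorProduct.piScalarRight_apply,
    TensorProduct.piScalarRightHom_tmul, map_smul]
  funext l
  rw [Pi.smul_apply, evalEquiv_apply, evalEquiv_apply, smul_eq_mul, zsmul_eq_mul, mul_comm,
    coe_castPE_apply]

theorem baseChangePE_hecke (N : ℕ) [NeZero N] (R : Type*) [CommRing R] (ℓ : Nat.Primes)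
    (x : R ⊗[ℤ] HPE N) :
    baseChangePE N R ((heckePE N ℓ ℤ ℤ).baseChange R x)
      = heckePE N ℓ R R (baseChangePE N R x) := by
  induction x using TensorProduct.induction_on with
  | zero => simp
  | tmul r φ =>
    rw [LinearMap.baseChange_tmul, baseChangePE_tmul, baseChangePE_tmul, map_smul, castPE_heckePE]
  | add x y hx hy => rw [map_add, map_add, hx, hy, map_add, map_add]

/-! ### The Eichler–Shimura isomorphism, Hecke-equivariantly -/

/-- The Hecke operator `T_ℓ` / `U_ℓ` on `S₂(Γ₀(N))` (the Prelude's `CuspForm.heckeFormsGen`). -/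
def heckeS2 (N : ℕ) [NeZero N] (ℓ : Nat.Primes) : Module.End ℂ (CuspForm (Gamma0 N) 2) :=
  (CuspForm.heckeFormsGen N 2 ℓ : Module.End ℂ (CuspForm (Gamma0 N) 2))

theorem heckeS2_comm (N : ℕ) [NeZero N] (ℓ ℓ' : Nat.Primes) :
    Commute (heckeS2 N ℓ) (heckeS2 N ℓ') := by
  have h := mul_comm (CuspForm.heckeFormsGen N 2 ℓ) (CuspForm.heckeFormsGen N 2 ℓ')
  exact congrArg Subtype.val h

theorem periodHomPair_mem_peHoms (N : ℕ) [NeZero N]
    (x : CuspForm (Gamma0 N) 2 × CuspForm (Gamma0 N) 2) :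
    periodHomPair N x ∈ peHoms (Gamma0 N) ℂ ℂ := by
  rw [peHoms_complex_eq, ← (Fermat.Agent.S21.result N).2]
  exact LinearMap.mem_range_self _ x

/-- **Eichler–Shimura** (S21): `S₂(Γ₀(N)) × S₂(Γ₀(N)) ≃ Hom_PE(Γ₀(N), ℂ)`. -/
def periodEquiv (N : ℕ) [NeZero N] :
    (CuspForm (Gamma0 N) 2 × CuspForm (Gamma0 N) 2) ≃ₗ[ℂ] peHoms (Gamma0 N) ℂ ℂ :=
  LinearEquiv.ofBijective
    ((periodHomPair N).codRestrict (peHoms (Gamma0 N) ℂ ℂ) (periodHomPair_mem_peHoms N))
    ⟨fun x y h => (Fermat.Agent.S21.result N).1 (congrArg Subtype.val h), fun ψ => by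
      have hψ : (ψ : Additive (Gamma0 N) →+ ℂ) ∈ LinearMap.range (periodHomPair N) := by
        rw [(Fermat.Agent.S21.result N).2, ← peHoms_complex_eq]
        exact ψ.2
      obtain ⟨x, hx⟩ := hψ
      exact ⟨x, Subtype.ext hx⟩⟩

theorem coe_periodEquiv (N : ℕ) [NeZero N]
    (x : CuspForm (Gamma0 N) 2 × CuspForm (Gamma0 N) 2) :
    ((periodEquiv N x : peHoms (Gamma0 N) ℂ ℂ) : Additive (Gamma0 N) →+ ℂ)
      = periodHomPair N x := rfl

theorem periodEquiv_hecke (N : ℕ) [NeZero N] (ℓ : Nat.Primes)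
    (x : CuspForm (Gamma0 N) 2 × CuspForm (Gamma0 N) 2) :
    periodEquiv N (heckeS2 N ℓ x.1, heckeS2 N ℓ x.2) = heckePE N ℓ ℂ ℂ (periodEquiv N x) :=
  Subtype.ext (periodHomPair_hecke N ℓ x.1 x.2)

/-- The comparison `ℂ ⊗ H ≃ S₂ × S₂`. -/
def cmpS2 (N : ℕ) [NeZero N] :
    ℂ ⊗[ℤ] HPE N ≃ₗ[ℂ] (CuspForm (Gamma0 N) 2 × CuspForm (Gamma0 N) 2) :=
  (baseChangePE N ℂ).trans (periodEquiv N).symm

/-- The comparison `ℂ ⊗ H ≃ S₂ × S₂` is Hecke-equivariant. -/
theorem cmpS2_hecke (N : ℕ) [NeZero N] (ℓ : Nat.Primes) (x : ℂ ⊗[ℤ] HPE N) :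
    cmpS2 N ((heckePE N ℓ ℤ ℤ).baseChange ℂ x)
      = (heckeS2 N ℓ (cmpS2 N x).1, heckeS2 N ℓ (cmpS2 N x).2) := by
  apply (periodEquiv N).injective
  rw [periodEquiv_hecke]
  simp only [cmpS2, LinearEquiv.trans_apply, LinearEquiv.apply_symm_apply]
  exact baseChangePE_hecke N ℂ ℓ x

/-! ### Commutativity of the Hecke operators -/

theorem heckePE_comm_complex (N : ℕ) [NeZero N] (ℓ ℓ' : Nat.Primes) :
    Commute (heckePE N ℓ ℂ ℂ) (heckePE N ℓ' ℂ ℂ) := by
  refine LinearMap.ext fun ψ => ?_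
  obtain ⟨x, rfl⟩ := (periodEquiv N).surjective ψ
  have h := heckeS2_comm N ℓ ℓ'
  have h1 : ∀ f : CuspForm (Gamma0 N) 2, heckeS2 N ℓ (heckeS2 N ℓ' f)
      = heckeS2 N ℓ' (heckeS2 N ℓ f) := fun f => congrArg (fun T => T f) h.eq
  show heckePE N ℓ ℂ ℂ (heckePE N ℓ' ℂ ℂ (periodEquiv N x))
    = heckePE N ℓ' ℂ ℂ (heckePE N ℓ ℂ ℂ (periodEquiv N x))
  rw [← periodEquiv_hecke, ← periodEquiv_hecke, ← periodEquiv_hecke, ← periodEquiv_hecke]
  simp only [h1]

theorem heckePE_comm_int (N : ℕ) [NeZero N] (ℓ ℓ' : Nat.Primes) :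
    Commute (heckePE N ℓ ℤ ℤ) (heckePE N ℓ' ℤ ℤ) := by
  refine LinearMap.ext fun φ => ?_
  apply castPE_injective N ℂ
  show castPE N ℂ (heckePE N ℓ ℤ ℤ (heckePE N ℓ' ℤ ℤ φ))
    = castPE N ℂ (heckePE N ℓ' ℤ ℤ (heckePE N ℓ ℤ ℤ φ))
  rw [castPE_heckePE, castPE_heckePE, castPE_heckePE, castPE_heckePE]
  exact congrArg (fun T => T (castPE N ℂ φ)) (heckePE_comm_complex N ℓ ℓ').eq

/-- The Hecke operators on `Hom_PE(Γ₀(N), R)` commute, for every commutative ring `R`. -/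
theorem heckePE_comm (N : ℕ) [NeZero N] (R : Type*) [CommRing R] (ℓ ℓ' : Nat.Primes) :
    Commute (heckePE N ℓ R R) (heckePE N ℓ' R R) := by
  refine LinearMap.ext fun ψ => ?_
  obtain ⟨x, rfl⟩ := (baseChangePE N R).surjective ψ
  show heckePE N ℓ R R (heckePE N ℓ' R R (baseChangePE N R x))
    = heckePE N ℓ' R R (heckePE N ℓ R R (baseChangePE N R x))
  rw [← baseChangePE_hecke, ← baseChangePE_hecke, ← baseChangePE_hecke, ← baseChangePE_hecke,
    ← Module.End.mul_apply, ← Module.End.mul_apply, ← LinearMap.baseChange_mul,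
    ← LinearMap.baseChange_mul, (heckePE_comm_int N ℓ ℓ').eq]

end

end Fermat.Agent.ESJ.ParHom
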