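import Mathlib
import Fermat.Agent.ESJ.ParHom.Cmp
import Fermat.Agent.ESJ.Jac.Defs

/-!
# ESJ / JAC-TORS (task JAC-PAR (2), (3)) : torsion coefficients

* `mapPE Γ u` : change of coefficients `peHoms Γ R A →+ peHoms Γ R' B` along `u : A →+ B`;
  for `Γ = Γ₀(N)` it is surjective if `u` is (`mapPE_surjective`), its kernel is `c • _` if
  `ker u = c • A` (`exists_eq_smul_of_mapPE_eq_zero`), and it commutes with the Hecke operators
  (`mapPE_heckePE`);
* reduction mod `n` of `H = Hom_PE(Γ₀(N), ℤ)` (`mapPE_intCast_eq_zero_iff`,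
  `card_peHoms_zmod'`);
* the tower `redTa p N k : Hom_PE(Γ₀(N), ℤ_p) → Hom_PE(Γ₀(N), ℤ/p^k)`: surjective, kernel
  `p^k`, jointly injective, compatible families lift uniquely (`exists_redTa_eq`);
* the bridge to multiplicative characters: `zmodExp n : ZMod n →+ Additive ℂˣ`
  (`a ↦ exp(2πi a/n)`), `peChar Γ n φ : Γ →* ℂˣ`, `peCharSub Γ n : Subgroup (Γ →* ℂˣ)`
  (the `Jac.IsPEChar Γ n` characters) and
  `peCharEquiv Γ n : peHoms Γ ℤ (ZMod n) ≃+ Additive (peCharSub Γ n)`;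
  compatibility in `n` (`peChar_castHom`) and with the Hecke operators
  (`toAdditive_peChar_heckeCoh`).
-/

set_option autoImplicit false

open scoped MatrixGroups
open CongruenceSubgroup ModularCurve.Period

namespace Fermat.Agent.ESJ.ParHom

noncomputable section

/-! ### Change of coefficients -/

section MapPE

variable (Γ : Subgroup SL(2, ℤ)) {R R' : Type*} [Semiring R] [Semiring R'] {A B : Type*}
  [AddCommGroup A] [AddCommGroup B] [Module R A] [Module R' B]

/-- Change of coefficients for parabolic-elliptic homomorphisms. -/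
def mapPE (u : A →+ B) : peHoms Γ R A →+ peHoms Γ R' B where
  toFun φ := ⟨u.comp (φ : Additive Γ →+ A), fun γ hγ => by
    show u ((φ : Additive Γ →+ A) (Additive.ofMul γ)) = 0
    rw [φ.2 γ hγ, map_zero]⟩
  map_zero' := by
    apply Subtype.ext
    refine AddMonoidHom.ext fun x => ?_
    simp
  map_add' φ ψ := by
    apply Subtype.ext
    refine AddMonoidHom.ext fun x => ?_
    simp

theorem coe_mapPE_apply (u : A →+ B) (φ : peHoms Γ R A) (x : Additive Γ) :
    ((mapPE Γ u φ : peHoms Γ R' B) : Additive Γ →+ B) x = u ((φ : Additive Γ →+ A) x) := rfl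

theorem mapPE_injective {u : A →+ B} (hu : Function.Injective u) :
    Function.Injective (mapPE Γ u : peHoms Γ R A → peHoms Γ R' B) := by
  intro φ ψ h
  apply Subtype.ext
  refine AddMonoidHom.ext fun x => ?_
  have := congrArg (fun χ : peHoms Γ R' B => (χ : Additive Γ →+ B) x) h
  exact hu this

end MapPE

section MapPEGamma0

variable {N : ℕ} [NeZero N] {R R' : Type*} [Semiring R] [Semiring R'] {A B : Type*}
  [AddCommGroup A] [AddCommGroup B] [Module R A] [Module R' B]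

theorem evalEquiv_mapPE (u : A →+ B) (φ : peHoms (Gamma0 N) R A) (l : Fin (2 * genusNat N)) :
    evalEquiv N R' B (mapPE (Gamma0 N) u φ) l = u (evalEquiv N R A φ l) := by
  rw [evalEquiv_apply, evalEquiv_apply]
  rfl

/-- Change of coefficients along a surjection is surjective (`Γ₀(N)^ab/⟨par, ell⟩` is free). -/
theorem mapPE_surjective {u : A →+ B} (hu : Function.Surjective u) :
    Function.Surjective (mapPE (Gamma0 N) u : peHoms (Gamma0 N) R A → peHoms (Gamma0 N) R' B) := by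
  intro ψ
  choose a ha using fun l : Fin (2 * genusNat N) => hu (evalEquiv N R' B ψ l)
  refine ⟨(evalEquiv N R A).symm a, ?_⟩
  apply (evalEquiv N R' B).injective
  funext l
  rw [evalEquiv_mapPE, LinearEquiv.apply_symm_apply, ha]

/-- The kernel of a change of coefficients: if `ker u = c • A` then `ker (mapPE u) = c • _`. -/
theorem exists_eq_smul_of_mapPE_eq_zero {u : A →+ B} (c : R)
    (hc : ∀ a : A, u a = 0 → ∃ a' : A, a = c • a') (φ : peHoms (Gamma0 N) R A)
    (h : mapPE (Gamma0 N) u φ = (0 : peHoms (Gamma0 N) R' B)) :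
    ∃ ψ : peHoms (Gamma0 N) R A, φ = c • ψ := by
  have h0 : ∀ l : Fin (2 * genusNat N), u (evalEquiv N R A φ l) = 0 := by
    intro l
    rw [← evalEquiv_mapPE (R' := R'), h, map_zero]
    rfl
  choose a ha using fun l : Fin (2 * genusNat N) => hc _ (h0 l)
  refine ⟨(evalEquiv N R A).symm a, ?_⟩
  apply (evalEquiv N R A).injective
  rw [map_smul, LinearEquiv.apply_symm_apply]
  funext l
  rw [ha l]
  rfl

omit [NeZero N] in
theorem mapPE_heckePE (ℓ : Nat.Primes) (u : A →+ B) (φ : peHoms (Gamma0 N) R A) :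
    mapPE (Gamma0 N) u (heckePE N ℓ R A φ)
      = heckePE N ℓ R' B (mapPE (Gamma0 N) u φ) :=
  Subtype.ext (heckeCoh_comp N ℓ u (φ : Additive (Gamma0 N) →+ A)).symm

end MapPEGamma0

section Reduction

variable {N : ℕ} [NeZero N]

/-- Counting: `#Hom_PE(Γ₀(N), ℤ/n) = n ^ (2 g)`. -/
theorem card_peHoms_zmod' (R : Type*) [Semiring R] (n : ℕ) [NeZero n] [Module R (ZMod n)] :
    Nat.card (peHoms (Gamma0 N) R (ZMod n)) = n ^ (2 * genusNat N) := by
  rw [Nat.card_congr (evalEquiv N R (ZMod n)).toEquiv, Nat.card_eq_fintype_card, Fintype.card_fun,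
    ZMod.card, Fintype.card_fin]

/-- Reduction mod `n` of `H = Hom_PE(Γ₀(N), ℤ)` has kernel `n • H`. -/
theorem mapPE_intCast_eq_zero_iff (R' : Type*) [Semiring R'] (n : ℕ) [Module R' (ZMod n)]
    (φ : HPE N) :
    mapPE (Gamma0 N) (Int.castAddHom (ZMod n)) φ = (0 : peHoms (Gamma0 N) R' (ZMod n))
      ↔ ∃ ψ : HPE N, φ = (n : ℤ) • ψ := by
  constructor
  · intro h
    refine exists_eq_smul_of_mapPE_eq_zero (R := ℤ) (u := Int.castAddHom (ZMod n)) (n : ℤ) ?_ φ h
    intro a ha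
    obtain ⟨b, hb⟩ := (ZMod.intCast_zmod_eq_zero_iff_dvd a n).mp ha
    exact ⟨b, by rw [hb, smul_eq_mul]⟩
  · rintro ⟨ψ, rfl⟩
    apply Subtype.ext
    refine AddMonoidHom.ext fun x => ?_
    show (((((n : ℤ) • ψ : HPE N) : Additive (Gamma0 N) →+ ℤ) x : ℤ) : ZMod n) = 0
    have : (((n : ℤ) • ψ : HPE N) : Additive (Gamma0 N) →+ ℤ) x
        = (n : ℤ) * (ψ : Additive (Gamma0 N) →+ ℤ) x := rfl
    rw [this]
    push_cast
    rw [ZMod.natCast_self, zero_mul]

end Reduction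

/-! ### The `p`-adic tower -/

section Tower

variable (p : ℕ) [Fact p.Prime]

/-- A compatible sequence of residues mod `p ^ k` comes from a `p`-adic integer. -/
theorem exists_padicInt_of_compat (s : ∀ k : ℕ, ZMod (p ^ k))
    (hs : ∀ k : ℕ, ZMod.castHom (pow_dvd_pow p (Nat.le_succ k)) (ZMod (p ^ k)) (s (k + 1)) = s k) :
    ∃ x : ℤ_[p], ∀ k : ℕ, PadicInt.toZModPow k x = s k := by
  set f : ℕ → ℤ := fun k => ((s k).val : ℤ) with hf
  have hfk : ∀ k : ℕ, ((f k : ℤ) : ZMod (p ^ k)) = s k := by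
    intro k
    simp only [hf, Int.cast_natCast]
    exact ZMod.natCast_zmod_val (s k)
  have hi : ∀ i : ℕ, (p : ℤ) ^ i ∣ f (i + 1) - f i := by
    intro i
    have h1 : (((f (i + 1) - f i : ℤ)) : ZMod (p ^ i)) = 0 := by
      rw [Int.cast_sub, hfk i, ← hs i, ← hfk (i + 1), map_intCast, sub_self]
    have h2 := (ZMod.intCast_zmod_eq_zero_iff_dvd _ _).mp h1
    exact_mod_cast h2
  refine ⟨PadicInt.ofIntSeq _ (PadicInt.isCauSeq_padicNorm_of_pow_dvd_sub f p hi), fun k => ?_⟩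
  rw [PadicInt.toZModPow_ofIntSeq_of_pow_dvd_sub f p hi k, hfk]

variable (N : ℕ) [NeZero N]

/-- The reduction `Hom_PE(Γ₀(N), ℤ_p) → Hom_PE(Γ₀(N), ℤ/p^k)`. -/
def redTa (k : ℕ) : peHoms (Gamma0 N) ℤ_[p] ℤ_[p] →+ peHoms (Gamma0 N) ℤ (ZMod (p ^ k)) :=
  mapPE (Gamma0 N) (PadicInt.toZModPow k).toAddMonoidHom

omit [NeZero N] in
theorem coe_redTa_apply (k : ℕ) (v : peHoms (Gamma0 N) ℤ_[p] ℤ_[p]) (x : Additive (Gamma0 N)) :
    ((redTa p N k v : peHoms (Gamma0 N) ℤ (ZMod (p ^ k))) : Additive (Gamma0 N) →+ ZMod (p ^ k)) x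
      = PadicInt.toZModPow k ((v : Additive (Gamma0 N) →+ ℤ_[p]) x) := rfl

theorem redTa_surjective (k : ℕ) : Function.Surjective (redTa p N k) :=
  mapPE_surjective (fun y => ZMod.ringHom_surjective (PadicInt.toZModPow k) y)

/-- The kernel of the reduction mod `p ^ k` is `p ^ k • Ta`. -/
theorem redTa_eq_zero_iff (k : ℕ) (v : peHoms (Gamma0 N) ℤ_[p] ℤ_[p]) :
    redTa p N k v = 0 ↔ ∃ w : peHoms (Gamma0 N) ℤ_[p] ℤ_[p], v = (p : ℤ_[p]) ^ k • w := by
  constructor
  · intro h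
    refine exists_eq_smul_of_mapPE_eq_zero (R := ℤ_[p])
      (u := (PadicInt.toZModPow k).toAddMonoidHom) ((p : ℤ_[p]) ^ k) ?_ v h
    intro a ha
    have ha' : a ∈ RingHom.ker (PadicInt.toZModPow (p := p) k) := ha
    rw [PadicInt.ker_toZModPow, Ideal.mem_span_singleton] at ha'
    obtain ⟨b, hb⟩ := ha'
    exact ⟨b, by rw [hb, smul_eq_mul]⟩
  · rintro ⟨w, rfl⟩
    apply Subtype.ext
    refine AddMonoidHom.ext fun x => ?_
    show PadicInt.toZModPow k ((p : ℤ_[p]) ^ k * (w : Additive (Gamma0 N) →+ ℤ_[p]) x) = 0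
    rw [map_mul, map_pow, map_natCast]
    have : ((p : ZMod (p ^ k)) ^ k) = 0 := by
      rw [← Nat.cast_pow, ZMod.natCast_self]
    rw [this, zero_mul]

omit [NeZero N] in
/-- The reductions are compatible. -/
theorem mapPE_castHom_redTa (k : ℕ) (v : peHoms (Gamma0 N) ℤ_[p] ℤ_[p]) :
    mapPE (Gamma0 N)
        (ZMod.castHom (pow_dvd_pow p (Nat.le_succ k)) (ZMod (p ^ k))).toAddMonoidHom
        (redTa p N (k + 1) v) = redTa p N k v := by
  apply Subtype.ext
  refine AddMonoidHom.ext fun x => ?_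
  show ZMod.castHom (pow_dvd_pow p (Nat.le_succ k)) (ZMod (p ^ k))
      (PadicInt.toZModPow (k + 1) ((v : Additive (Gamma0 N) →+ ℤ_[p]) x))
    = PadicInt.toZModPow k ((v : Additive (Gamma0 N) →+ ℤ_[p]) x)
  exact congrArg (fun f : ℤ_[p] →+* ZMod (p ^ k) => f ((v : Additive (Gamma0 N) →+ ℤ_[p]) x))
    (PadicInt.zmod_cast_comp_toZModPow k (k + 1) (Nat.le_succ k))

omit [NeZero N] in
/-- An element of `Hom_PE(Γ₀(N), ℤ_p)` is determined by its reductions. -/
theorem eq_of_redTa_eq {v w : peHoms (Gamma0 N) ℤ_[p] ℤ_[p]}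
    (h : ∀ k : ℕ, redTa p N k v = redTa p N k w) : v = w := by
  apply Subtype.ext
  refine AddMonoidHom.ext fun x => ?_
  apply PadicInt.ext_of_toZModPow.mp
  intro k
  exact congrArg (fun χ : peHoms (Gamma0 N) ℤ (ZMod (p ^ k)) =>
    (χ : Additive (Gamma0 N) →+ ZMod (p ^ k)) x) (h k)

/-- **`Hom_PE(Γ₀(N), ℤ_p) = lim_k Hom_PE(Γ₀(N), ℤ/p^k)`**: compatible families lift. -/
theorem exists_redTa_eq (φ : ∀ k : ℕ, peHoms (Gamma0 N) ℤ (ZMod (p ^ k)))
    (hφ : ∀ k : ℕ, mapPE (Gamma0 N)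
      (ZMod.castHom (pow_dvd_pow p (Nat.le_succ k)) (ZMod (p ^ k))).toAddMonoidHom (φ (k + 1))
        = φ k) :
    ∃ v : peHoms (Gamma0 N) ℤ_[p] ℤ_[p], ∀ k : ℕ, redTa p N k v = φ k := by
  have hx : ∀ l : Fin (2 * genusNat N), ∃ x : ℤ_[p], ∀ k : ℕ,
      PadicInt.toZModPow k x = evalEquiv N ℤ (ZMod (p ^ k)) (φ k) l := by
    intro l
    refine exists_padicInt_of_compat p (fun k => evalEquiv N ℤ (ZMod (p ^ k)) (φ k) l) ?_
    intro k
    rw [← hφ k, evalEquiv_mapPE]
    rfl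
  choose x hx using hx
  refine ⟨(evalEquiv N ℤ_[p] ℤ_[p]).symm x, fun k => ?_⟩
  apply (evalEquiv N ℤ (ZMod (p ^ k))).injective
  funext l
  rw [redTa, evalEquiv_mapPE, LinearEquiv.apply_symm_apply]
  exact hx l k

omit [NeZero N] in
theorem redTa_heckePE (k : ℕ) (ℓ : Nat.Primes) (v : peHoms (Gamma0 N) ℤ_[p] ℤ_[p]) :
    redTa p N k (heckePE N ℓ ℤ_[p] ℤ_[p] v) = heckePE N ℓ ℤ (ZMod (p ^ k)) (redTa p N k v) :=
  mapPE_heckePE ℓ _ v

end Tower

/-! ### The bridge to multiplicative characters -/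

section Characters

open Real Complex

/-- `a ↦ exp(2πi a / n)`, as an additive map `ZMod n → Additive ℂˣ`. -/
def zmodExp (n : ℕ) [NeZero n] : ZMod n →+ Additive ℂˣ where
  toFun a := Additive.ofMul (Circle.toUnits (ZMod.toCircle a))
  map_zero' := by
    rw [AddChar.map_zero_eq_one, map_one]
    rfl
  map_add' a b := by
    rw [AddChar.map_add_eq_mul, map_mul]
    rfl

theorem coe_zmodExp (n : ℕ) [NeZero n] (a : ZMod n) :
    ((Additive.toMul (zmodExp n a) : ℂˣ) : ℂ) = Complex.exp (2 * π * I * a.val / n) :=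
  ZMod.toCircle_apply a

theorem coe_zmodExp_intCast (n : ℕ) [NeZero n] (j : ℤ) :
    ((Additive.toMul (zmodExp n (j : ZMod n)) : ℂˣ) : ℂ) = Complex.exp (2 * π * I * j / n) :=
  ZMod.toCircle_intCast j

theorem zmodExp_injective (n : ℕ) [NeZero n] : Function.Injective (zmodExp n) := by
  intro a b h
  apply ZMod.injective_toCircle
  have h1 : Circle.toUnits (ZMod.toCircle a) = Circle.toUnits (ZMod.toCircle b) := h
  have h2 := congrArg (fun u : ℂˣ => (u : ℂ)) h1
  exact Subtype.ext h2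

/-- Every `n`-th root of unity is a value of `zmodExp n`. -/
theorem exists_zmodExp_eq (n : ℕ) [NeZero n] (x : ℂˣ) (hx : x ^ n = 1) :
    ∃ a : ZMod n, zmodExp n a = Additive.ofMul x := by
  obtain ⟨i, -, hi⟩ := (Complex.mem_rootsOfUnity n x).mp ((_root_.mem_rootsOfUnity n x).mpr hx)
  refine ⟨(i : ZMod n), ?_⟩
  have h1 : ((Additive.toMul (zmodExp n (i : ZMod n)) : ℂˣ) : ℂ) = (x : ℂ) := by
    have := coe_zmodExp_intCast n (i : ℤ)
    rw [Int.cast_natCast] at this
    rw [this, ← hi]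
    congr 1
    push_cast
    ring
  exact congrArg Additive.ofMul (Units.ext h1)

theorem nsmul_zmodExp (n : ℕ) [NeZero n] (a : ZMod n) : n • zmodExp n a = 0 := by
  rw [← map_nsmul, nsmul_eq_mul, ZMod.natCast_self, zero_mul, map_zero]

/-- Compatibility of `zmodExp` in `n`. -/
theorem zmodExp_castHom {n n' : ℕ} [NeZero n] [NeZero n'] (h : n ∣ n') (a : ZMod n') :
    zmodExp n (ZMod.castHom h (ZMod n) a) = (n' / n) • zmodExp n' a := by
  obtain ⟨j, rfl⟩ := ZMod.intCast_surjective a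
  rw [map_intCast]
  have h1 : ((Additive.toMul (zmodExp n (j : ZMod n)) : ℂˣ) : ℂ)
      = ((Additive.toMul ((n' / n) • zmodExp n' (j : ZMod n')) : ℂˣ) : ℂ) := by
    rw [toMul_nsmul, Units.val_pow_eq_pow_val, coe_zmodExp_intCast, coe_zmodExp_intCast,
      ← Complex.exp_nat_mul]
    congr 1
    obtain ⟨d, rfl⟩ := h
    have hn : (n : ℂ) ≠ 0 := Nat.cast_ne_zero.mpr (NeZero.ne n)
    have hd : (d : ℂ) ≠ 0 := by
      have : d ≠ 0 := by
        rintro rfl
        exact NeZero.ne (n * 0) (mul_zero n)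
      exact Nat.cast_ne_zero.mpr this
    rw [Nat.mul_div_cancel_left d (NeZero.pos n)]
    push_cast
    field_simp
  exact Additive.toMul.injective (Units.ext h1)

variable (Γ : Subgroup SL(2, ℤ))

/-- The character `γ ↦ exp(2πi φ(γ) / n)` of a homomorphism `φ : Γ → ℤ/n`. -/
def peChar (n : ℕ) [NeZero n] (φ : Additive Γ →+ ZMod n) : Γ →* ℂˣ :=
  MonoidHom.toAdditive.symm ((zmodExp n).comp φ)

theorem peChar_apply (n : ℕ) [NeZero n] (φ : Additive Γ →+ ZMod n) (γ : Γ) :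
    peChar Γ n φ γ = Additive.toMul (zmodExp n (φ (Additive.ofMul γ))) := rfl

theorem coe_peChar_apply (n : ℕ) [NeZero n] (φ : Additive Γ →+ ZMod n) (γ : Γ) :
    ((peChar Γ n φ γ : ℂˣ) : ℂ) = Complex.exp (2 * π * I * (φ (Additive.ofMul γ)).val / n) :=
  coe_zmodExp n _

theorem toAdditive_peChar (n : ℕ) [NeZero n] (φ : Additive Γ →+ ZMod n) :
    MonoidHom.toAdditive (peChar Γ n φ) = (zmodExp n).comp φ := rfl

theorem peChar_add (n : ℕ) [NeZero n] (φ ψ : Additive Γ →+ ZMod n) :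
    peChar Γ n (φ + ψ) = peChar Γ n φ * peChar Γ n ψ := by
  refine MonoidHom.ext fun γ => ?_
  rw [MonoidHom.mul_apply, peChar_apply, peChar_apply, peChar_apply, AddMonoidHom.add_apply,
    map_add]
  rfl

theorem peChar_zero (n : ℕ) [NeZero n] : peChar Γ n (0 : Additive Γ →+ ZMod n) = 1 := by
  refine MonoidHom.ext fun γ => ?_
  rw [peChar_apply, AddMonoidHom.zero_apply, map_zero]
  rfl

theorem peChar_injective (n : ℕ) [NeZero n] :
    Function.Injective (peChar Γ n : (Additive Γ →+ ZMod n) → (Γ →* ℂˣ)) := by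
  intro φ ψ h
  refine AddMonoidHom.ext fun x => ?_
  obtain ⟨γ, rfl⟩ := Additive.ofMul.surjective x
  apply zmodExp_injective n
  have := congrArg (fun χ : Γ →* ℂˣ => Additive.ofMul (χ γ)) h
  exact this

/-- The character of a parabolic-elliptic homomorphism is a parabolic-elliptic character. -/
theorem isPEChar_peChar (n : ℕ) [NeZero n] {φ : Additive Γ →+ ZMod n} (hφ : IsPEHom Γ φ) :
    Fermat.Agent.ESJ.Jac.IsPEChar Γ n (peChar Γ n φ) := by
  refine ⟨fun γ => ?_, fun γ hγ => ?_⟩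
  · rw [peChar_apply, ← toMul_nsmul, nsmul_zmodExp]
    rfl
  · rw [peChar_apply, hφ γ hγ, map_zero]
    rfl

/-- Every parabolic-elliptic character of exponent `n` comes from a unique parabolic-elliptic
homomorphism to `ℤ/n`. -/
theorem exists_isPEHom_peChar_eq (n : ℕ) [NeZero n] {χ : Γ →* ℂˣ}
    (hχ : Fermat.Agent.ESJ.Jac.IsPEChar Γ n χ) :
    ∃ φ : Additive Γ →+ ZMod n, IsPEHom Γ φ ∧ peChar Γ n φ = χ := by
  choose a ha using fun γ : Γ => exists_zmodExp_eq n (χ γ) (hχ.1 γ)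
  have hadd : ∀ γ δ : Γ, a (γ * δ) = a γ + a δ := by
    intro γ δ
    apply zmodExp_injective n
    rw [map_add, ha, ha, ha, map_mul]
    rfl
  refine ⟨AddMonoidHom.mk' (fun x => a (Additive.toMul x)) (fun x y => hadd _ _), ?_, ?_⟩
  · intro γ hγ
    apply zmodExp_injective n
    show zmodExp n (a γ) = zmodExp n 0
    rw [ha, hχ.2 γ hγ, map_zero]
    rfl
  · refine MonoidHom.ext fun γ => ?_
    rw [peChar_apply]
    show Additive.toMul (zmodExp n (a γ)) = χ γ
    rw [ha]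
    rfl

/-- The subgroup of parabolic-elliptic characters of exponent `n`. -/
def peCharSub (n : ℕ) : Subgroup (Γ →* ℂˣ) where
  carrier := {χ | Fermat.Agent.ESJ.Jac.IsPEChar Γ n χ}
  mul_mem' := by
    rintro χ ψ ⟨h1, h2⟩ ⟨h3, h4⟩
    refine ⟨fun γ => ?_, fun γ hγ => ?_⟩
    · rw [MonoidHom.mul_apply, mul_pow, h1, h3, one_mul]
    · rw [MonoidHom.mul_apply, h2 γ hγ, h4 γ hγ, one_mul]
  one_mem' := ⟨fun γ => by rw [MonoidHom.one_apply, one_pow], fun γ _ => rfl⟩
  inv_mem' := by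
    rintro χ ⟨h1, h2⟩
    refine ⟨fun γ => ?_, fun γ hγ => ?_⟩
    · rw [MonoidHom.inv_apply, inv_pow, h1, inv_one]
    · rw [MonoidHom.inv_apply, h2 γ hγ, inv_one]

theorem mem_peCharSub {n : ℕ} {χ : Γ →* ℂˣ} :
    χ ∈ peCharSub Γ n ↔ Fermat.Agent.ESJ.Jac.IsPEChar Γ n χ := Iff.rfl

/-- **The bridge**: `Hom_PE(Γ, ℤ/n) ≃ {parabolic-elliptic characters of exponent n}`,
`φ ↦ (γ ↦ exp(2πi φ(γ) / n))`. -/
def peCharEquiv (n : ℕ) [NeZero n] : peHoms Γ ℤ (ZMod n) ≃+ Additive (peCharSub Γ n) :=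
  AddEquiv.ofBijective
    (AddMonoidHom.mk' (fun φ : peHoms Γ ℤ (ZMod n) => Additive.ofMul
        (⟨peChar Γ n (φ : Additive Γ →+ ZMod n), isPEChar_peChar Γ n φ.2⟩ : peCharSub Γ n))
      (fun φ ψ => by
        apply Additive.toMul.injective
        apply Subtype.ext
        exact peChar_add Γ n _ _))
    ⟨fun φ ψ h => by
      apply Subtype.ext
      apply peChar_injective Γ n
      exact congrArg (fun χ : Additive (peCharSub Γ n) =>
        ((Additive.toMul χ : peCharSub Γ n) : Γ →* ℂˣ)) h,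
     fun χ => by
      obtain ⟨φ, hφ, h⟩ := exists_isPEHom_peChar_eq Γ n (Additive.toMul χ).2
      refine ⟨⟨φ, hφ⟩, ?_⟩
      apply Additive.toMul.injective
      apply Subtype.ext
      exact h⟩

theorem coe_peCharEquiv_apply (n : ℕ) [NeZero n] (φ : peHoms Γ ℤ (ZMod n)) :
    ((Additive.toMul (peCharEquiv Γ n φ) : peCharSub Γ n) : Γ →* ℂˣ)
      = peChar Γ n (φ : Additive Γ →+ ZMod n) := rfl

/-- Compatibility of the bridge in `n`: the character of `φ' mod n` is the `(n'/n)`-th power of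
the character of `φ'`. -/
theorem peChar_castHom {n n' : ℕ} [NeZero n] [NeZero n'] (h : n ∣ n')
    (φ' : Additive Γ →+ ZMod n') :
    peChar Γ n ((ZMod.castHom h (ZMod n)).toAddMonoidHom.comp φ') = peChar Γ n' φ' ^ (n' / n) := by
  refine MonoidHom.ext fun γ => ?_
  rw [MonoidHom.pow_apply, peChar_apply, peChar_apply, ← toMul_nsmul, ← zmodExp_castHom h]
  rfl

/-- Compatibility of the bridge with the Hecke operators: on characters, the Hecke operator is
the (multiplicative) transfer `heckeCoh` with coefficients `Additive ℂˣ`. -/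
theorem toAdditive_peChar_heckeCoh (N : ℕ) (ℓ : Nat.Primes) (n : ℕ) [NeZero n]
    (φ : Additive (Gamma0 N) →+ ZMod n) :
    MonoidHom.toAdditive (peChar (Gamma0 N) n (heckeCoh N ℓ φ))
      = heckeCoh N ℓ (MonoidHom.toAdditive (peChar (Gamma0 N) n φ)) :=
  (heckeCoh_comp N ℓ (zmodExp n) φ).symm

end Characters

end

end Fermat.Agent.ESJ.ParHom
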