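import Mathlib
import Fermat.Agent.ESJ.ParHom.Cmp
import Fermat.Agent.ESJ.Rep.Defs
import Fermat.Agent.ESJ.Rep.EigenDim

/-!
# ESJ / REP : the comparison data `CmpData` for the model `Ta = Hom_PE(Γ₀(N), ℤ_p)`

`taPE p N := peHoms (Gamma0 N) ℤ_[p] ℤ_[p]` (finite free over `ℤ_[p]`, of rank `2 g`) with the
Hecke operators `heckeTa p N ℓ := heckePE N ℓ ℤ_[p] ℤ_[p]` is a model of the `p`-adic Tate module
of `J₀(N)` as a Hecke module.  This file provides, UNCONDITIONALLY: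

* `cmpData p N : Rep.CmpData p N (taPE p N) (heckeTa p N)` (lattice `H = Hom_PE(Γ₀(N), ℤ)`,
  `Ta ≃ ℤ_p ⊗ H`, `ℂ ⊗ H ≃ S₂ × S₂`, all Hecke-equivariant);
* `heckeTa_comm` : the Hecke operators commute;
* `eigen_dim_taPE` : the field `TateDatum.eigen_dim` for this model (via REP's
  `eigen_dim_of_cmpData`).
-/

set_option autoImplicit false

open scoped MatrixGroups TensorProduct
open CongruenceSubgroup

namespace Fermat.Agent.ESJ.ParHom

noncomputable section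

/-- The model `Hom_PE(Γ₀(N), ℤ_p)` of the `p`-adic Tate module of `J₀(N)`. -/
abbrev taPE (p N : ℕ) [Fact p.Prime] : Type := peHoms (Gamma0 N) ℤ_[p] ℤ_[p]

/-- The Hecke operators on `taPE p N`. -/
def heckeTa (p N : ℕ) [Fact p.Prime] (ℓ : Nat.Primes) : Module.End ℤ_[p] (taPE p N) :=
  heckePE N ℓ ℤ_[p] ℤ_[p]

theorem heckeTa_comm (p N : ℕ) [Fact p.Prime] [NeZero N] (ℓ ℓ' : Nat.Primes) :
    Commute (heckeTa p N ℓ) (heckeTa p N ℓ') :=
  heckePE_comm N ℤ_[p] ℓ ℓ'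

/-- **The comparison data for the model `Hom_PE(Γ₀(N), ℤ_p)`** (unconditional). -/
def cmpData (p N : ℕ) [Fact p.Prime] [NeZero N] :
    Fermat.Agent.ESJ.Rep.CmpData p N (taPE p N) (heckeTa p N) where
  H := HPE N
  heckeH := fun ℓ => heckePE N ℓ ℤ ℤ
  cmpTa := (baseChangePE N ℤ_[p]).symm
  cmpTa_hecke := fun ℓ v => by
    apply (baseChangePE N ℤ_[p]).injective
    rw [baseChangePE_hecke, LinearEquiv.apply_symm_apply, LinearEquiv.apply_symm_apply]
    rfl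
  cmpS2 := cmpS2 N
  cmpS2_hecke := fun ℓ x => cmpS2_hecke N ℓ x

/-- Every eigenspace of the full Hecke algebra on `E ⊗ taPE p N` is two-dimensional. -/
theorem eigen_dim_taPE (p N : ℕ) [Fact p.Prime] [NeZero N]
    (E : Type) [Field E] [CharZero E] [Algebra ℤ_[p] E]
    (χ : CuspForm.heckeAlgebra N 2 (∅ : Set ℕ) →+* E) :
    Module.finrank E (Fermat.Agent.ESJ.Rep.eigenspace
      (fun ℓ : Nat.Primes => (heckeTa p N ℓ).baseChange E)
      (fun ℓ : Nat.Primes => χ (CuspForm.heckeFormsGen N 2 ℓ))) = 2 :=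
  Fermat.Agent.ESJ.Rep.eigen_dim_of_cmpData (cmpData p N) E χ

end

end Fermat.Agent.ESJ.ParHom
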