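import Mathlib
import Fermat.Agent.ESJ.ParHom.Torsion
import Fermat.Agent.ESJ.ParHom.CmpData

/-!
# ESJ / JAC-H : a `TateDatum` from level-wise Galois actions

The Hecke-module side of REP's `TateDatum p N` is unconditional on the model
`taPE p N = Hom_PE(Γ₀(N), ℤ_p)` (`CmpData.lean`).  Here we add the Galois side by passing to the
limit: a `LevelGalois p N` is a compatible system of additive `G_ℚ`-actions on the finite levels
`taLevel p N k = Hom_PE(Γ₀(N), ℤ/p^k)` (`≃ J₀(N)[p^k]` through the Kummer isomorphism of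
JAC-TORS) which factor through finite extensions, commute with the Hecke operators, are
unramified outside `N p` and satisfy the Eichler–Shimura relation at the Frobenius elements.

* `LevelGalois.gal : GQ →* Module.End ℤ_[p] (taPE p N)` with `redTa_gal`;
* `tateDatumOfLevels : LevelGalois p N → Rep.TateDatum p N`.
-/

set_option autoImplicit false

open scoped MatrixGroups
open CongruenceSubgroup

namespace Fermat.Agent.ESJ.ParHom

open Fermat.Agent.ESJ.Rep (GQ Qb)

noncomputable section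

/-- The finite level `Hom_PE(Γ₀(N), ℤ/p^k)`. -/
abbrev taLevel (p N k : ℕ) : Type := peHoms (Gamma0 N) ℤ (ZMod (p ^ k))

/-- The transition map `Hom_PE(Γ₀(N), ℤ/p^(k+1)) → Hom_PE(Γ₀(N), ℤ/p^k)`. -/
def taTrans (p N k : ℕ) : taLevel p N (k + 1) →+ taLevel p N k :=
  mapPE (Gamma0 N) (ZMod.castHom (pow_dvd_pow p (Nat.le_succ k)) (ZMod (p ^ k))).toAddMonoidHom

theorem taTrans_redTa (p N : ℕ) [Fact p.Prime] [NeZero N] (k : ℕ) (v : taPE p N) :
    taTrans p N k (redTa p N (k + 1) v) = redTa p N k v :=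
  mapPE_castHom_redTa p N k v

/-- A compatible system of Galois actions on the finite levels. -/
structure LevelGalois (p N : ℕ) [Fact p.Prime] [NeZero N] : Type where
  /-- the action on level `k` -/
  ρ : ∀ k : ℕ, GQ →* AddMonoid.End (taLevel p N k)
  compat : ∀ (k : ℕ) (σ : GQ) (x : taLevel p N (k + 1)),
    taTrans p N k (ρ (k + 1) σ x) = ρ k σ (taTrans p N k x)
  finite_level : ∀ k : ℕ, ∃ L : IntermediateField ℚ Qb, FiniteDimensional ℚ L ∧
    ∀ σ : GQ, (∀ x ∈ L, σ x = x) → ρ k σ = 1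
  hecke : ∀ (k : ℕ) (ℓ : Nat.Primes) (σ : GQ) (x : taLevel p N k),
    ρ k σ (heckePE N ℓ ℤ (ZMod (p ^ k)) x) = heckePE N ℓ ℤ (ZMod (p ^ k)) (ρ k σ x)
  unram : ∀ (k : ℕ) (q : ℕ), q.Prime → ¬ q ∣ N → q ≠ p →
    ∀ A : ValuationSubring Qb, A.LiesOverPrime q → ∀ σ ∈ A.inertiaSubgroupIn ℚ, ρ k σ = 1
  eichlerShimura : ∀ (k : ℕ) (ℓ : Nat.Primes), ¬ (ℓ : ℕ) ∣ N → (ℓ : ℕ) ≠ p →
    ∀ A : ValuationSubring Qb, A.LiesOverPrime ℓ → ∀ σ : GQ, A.IsFrobeniusAt σ ℓ →
      ∀ x : taLevel p N k,
        ρ k σ (ρ k σ x) - heckePE N ℓ ℤ (ZMod (p ^ k)) (ρ k σ x) + (ℓ : ℕ) • x = 0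

namespace LevelGalois

variable {p N : ℕ} [Fact p.Prime] [NeZero N] (D : LevelGalois p N)

theorem exists_lift (σ : GQ) (v : taPE p N) :
    ∃ w : taPE p N, ∀ k : ℕ, redTa p N k w = D.ρ k σ (redTa p N k v) :=
  exists_redTa_eq p N (fun k => D.ρ k σ (redTa p N k v)) (fun k => by
    show taTrans p N k (D.ρ (k + 1) σ (redTa p N (k + 1) v)) = D.ρ k σ (redTa p N k v)
    rw [D.compat, taTrans_redTa])

/-- The Galois action on `taPE p N` (as a function). -/
def galFun (σ : GQ) (v : taPE p N) : taPE p N := (D.exists_lift σ v).choose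

theorem redTa_galFun (σ : GQ) (v : taPE p N) (k : ℕ) :
    redTa p N k (D.galFun σ v) = D.ρ k σ (redTa p N k v) :=
  (D.exists_lift σ v).choose_spec k

end LevelGalois

/-- Reduction of a scalar multiple: `a ∈ ℤ_p` acts on level `k` through any integer congruent to
it. -/
theorem redTa_smul_of_eq (p N : ℕ) [Fact p.Prime] [NeZero N] (k : ℕ) (a : ℤ_[p]) (m : ℤ)
    (hm : PadicInt.toZModPow k a = (m : ZMod (p ^ k))) (v : taPE p N) :
    redTa p N k (a • v) = m • redTa p N k v := by
  apply Subtype.ext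
  refine AddMonoidHom.ext fun x => ?_
  show PadicInt.toZModPow k (a * (v : Additive (Gamma0 N) →+ ℤ_[p]) x)
    = m • PadicInt.toZModPow k ((v : Additive (Gamma0 N) →+ ℤ_[p]) x)
  rw [map_mul, hm, zsmul_eq_mul]

namespace LevelGalois

variable {p N : ℕ} [Fact p.Prime] [NeZero N] (D : LevelGalois p N)

/-- The Galois action on `taPE p N = Hom_PE(Γ₀(N), ℤ_p)`. -/
def gal : GQ →* Module.End ℤ_[p] (taPE p N) where
  toFun σ :=
    { toFun := D.galFun σ
      map_add' := fun v w => by
        apply eq_of_redTa_eq p N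
        intro k
        rw [map_add, D.redTa_galFun, D.redTa_galFun, D.redTa_galFun, map_add, map_add]
      map_smul' := fun a v => by
        apply eq_of_redTa_eq p N
        intro k
        obtain ⟨m, hm⟩ := ZMod.intCast_surjective (PadicInt.toZModPow k a)
        rw [RingHom.id_apply, D.redTa_galFun, redTa_smul_of_eq p N k a m hm.symm,
          redTa_smul_of_eq p N k a m hm.symm, D.redTa_galFun, map_zsmul] }
  map_one' := by
    refine LinearMap.ext fun v => ?_
    apply eq_of_redTa_eq p N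
    intro k
    show redTa p N k (D.galFun 1 v) = redTa p N k v
    rw [D.redTa_galFun, map_one]
    rfl
  map_mul' σ τ := by
    refine LinearMap.ext fun v => ?_
    apply eq_of_redTa_eq p N
    intro k
    show redTa p N k (D.galFun (σ * τ) v) = redTa p N k (D.galFun σ (D.galFun τ v))
    rw [D.redTa_galFun, D.redTa_galFun, D.redTa_galFun, map_mul]
    rfl

theorem redTa_gal (σ : GQ) (v : taPE p N) (k : ℕ) :
    redTa p N k (D.gal σ v) = D.ρ k σ (redTa p N k v) :=
  D.redTa_galFun σ v k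

end LevelGalois

/-- **A `TateDatum` from a compatible system of level-wise Galois actions** on the model
`Hom_PE(Γ₀(N), ℤ_p)`. -/
def tateDatumOfLevels {p N : ℕ} [Fact p.Prime] [NeZero N] (D : LevelGalois p N) :
    Fermat.Agent.ESJ.Rep.TateDatum p N where
  Ta := taPE p N
  gal := D.gal
  hecke := heckeTa p N
  gal_continuous := fun n => by
    obtain ⟨L, hL, h⟩ := D.finite_level n
    refine ⟨L, hL, fun σ hσ v => ?_⟩
    refine (redTa_eq_zero_iff p N n _).mp ?_
    rw [map_sub, D.redTa_gal, h σ hσ, sub_eq_zero]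
    rfl
  hecke_comm := heckeTa_comm p N
  hecke_gal := fun ℓ σ => by
    refine LinearMap.ext fun v => ?_
    apply eq_of_redTa_eq p N
    intro k
    show redTa p N k (heckePE N ℓ ℤ_[p] ℤ_[p] (D.gal σ v))
      = redTa p N k (D.gal σ (heckePE N ℓ ℤ_[p] ℤ_[p] v))
    rw [redTa_heckePE, D.redTa_gal, D.redTa_gal, redTa_heckePE, D.hecke]
  unram := fun q hq hqN hqp A hA σ hσ => by
    refine LinearMap.ext fun v => ?_
    apply eq_of_redTa_eq p N
    intro k
    rw [D.redTa_gal, D.unram k q hq hqN hqp A hA σ hσ]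
    rfl
  eichlerShimura := fun ℓ hℓN hℓp A hA σ hσ => by
    refine LinearMap.ext fun v => ?_
    apply eq_of_redTa_eq p N
    intro k
    show redTa p N k (D.gal σ (D.gal σ v) - heckePE N ℓ ℤ_[p] ℤ_[p] (D.gal σ v)
      + ((ℓ : ℕ) : Module.End ℤ_[p] (taPE p N)) v) = redTa p N k 0
    have e : ((ℓ : ℕ) : Module.End ℤ_[p] (taPE p N)) v = (ℓ : ℕ) • v := by
      rw [Module.End.natCast_apply]
    rw [e, map_add, map_sub, map_nsmul, map_zero, redTa_heckePE, D.redTa_gal, D.redTa_gal]
    exact D.eichlerShimura k ℓ hℓN hℓp A hA σ hσ (redTa p N k v)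
  eigen_dim := eigen_dim_taPE p N

end

end Fermat.Agent.ESJ.ParHom
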